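import Mathlib

/-!
# Galois descent for subspaces of `Ω ^ ι`

Let `Ω / K` be a Galois extension (possibly infinite) and `N ⊆ Ω ^ ι` an `Ω`-subspace which is
stable under the coordinatewise action of `Gal(Ω / K)`.  Then `N` is spanned by its `K`-rational
vectors, and if `K` is the fraction field of `W`, by its `W`-integral vectors.
-/

namespace Fermat.Agent.S56lib.Hopf

section descent

variable {K Ω : Type*} [Field K] [Field Ω] [Algebra K Ω] {ι : Type*}

/-- The coordinatewise Galois action on `ι → Ω`. -/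
def coordAct (σ : Ω ≃ₐ[K] Ω) (t : ι → Ω) : ι → Ω := fun i => σ (t i)

@[simp] theorem coordAct_apply (σ : Ω ≃ₐ[K] Ω) (t : ι → Ω) (i : ι) :
    coordAct σ t i = σ (t i) := rfl

variable (K) in
/-- Vectors with coordinates in `K`. -/
def IsRatVec (t : ι → Ω) : Prop := ∀ i, t i ∈ Set.range (algebraMap K Ω)

variable [IsGalois K Ω] [Finite ι]

/-- A nonzero vector of a Galois-stable subspace dominates a nonzero rational vector of the
subspace. -/
theorem exists_ratVec_of_stable (N : Submodule Ω (ι → Ω))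
    (hN : ∀ σ : Ω ≃ₐ[K] Ω, ∀ t ∈ N, coordAct σ t ∈ N) :
    ∀ n : ℕ, ∀ t ∈ N, t ≠ 0 → {i | t i ≠ 0}.ncard ≤ n →
      ∃ s ∈ N, s ≠ 0 ∧ IsRatVec K s ∧ ∀ i, t i = 0 → s i = 0 := by
  intro n
  induction n with
  | zero =>
    intro t _ ht0 hcard
    exfalso
    apply ht0
    have h1 : {i | t i ≠ 0} = ∅ := by
      rw [← Set.ncard_eq_zero (Set.toFinite _)]
      omega
    funext i
    by_contra hi
    have : i ∈ ({i | t i ≠ 0} : Set ι) := hi
    rw [h1] at this
    exact this
  | succ n ih =>
    intro t ht ht0 hcard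
    obtain ⟨i0, hi0⟩ : ∃ i0, t i0 ≠ 0 := by
      by_contra hcon
      exact ht0 (funext fun i => by
        by_contra h
        exact hcon ⟨i, h⟩)
    set t' : ι → Ω := (t i0)⁻¹ • t with ht'
    have ht'N : t' ∈ N := N.smul_mem _ ht
    have ht'0 : t' i0 = 1 := by
      simp [ht', hi0]
    have ht'z : ∀ i, t i = 0 → t' i = 0 := by
      intro i hi
      simp [ht', hi]
    by_cases hfix : ∀ σ : Ω ≃ₐ[K] Ω, coordAct σ t' = t'
    · refine ⟨t', ht'N, ?_, ?_, ht'z⟩
      · intro h
        have := congrFun h i0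
        rw [ht'0] at this
        exact one_ne_zero this
      · intro i
        rw [InfiniteGalois.mem_range_algebraMap_iff_fixed]
        intro σ
        exact congrFun (hfix σ) i
    · obtain ⟨σ, hσ⟩ := not_forall.mp hfix
      set d : ι → Ω := coordAct σ t' - t' with hd
      have hdN : d ∈ N := N.sub_mem (hN σ t' ht'N) ht'N
      have hd0 : d ≠ 0 := by
        intro h
        apply hσ
        rw [hd, sub_eq_zero] at h
        exact h
      have hdz : ∀ i, t i = 0 → d i = 0 := by
        intro i hi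
        simp [hd, ht'z i hi]
      have hdi0 : d i0 = 0 := by
        simp [hd, ht'0]
      have hsub : {i | d i ≠ 0} ⊂ {i | t i ≠ 0} := by
        refine ⟨fun i hi => ?_, fun hcon => ?_⟩
        · intro h
          exact hi (hdz i h)
        · have : i0 ∈ {i | d i ≠ 0} := hcon hi0
          exact this hdi0
      have hlt := Set.ncard_lt_ncard hsub (Set.toFinite _)
      obtain ⟨s, hsN, hs0, hsr, hsz⟩ := ih d hdN hd0 (by omega)
      exact ⟨s, hsN, hs0, hsr, fun i hi => hsz i (hdz i hi)⟩

/-- **Galois descent**: a Galois-stable subspace of `Ω ^ ι` is spanned by its rational vectors. -/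
theorem mem_span_ratVec_of_stable (N : Submodule Ω (ι → Ω))
    (hN : ∀ σ : Ω ≃ₐ[K] Ω, ∀ t ∈ N, coordAct σ t ∈ N) :
    ∀ n : ℕ, ∀ t ∈ N, {i | t i ≠ 0}.ncard ≤ n →
      t ∈ Submodule.span Ω {s | s ∈ N ∧ IsRatVec K s} := by
  intro n
  induction n with
  | zero =>
    intro t _ hcard
    have h1 : {i | t i ≠ 0} = ∅ := by
      rw [← Set.ncard_eq_zero (Set.toFinite _)]
      omega
    have : t = 0 := by
      funext i
      by_contra hi
      have : i ∈ ({i | t i ≠ 0} : Set ι) := hi
      rw [h1] at this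
      exact this
    rw [this]
    exact Submodule.zero_mem _
  | succ n ih =>
    intro t ht hcard
    by_cases ht0 : t = 0
    · rw [ht0]
      exact Submodule.zero_mem _
    obtain ⟨s, hsN, hs0, hsr, hsz⟩ := exists_ratVec_of_stable N hN _ t ht ht0 le_rfl
    obtain ⟨i0, hi0⟩ : ∃ i0, s i0 ≠ 0 := by
      by_contra hcon
      exact hs0 (funext fun i => by
        by_contra h
        exact hcon ⟨i, h⟩)
    have hti0 : t i0 ≠ 0 := fun h => hi0 (hsz i0 h)
    set t' : ι → Ω := t - (t i0 / s i0) • s with ht'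
    have ht'N : t' ∈ N := N.sub_mem ht (N.smul_mem _ hsN)
    have hsub : {i | t' i ≠ 0} ⊂ {i | t i ≠ 0} := by
      refine ⟨fun i hi => ?_, fun hcon => ?_⟩
      · intro h
        apply hi
        simp [ht', h, hsz i h]
      · have : i0 ∈ {i | t' i ≠ 0} := hcon hti0
        apply this
        simp [ht', hi0]
    have hlt := Set.ncard_lt_ncard hsub (Set.toFinite _)
    have h1 := ih t' ht'N (by omega)
    have h2 : t = t' + (t i0 / s i0) • s := by
      rw [ht']
      abel
    rw [h2]
    exact Submodule.add_mem _ h1 (Submodule.smul_mem _ _ (Submodule.subset_span ⟨hsN, hsr⟩))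

end descent

section integral

variable {W K Ω : Type*} [CommRing W] [IsDomain W] [Field K] [Field Ω] [Algebra W K] [Algebra K Ω]
  [Algebra W Ω] [IsScalarTower W K Ω] [IsFractionRing W K] [IsGalois K Ω]
  {ι : Type*} [Finite ι]

/-- **Galois descent, integral form**: a Galois-stable subspace of `Ω ^ ι` is spanned by its
vectors with coordinates in `W`, where `K = Frac W`. -/
theorem mem_span_intVec_of_stable (N : Submodule Ω (ι → Ω))
    (hN : ∀ σ : Ω ≃ₐ[K] Ω, ∀ t ∈ N, coordAct σ t ∈ N) (t : ι → Ω) (ht : t ∈ N) :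
    t ∈ Submodule.span Ω
      {s | s ∈ N ∧ ∃ c : ι → W, s = fun i => algebraMap W Ω (c i)} := by
  have h1 := mem_span_ratVec_of_stable N hN _ t ht le_rfl
  refine Submodule.span_le.mpr ?_ h1
  rintro s ⟨hsN, hsr⟩
  choose k hk using hsr
  obtain ⟨b, hb⟩ := IsLocalization.exist_integer_multiples_of_finite (nonZeroDivisors W) k
  choose c hc using hb
  have hb0 : algebraMap W Ω (b : W) ≠ 0 := by
    rw [IsScalarTower.algebraMap_apply W K Ω]
    intro h
    have h2 := (algebraMap K Ω).injective (h.trans (map_zero _).symm)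
    have h3 := IsFractionRing.injective W K (h2.trans (map_zero _).symm)
    exact nonZeroDivisors.ne_zero b.2 h3
  have h4 : (algebraMap W Ω (b : W)) • s = fun i => algebraMap W Ω (c i) := by
    funext i
    rw [Pi.smul_apply, smul_eq_mul, ← hk i, IsScalarTower.algebraMap_apply W K Ω,
      IsScalarTower.algebraMap_apply W K Ω (c i), hc i, ← map_mul, Algebra.smul_def]
  have h5 : s = (algebraMap W Ω (b : W))⁻¹ • ((algebraMap W Ω (b : W)) • s) := by
    rw [smul_smul, inv_mul_cancel₀ hb0, one_smul]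
  rw [h5]
  exact Submodule.smul_mem _ _ (Submodule.subset_span ⟨N.smul_mem _ hsN, c, h4⟩)

end integral

end Fermat.Agent.S56lib.Hopf
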