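import Mathlib
import Fermat.Agent.S56lib.Hopf.Descent

/-!
# Geometric points of a finite free algebra and Galois descent

`Q` is a finite free `W`-algebra with basis `q`, `K = Frac W`, `Ω / K` Galois.  For a Galois-stable
set `S` of points `Q → Ω` which is *dense* (jointly injective on `Q`), the evaluation map
`Ω ^ A → Ω ^ S`, `c ↦ (x ↦ ∑ c a * x (q a))` is bijective.
-/

open Module

noncomputable section

namespace Fermat.Agent.S56lib.Hopf

section galpts

variable {W K Ω : Type*} [CommRing W] [Field K] [Field Ω] [Algebra W K] [Algebra K Ω]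
  [Algebra W Ω] [IsScalarTower W K Ω] {Q : Type*} [CommRing Q] [Algebra W Q]

/-- The Galois action on points. -/
def galPt (σ : Ω ≃ₐ[K] Ω) (x : Q →ₐ[W] Ω) : Q →ₐ[W] Ω :=
  ((σ : Ω →ₐ[K] Ω).restrictScalars W).comp x

@[simp] theorem galPt_apply (σ : Ω ≃ₐ[K] Ω) (x : Q →ₐ[W] Ω) (h : Q) :
    galPt σ x h = σ (x h) := rfl

theorem galPt_symm_galPt (σ : Ω ≃ₐ[K] Ω) (x : Q →ₐ[W] Ω) : galPt σ.symm (galPt σ x) = x := by
  ext h
  simp

theorem galPt_galPt_symm (σ : Ω ≃ₐ[K] Ω) (x : Q →ₐ[W] Ω) : galPt σ (galPt σ.symm x) = x := by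
  ext h
  simp

variable {A : Type*} [Fintype A] (q : Basis A W Q)

/-- Evaluation of a coefficient vector at a point. -/
def evC (c : A → Ω) (x : Q →ₐ[W] Ω) : Ω := ∑ a, c a * x (q a)

theorem evC_add (c c' : A → Ω) (x : Q →ₐ[W] Ω) : evC q (c + c') x = evC q c x + evC q c' x := by
  simp [evC, add_mul, Finset.sum_add_distrib]

theorem evC_smul (r : Ω) (c : A → Ω) (x : Q →ₐ[W] Ω) : evC q (r • c) x = r * evC q c x := by
  simp [evC, Finset.mul_sum, mul_assoc]

theorem evC_int (w : A → W) (x : Q →ₐ[W] Ω) :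
    evC q (fun a => algebraMap W Ω (w a)) x = x (∑ a, w a • q a) := by
  simp [evC, Algebra.smul_def]

theorem evC_repr (h : Q) (x : Q →ₐ[W] Ω) :
    evC q (fun a => algebraMap W Ω (q.repr h a)) x = x h := by
  rw [evC_int, q.sum_repr]

theorem evC_coordAct (σ : Ω ≃ₐ[K] Ω) (c : A → Ω) (x : Q →ₐ[W] Ω) :
    evC q (coordAct σ c) x = σ (evC q c (galPt σ.symm x)) := by
  simp [evC]

/-- The `Ω`-linear evaluation map. -/
def evL : (A → Ω) →ₗ[Ω] ((Q →ₐ[W] Ω) → Ω) where
  toFun c := evC q c
  map_add' c c' := by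
    funext x
    exact evC_add q c c' x
  map_smul' r c := by
    funext x
    exact evC_smul q r c x

@[simp] theorem evL_apply (c : A → Ω) (x : Q →ₐ[W] Ω) : evL q c x = evC q c x := rfl

omit [Fintype A] in
/-- **Dedekind**: the rows `x ↦ (x (q a))_a` are linearly independent. -/
theorem linearIndependent_rows :
    LinearIndependent Ω (fun x : Q →ₐ[W] Ω => fun a => x (q a)) := by
  have h1 := linearIndependent_algHom_toLinearMap W Q Ω
  let T : (Q →ₗ[W] Ω) →ₗ[Ω] (A → Ω) :=
    { toFun := fun f a => f (q a)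
      map_add' := fun f g => rfl
      map_smul' := fun r f => rfl }
  have hT : LinearMap.ker T = ⊥ := by
    rw [LinearMap.ker_eq_bot']
    intro f hf
    apply q.ext
    intro a
    exact congrFun hf a
  exact h1.map' T hT

include q in
theorem finite_points : Finite (Q →ₐ[W] Ω) :=
  (linearIndependent_rows (Ω := Ω) q).finite_of_isNoetherian

end galpts

section galConv

open WithConv

variable {W K Ω : Type*} [CommRing W] [Field K] [Field Ω] [Algebra W K] [Algebra K Ω]
  [Algebra W Ω] [IsScalarTower W K Ω] {H : Type*} [CommRing H] [Bialgebra W H]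

/-- The Galois action on the monoid of points of a bialgebra. -/
def galConv (σ : Ω ≃ₐ[K] Ω) : WithConv (H →ₐ[W] Ω) →* WithConv (H →ₐ[W] Ω) where
  toFun x := toConv (galPt σ x.ofConv)
  map_one' := by
    apply ofConv_injective
    ext h
    change σ (algebraMap W Ω _) = algebraMap W Ω _
    rw [IsScalarTower.algebraMap_apply W K Ω, AlgEquiv.commutes]
  map_mul' x y := by
    have := AlgHom.comp_convMul_distrib ((σ : Ω →ₐ[K] Ω).restrictScalars W) x y
    exact congrArg toConv this

@[simp] theorem galConv_apply (σ : Ω ≃ₐ[K] Ω) (x : WithConv (H →ₐ[W] Ω)) (h : H) :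
    (galConv σ x).ofConv h = σ (x.ofConv h) := rfl

theorem galConv_ofConv (σ : Ω ≃ₐ[K] Ω) (x : WithConv (H →ₐ[W] Ω)) :
    (galConv σ x).ofConv = galPt σ x.ofConv := rfl

theorem galConv_symm_galConv (σ : Ω ≃ₐ[K] Ω) (x : WithConv (H →ₐ[W] Ω)) :
    galConv σ.symm (galConv σ x) = x := by
  apply ofConv_injective
  ext h
  simp

theorem galConv_galConv_symm (σ : Ω ≃ₐ[K] Ω) (x : WithConv (H →ₐ[W] Ω)) :
    galConv σ (galConv σ.symm x) = x := by
  apply ofConv_injective
  ext h
  simp

end galConv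

section sep

variable {W K Ω : Type*} [CommRing W] [IsDomain W] [Field K] [Field Ω] [Algebra W K]
  [Algebra K Ω] [Algebra W Ω] [IsScalarTower W K Ω] [IsFractionRing W K] [IsGalois K Ω]
  {Q : Type*} [CommRing Q] [Algebra W Q] {A : Type*} [Fintype A] (q : Basis A W Q)

/-- **Separation**: a Galois-stable dense set of points separates `Ω ^ A`. -/
theorem sep_of_dense (S : Set (Q →ₐ[W] Ω)) (hS : ∀ σ : Ω ≃ₐ[K] Ω, ∀ x ∈ S, galPt σ x ∈ S)
    (hd : ∀ h : Q, (∀ x ∈ S, x h = 0) → h = 0) (c : A → Ω)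
    (hc : ∀ x ∈ S, evC q c x = 0) : c = 0 := by
  let N : Submodule Ω (A → Ω) :=
    { carrier := {c | ∀ x ∈ S, evC q c x = 0}
      add_mem' := fun {c c'} h h' x hx => by rw [evC_add, h x hx, h' x hx, add_zero]
      zero_mem' := fun x _ => by simp [evC]
      smul_mem' := fun r c h x hx => by rw [evC_smul, h x hx, mul_zero] }
  have hN : ∀ σ : Ω ≃ₐ[K] Ω, ∀ t ∈ N, coordAct σ t ∈ N := by
    intro σ t ht x hx
    rw [evC_coordAct, ht _ (hS σ.symm x hx), map_zero]
  have h1 := mem_span_intVec_of_stable (W := W) N hN c hc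
  have h2 : Submodule.span Ω
      {s | s ∈ N ∧ ∃ w : A → W, s = fun i => algebraMap W Ω (w i)} ≤ ⊥ := by
    rw [Submodule.span_le]
    rintro s ⟨hsN, w, rfl⟩
    have h3 : ∑ a, w a • q a = 0 := by
      apply hd
      intro x hx
      rw [← evC_int]
      exact hsN x hx
    have h4 : ∀ a, w a = 0 := by
      have := Fintype.linearIndependent_iff.mp q.linearIndependent w h3
      exact this
    change _ = (0 : A → Ω)
    funext a
    simp [h4 a]
  exact (Submodule.mem_bot Ω).mp (h2 h1)

/-- **Interpolation**: on a Galois-stable dense set of points every function is an evaluation. -/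
theorem exists_evC_eq (S : Set (Q →ₐ[W] Ω)) (hS : ∀ σ : Ω ≃ₐ[K] Ω, ∀ x ∈ S, galPt σ x ∈ S)
    (hd : ∀ h : Q, (∀ x ∈ S, x h = 0) → h = 0) (φ : (Q →ₐ[W] Ω) → Ω) :
    ∃ c : A → Ω, ∀ x ∈ S, evC q c x = φ x := by
  classical
  have : Finite (Q →ₐ[W] Ω) := finite_points q
  have : Fintype S := Fintype.ofFinite S
  let E : (A → Ω) →ₗ[Ω] (S → Ω) :=
    { toFun := fun c x => evC q c x
      map_add' := fun c c' => by
        funext x
        exact evC_add q c c' x
      map_smul' := fun r c => by
        funext x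
        exact evC_smul q r c x }
  have hinj : Function.Injective E := by
    rw [← LinearMap.ker_eq_bot, LinearMap.ker_eq_bot']
    intro c hc
    apply sep_of_dense q S hS hd c
    intro x hx
    exact congrFun hc ⟨x, hx⟩
  have h1 : Fintype.card A ≤ Fintype.card S := by
    have := LinearMap.finrank_le_finrank_of_injective hinj
    rwa [Module.finrank_fintype_fun_eq_card, Module.finrank_fintype_fun_eq_card] at this
  have h2 : Fintype.card S ≤ Fintype.card A := by
    have hli : LinearIndependent Ω (fun x : S => fun a => (x : Q →ₐ[W] Ω) (q a)) :=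
      (linearIndependent_rows (Ω := Ω) q).comp _ Subtype.val_injective
    have := hli.fintype_card_le_finrank
    rwa [Module.finrank_fintype_fun_eq_card] at this
  have h3 : finrank Ω (A → Ω) = finrank Ω (S → Ω) := by
    rw [Module.finrank_fintype_fun_eq_card, Module.finrank_fintype_fun_eq_card]
    omega
  have hsurj := (LinearMap.injective_iff_surjective_of_finrank_eq_finrank h3).mp hinj
  obtain ⟨c, hc⟩ := hsurj (fun x => φ x)
  exact ⟨c, fun x hx => congrFun hc ⟨x, hx⟩⟩

end sep

end Fermat.Agent.S56lib.Hopf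

end
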