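import Mathlib

/-!
# A finite free algebra over a `ϖ`-adically complete ring is `ϖ`-adically complete

and therefore idempotents lift from `A / ϖ A` to `A`.
-/

namespace Fermat.Agent.S56lib.Hopf

open Module

section

variable {W A : Type*} [CommRing W] [CommRing A] [Algebra W A] {ι : Type*} [Fintype ι]

/-- Membership in `ϖ ^ n A` in coordinates. -/
theorem mem_span_pow_iff_repr (b : Basis ι W A) (ϖ : W) (n : ℕ) (a : A) :
    a ∈ (Ideal.span {algebraMap W A ϖ}) ^ n ↔ ∀ i, ϖ ^ n ∣ b.repr a i := by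
  rw [Ideal.span_singleton_pow, Ideal.mem_span_singleton]
  constructor
  · rintro ⟨c, rfl⟩ i
    refine ⟨b.repr c i, ?_⟩
    rw [← map_pow, ← Algebra.smul_def, map_smul, Finsupp.smul_apply, smul_eq_mul]
  · intro h
    choose d hd using h
    refine ⟨∑ i, d i • b i, ?_⟩
    rw [← map_pow, ← Algebra.smul_def, Finset.smul_sum]
    conv_lhs => rw [← b.sum_repr a]
    refine Finset.sum_congr rfl fun i _ => ?_
    rw [hd i, mul_smul]

theorem isHausdorff_of_basis (b : Basis ι W A) (ϖ : W) [IsHausdorff (Ideal.span {ϖ}) W] :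
    IsHausdorff (Ideal.span {algebraMap W A ϖ}) A := by
  refine ⟨fun x hx => ?_⟩
  apply b.repr.injective
  ext i
  rw [map_zero, Finsupp.zero_apply]
  refine IsHausdorff.haus ‹_› _ fun n => ?_
  rw [SModEq.zero, smul_eq_mul, Ideal.mul_top, Ideal.span_singleton_pow,
    Ideal.mem_span_singleton]
  have := hx n
  rw [SModEq.zero, smul_eq_mul, Ideal.mul_top] at this
  exact (mem_span_pow_iff_repr b ϖ n x).mp this i

theorem isPrecomplete_of_basis (b : Basis ι W A) (ϖ : W) [IsPrecomplete (Ideal.span {ϖ}) W] :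
    IsPrecomplete (Ideal.span {algebraMap W A ϖ}) A := by
  refine ⟨fun f hf => ?_⟩
  have hcoord : ∀ i, ∃ L : W, ∀ n,
      b.repr (f n) i ≡ L [SMOD ((Ideal.span {ϖ}) ^ n • ⊤ : Submodule W W)] := by
    intro i
    refine IsPrecomplete.prec ‹_› ?_
    intro m n hmn
    have h1 := hf hmn
    rw [SModEq.sub_mem, smul_eq_mul, Ideal.mul_top] at h1 ⊢
    have h2 := (mem_span_pow_iff_repr b ϖ m _).mp h1 i
    rw [map_sub, Finsupp.sub_apply] at h2
    rw [Ideal.span_singleton_pow, Ideal.mem_span_singleton]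
    exact h2
  choose L hL using hcoord
  refine ⟨∑ i, L i • b i, fun n => ?_⟩
  rw [SModEq.sub_mem, smul_eq_mul, Ideal.mul_top, mem_span_pow_iff_repr b ϖ]
  intro i
  have h1 := hL i n
  rw [SModEq.sub_mem, smul_eq_mul, Ideal.mul_top, Ideal.span_singleton_pow,
    Ideal.mem_span_singleton] at h1
  have h2 : b.repr (f n - ∑ j, L j • b j) i = b.repr (f n) i - L i := by
    rw [map_sub, Finsupp.sub_apply]
    congr 1
    classical
    rw [map_sum, Finsupp.finsetSum_apply]
    simp only [map_smul, Basis.repr_self, Finsupp.smul_single, smul_eq_mul, mul_one]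
    rw [Finset.sum_eq_single i]
    · simp
    · intro j _ hj
      simp [hj]
    · intro h; exact absurd (Finset.mem_univ i) h
  rw [h2]
  exact h1

theorem isAdicComplete_of_basis (b : Basis ι W A) (ϖ : W) [IsAdicComplete (Ideal.span {ϖ}) W] :
    IsAdicComplete (Ideal.span {algebraMap W A ϖ}) A :=
  { isHausdorff_of_basis b ϖ, isPrecomplete_of_basis b ϖ with }

end

section idem

open Polynomial

variable {A : Type*} [CommRing A] (J : Ideal A)

/-- Idempotents lift modulo a Henselian ideal. -/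
theorem exists_isIdempotentElem_sub_mem [HenselianRing A J] (a₀ : A) (h : a₀ ^ 2 - a₀ ∈ J) :
    ∃ a : A, IsIdempotentElem a ∧ a - a₀ ∈ J := by
  rcases subsingleton_or_nontrivial A with hA | hA
  · exact ⟨a₀, Subsingleton.elim _ _, by rw [sub_self]; exact zero_mem _⟩
  have hmonic : (X ^ 2 - X : A[X]).Monic := by
    apply Polynomial.monic_X_pow_sub
    exact lt_of_le_of_lt degree_X_le (by norm_num)
  have heval : (X ^ 2 - X : A[X]).eval a₀ ∈ J := by simpa using h
  have hder : IsUnit (Ideal.Quotient.mk J ((X ^ 2 - X : A[X]).derivative.eval a₀)) := by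
    have : (X ^ 2 - X : A[X]).derivative.eval a₀ = 2 * a₀ - 1 := by
      simp
      ring
    rw [this]
    refine IsUnit.of_mul_eq_one (Ideal.Quotient.mk J (2 * a₀ - 1)) ?_
    rw [← map_mul, ← map_one (Ideal.Quotient.mk J), Ideal.Quotient.eq]
    have : (2 * a₀ - 1) * (2 * a₀ - 1) - 1 = 4 * (a₀ ^ 2 - a₀) := by ring
    rw [this]
    exact Ideal.mul_mem_left _ _ h
  obtain ⟨a, ha, haJ⟩ := HenselianRing.is_henselian (X ^ 2 - X : A[X]) hmonic a₀ heval hder
  refine ⟨a, ?_, haJ⟩
  have : a ^ 2 - a = 0 := by simpa [Polynomial.IsRoot] using ha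
  rw [IsIdempotentElem, ← pow_two]
  exact sub_eq_zero.mp this

end idem

end Fermat.Agent.S56lib.Hopf
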