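import Mathlib

/-!
# Reduced monomials

For `q : σ → ℕ`, `redPoly R q` is the module of polynomials in variables `σ` all of whose monomials
`X ^ γ` satisfy `γ i < q i`; it is free of rank `∏ q i`.  For `x : σ → A`, `redEval x q` evaluates
such polynomials at `x`.  "The reduced monomials in `x` are an `R`-basis of `A`" is
`Function.Bijective (redEval x q)`.
-/

namespace Fermat.Agent.S56lib.Hopf

open MvPolynomial

section defs

variable {σ : Type*} (R : Type*) [CommSemiring R]

/-- Exponent vectors `γ` with `γ i < q i` for all `i`. -/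
def redSet (q : σ → ℕ) : Set (σ →₀ ℕ) := {γ | ∀ i, γ i < q i}

/-- Polynomials all of whose monomials are reduced. -/
noncomputable def redPoly (q : σ → ℕ) : Submodule R (MvPolynomial σ R) :=
  restrictSupport R (redSet q)

variable {R}

theorem mem_redPoly_iff {q : σ → ℕ} {P : MvPolynomial σ R} :
    P ∈ redPoly R q ↔ ∀ γ, coeff γ P ≠ 0 → ∀ i, γ i < q i := by
  unfold redPoly
  rw [mem_restrictSupport_iff]
  constructor
  · intro h γ hγ
    exact h (by simpa using hγ)
  · intro h γ hγ
    exact h γ (by simpa using hγ)

theorem monomial_mem_redPoly {q : σ → ℕ} {γ : σ →₀ ℕ} (hγ : ∀ i, γ i < q i) (c : R) :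
    monomial γ c ∈ redPoly R q := by
  classical
  rw [mem_redPoly_iff]
  intro γ' h
  rw [coeff_monomial] at h
  split_ifs at h with h'
  · subst h'; exact hγ
  · exact absurd rfl h

/-- The index set of reduced monomials is a product of `Fin`s. -/
noncomputable def redSetEquiv [Finite σ] (q : σ → ℕ) : redSet q ≃ (Π i, Fin (q i)) where
  toFun γ i := ⟨γ.1 i, γ.2 i⟩
  invFun f := ⟨Finsupp.equivFunOnFinite.symm (fun i => (f i : ℕ)), fun i => by simp⟩
  left_inv γ := by
    ext i
    simp
  right_inv f := by
    ext i
    simp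

instance [Finite σ] (q : σ → ℕ) : Finite (redSet q) := Finite.of_equiv _ (redSetEquiv q).symm

theorem natCard_redSet [Fintype σ] (q : σ → ℕ) : Nat.card (redSet q) = ∏ i, q i := by
  rw [Nat.card_congr (redSetEquiv q), Nat.card_pi]
  simp

end defs

section ring

variable {σ : Type*} {R : Type*} [CommRing R]

instance [Finite σ] (q : σ → ℕ) : Module.Free R (redPoly R q) :=
  Module.Free.of_basis (basisRestrictSupport R (redSet q))

instance [Finite σ] (q : σ → ℕ) : Module.Finite R (redPoly R q) :=
  Module.Finite.of_basis (basisRestrictSupport R (redSet q))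

theorem finrank_redPoly [Fintype σ] [Nontrivial R] (q : σ → ℕ) :
    Module.finrank R (redPoly R q) = ∏ i, q i := by
  have := Module.finrank_eq_nat_card_basis (basisRestrictSupport R (redSet q))
  rw [natCard_redSet] at this
  exact this

variable {A : Type*} [CommRing A] [Algebra R A]

/-- Evaluation of reduced polynomials at `x`. -/
noncomputable def redEval (x : σ → A) (q : σ → ℕ) : redPoly R q →ₗ[R] A :=
  (aeval x).toLinearMap ∘ₗ (redPoly R q).subtype

@[simp]
theorem redEval_apply (x : σ → A) (q : σ → ℕ) (P : redPoly R q) :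
    redEval x q P = aeval x (P : MvPolynomial σ R) := rfl

/-- If the `x i` generate `A` and `x i ^ q i = 0`, the reduced monomials span `A`. -/
theorem redEval_surjective [Fintype σ] (x : σ → A) (q : σ → ℕ) (hx : ∀ i, x i ^ q i = 0)
    (hgen : Algebra.adjoin R (Set.range x) = ⊤) :
    Function.Surjective (redEval (R := R) x q) := by
  classical
  have key : ∀ P : MvPolynomial σ R, aeval x P ∈ LinearMap.range (redEval (R := R) x q) := by
    intro P
    induction P using MvPolynomial.induction_on' with
    | monomial γ c =>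
      by_cases hγ : ∀ i, γ i < q i
      · exact ⟨⟨monomial γ c, monomial_mem_redPoly hγ c⟩, rfl⟩
      · push Not at hγ
        obtain ⟨i, hi⟩ := hγ
        have : aeval x (monomial γ c) = 0 := by
          rw [aeval_monomial, Finsupp.prod_fintype _ _ (fun _ => pow_zero _)]
          rw [Finset.prod_eq_zero (Finset.mem_univ i), mul_zero]
          rw [← Nat.sub_add_cancel hi, pow_add, hx i, mul_zero]
        rw [this]
        exact zero_mem _
    | add P Q hP hQ =>
      rw [map_add]
      exact add_mem hP hQ
  intro a
  have ha : a ∈ Algebra.adjoin R (Set.range x) := hgen ▸ Algebra.mem_top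
  rw [Algebra.adjoin_range_eq_range_aeval] at ha
  obtain ⟨P, rfl⟩ := ha
  exact key P

/-- A polynomial all of whose monomials have degree at least `d`, evaluated at elements of an
ideal `I`, lies in `I ^ d`. -/
theorem aeval_mem_pow (I : Ideal A) (x : σ → A) (hx : ∀ i, x i ∈ I) (d : ℕ)
    (P : MvPolynomial σ R) (hP : ∀ γ, coeff γ P ≠ 0 → d ≤ γ.degree) : aeval x P ∈ I ^ d := by
  rw [P.as_sum, map_sum]
  refine Ideal.sum_mem _ fun γ hγ => ?_
  rw [aeval_monomial]
  refine Ideal.mul_mem_left _ _ ?_
  have h1 : (γ.prod fun i k => x i ^ k) ∈ I ^ γ.degree := by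
    rw [Finsupp.degree_apply, Finsupp.prod, ← Finset.prod_pow_eq_pow_sum]
    exact Ideal.prod_mem_prod fun i _ => Ideal.pow_mem_pow (hx i) _
  exact Ideal.pow_le_pow_right (hP γ (by simpa using hγ)) h1

end ring

end Fermat.Agent.S56lib.Hopf
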