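import Mathlib
import Fermat.Agent.S56lib.Hopf.MonoBasis

/-!
# Lifting a reduced-monomial basis through a radical ideal

If `A'` is a finite projective module over `W`, `𝔪 ≤ rad W`, and the reduced monomials in `X`
form a basis of `A' / 𝔪 A'` (expressed by `hS`, `hI` below), then they form a `W`-basis of `A'`.
-/

namespace Fermat.Agent.S56lib.Hopf

open MvPolynomial

section

variable {W A' : Type*} [CommRing W] [CommRing A'] [Algebra W A'] {σ : Type*}

/-- A reduced polynomial with coefficients in `𝔪` lies in `𝔪 • ⊤`. -/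
theorem mem_smul_top_of_coeff_mem (𝔪 : Ideal W) (q : σ → ℕ) (P : redPoly W q)
    (hP : ∀ γ, coeff γ (P : MvPolynomial σ W) ∈ 𝔪) :
    P ∈ 𝔪 • (⊤ : Submodule W (redPoly W q)) := by
  classical
  have hmem : ∀ γ ∈ (P : MvPolynomial σ W).support, (monomial γ (1 : W)) ∈ redPoly W q := by
    intro γ hγ
    refine monomial_mem_redPoly ?_ 1
    exact (mem_redPoly_iff.mp P.2) γ (by simpa using hγ)
  have hsum : P = ∑ γ ∈ (P : MvPolynomial σ W).support.attach,
      coeff γ.1 (P : MvPolynomial σ W) • (⟨monomial γ.1 1, hmem γ.1 γ.2⟩ : redPoly W q) := by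
    apply Subtype.ext
    rw [Submodule.coe_sum]
    conv_lhs => rw [(P : MvPolynomial σ W).as_sum]
    rw [← Finset.sum_attach]
    refine Finset.sum_congr rfl fun γ _ => ?_
    rw [Submodule.coe_smul, smul_monomial, smul_eq_mul, mul_one]
  rw [hsum]
  exact Submodule.sum_mem _ fun γ _ =>
    Submodule.smul_mem_smul (hP γ.1) Submodule.mem_top

variable [Module.Finite W A'] [Module.Projective W A'] [Finite σ]

theorem redEval_bijective_of_mod (𝔪 : Ideal W) (h𝔪 : 𝔪 ≤ Ideal.jacobson ⊥) (X : σ → A')
    (q : σ → ℕ)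
    (hS : ∀ a : A', ∃ P : redPoly W q, a - redEval X q P ∈ 𝔪 • (⊤ : Submodule W A'))
    (hI : ∀ P : redPoly W q, redEval X q P = 0 → ∀ γ, coeff γ (P : MvPolynomial σ W) ∈ 𝔪) :
    Function.Bijective (redEval (R := W) X q) := by
  set T := redEval (R := W) X q with hT
  have hsurj : Function.Surjective T := by
    rw [← LinearMap.range_eq_top, eq_top_iff]
    refine Submodule.le_of_le_smul_of_le_jacobson_bot (Module.finite_def.mp inferInstance) h𝔪 ?_
    intro a _
    obtain ⟨P, hP⟩ := hS a
    have : a = T P + (a - T P) := by abel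
    rw [this]
    exact Submodule.add_mem_sup (LinearMap.mem_range_self T P) hP
  refine ⟨?_, hsurj⟩
  obtain ⟨s, hs⟩ := Module.projective_lifting_property T LinearMap.id hsurj
  set πK : redPoly W q →ₗ[W] redPoly W q := LinearMap.id - s ∘ₗ T with hπK
  have hTπ : ∀ P, T (πK P) = 0 := by
    intro P
    have := LinearMap.congr_fun hs (T P)
    simp only [LinearMap.comp_apply, LinearMap.id_apply] at this
    simp [hπK, this]
  have hπ_of_ker : ∀ P, T P = 0 → πK P = P := by
    intro P hP
    simp [hπK, hP]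
  have hrange : LinearMap.range πK = LinearMap.ker T := by
    apply le_antisymm
    · rintro _ ⟨P, rfl⟩
      exact hTπ P
    · intro P hP
      exact ⟨P, hπ_of_ker P hP⟩
  have hker : LinearMap.ker T = ⊥ := by
    refine Submodule.eq_bot_of_le_smul_of_le_jacobson_bot 𝔪 _ ?_ ?_ h𝔪
    · rw [← hrange, LinearMap.range_eq_map]
      exact Submodule.FG.map _ (Module.finite_def.mp inferInstance)
    · intro P hP
      have h1 : P ∈ 𝔪 • (⊤ : Submodule W (redPoly W q)) :=
        mem_smul_top_of_coeff_mem 𝔪 q P (hI P hP)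
      have h2 : πK P ∈ (𝔪 • (⊤ : Submodule W (redPoly W q))).map πK :=
        Submodule.mem_map_of_mem h1
      rw [Submodule.map_smul'', Submodule.map_top, hrange, hπ_of_ker P hP] at h2
      exact h2
  exact LinearMap.ker_eq_bot.mp hker

end

end Fermat.Agent.S56lib.Hopf
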