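import Mathlib

/-!
# Augmentation ideal of a commutative Hopf algebra, and groups killed by `n`

For a commutative bialgebra `A` over `R` with augmentation ideal `I = ker ε` we prove
`Δ x ≡ x ⊗ 1 + 1 ⊗ x - ε x` modulo `I ⊗ I`, deduce that the convolution product of two
algebra maps is additive on `I / I²`, and that if the `n`-th convolution power of the identity
is trivial (the group scheme is killed by `n`) then `n • I ⊆ I²`.
-/

open TensorProduct Coalgebra Bialgebra WithConv

namespace Fermat.Agent.S56lib.Hopf

variable (R A : Type*) [CommRing R] [CommRing A] [Bialgebra R A]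

/-- The augmentation ideal `ker ε` of a bialgebra. -/
def augIdeal : Ideal A := RingHom.ker (counitAlgHom R A)

variable {R A}

theorem mem_augIdeal {x : A} : x ∈ augIdeal R A ↔ counit (R := R) x = 0 := by
  simp [augIdeal, RingHom.mem_ker]

theorem sub_counit_mem_augIdeal (x : A) :
    x - algebraMap R A (counit (R := R) x) ∈ augIdeal R A := by
  rw [mem_augIdeal, map_sub, Bialgebra.counit_algebraMap, sub_self]

/-- The `R`-linear projection `x ↦ x - ε x` of `A` onto its augmentation ideal. -/
def augProj : A →ₗ[R] A := LinearMap.id - Algebra.linearMap R A ∘ₗ counit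

theorem augProj_apply (x : A) :
    augProj (R := R) x = x - algebraMap R A (counit (R := R) x) := rfl

theorem augProj_mem (x : A) : augProj (R := R) x ∈ augIdeal R A := sub_counit_mem_augIdeal x

variable (R A) in
/-- The ideal of `A ⊗ A` which is the image of `I ⊗ I`. -/
def augSq : Ideal (A ⊗[R] A) :=
  (augIdeal R A).map (Algebra.TensorProduct.includeLeft : A →ₐ[R] A ⊗[R] A) *
    (augIdeal R A).map (Algebra.TensorProduct.includeRight : A →ₐ[R] A ⊗[R] A)

theorem map_augProj_mem_augSq (t : A ⊗[R] A) :
    TensorProduct.map (augProj (R := R)) (augProj (R := R)) t ∈ augSq R A := by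
  induction t using TensorProduct.induction_on with
  | zero => simp
  | tmul a b =>
    rw [TensorProduct.map_tmul]
    have : augProj (R := R) a ⊗ₜ[R] augProj (R := R) b =
        (augProj (R := R) a ⊗ₜ[R] (1 : A)) * ((1 : A) ⊗ₜ[R] augProj (R := R) b) := by
      rw [Algebra.TensorProduct.tmul_mul_tmul, mul_one, one_mul]
    rw [this]
    exact Ideal.mul_mem_mul (Ideal.mem_map_of_mem _ (augProj_mem a))
      (Ideal.mem_map_of_mem _ (augProj_mem b))
  | add x y hx hy => rw [map_add]; exact Ideal.add_mem _ hx hy

/-- `Δ x - x ⊗ 1 - 1 ⊗ x + ε x ∈ I ⊗ I`. -/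
theorem comul_sub_mem_augSq (x : A) :
    comul (R := R) x - x ⊗ₜ[R] (1 : A) - (1 : A) ⊗ₜ[R] x +
      algebraMap R (A ⊗[R] A) (counit (R := R) x) ∈ augSq R A := by
  have h := map_augProj_mem_augSq (R := R) (comul (R := R) x)
  have e : TensorProduct.map (augProj (R := R)) (augProj (R := R)) (comul (R := R) x) =
      comul (R := R) x - x ⊗ₜ[R] (1 : A) - (1 : A) ⊗ₜ[R] x +
        algebraMap R (A ⊗[R] A) (counit (R := R) x) := by
    have h1 : TensorProduct.map (Algebra.linearMap R A ∘ₗ counit) (LinearMap.id : A →ₗ[R] A)
        (comul (R := R) x) = (1 : A) ⊗ₜ[R] x := by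
      have := Coalgebra.rTensor_counit_comul (R := R) x
      have h2 : TensorProduct.map (Algebra.linearMap R A ∘ₗ counit) (LinearMap.id : A →ₗ[R] A) =
          (Algebra.linearMap R A).rTensor A ∘ₗ (counit (R := R) (A := A)).rTensor A := by
        ext a b; simp
      rw [h2, LinearMap.comp_apply, this]
      simp
    have h3 : TensorProduct.map (LinearMap.id : A →ₗ[R] A) (Algebra.linearMap R A ∘ₗ counit)
        (comul (R := R) x) = x ⊗ₜ[R] (1 : A) := by
      have := Coalgebra.lTensor_counit_comul (R := R) x
      have h2 : TensorProduct.map (LinearMap.id : A →ₗ[R] A) (Algebra.linearMap R A ∘ₗ counit) =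
          (Algebra.linearMap R A).lTensor A ∘ₗ (counit (R := R) (A := A)).lTensor A := by
        ext a b; simp
      rw [h2, LinearMap.comp_apply, this]
      simp
    have h4 : TensorProduct.map (Algebra.linearMap R A ∘ₗ (counit : A →ₗ[R] R))
        (Algebra.linearMap R A ∘ₗ (counit : A →ₗ[R] R)) (comul (R := R) x) =
        algebraMap R (A ⊗[R] A) (counit (R := R) x) := by
      have h2 : TensorProduct.map (Algebra.linearMap R A ∘ₗ (counit : A →ₗ[R] R))
          (Algebra.linearMap R A ∘ₗ (counit : A →ₗ[R] R)) =
          TensorProduct.map (Algebra.linearMap R A ∘ₗ (counit : A →ₗ[R] R))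
            (LinearMap.id : A →ₗ[R] A) ∘ₗ
            TensorProduct.map (LinearMap.id : A →ₗ[R] A)
              (Algebra.linearMap R A ∘ₗ (counit : A →ₗ[R] R)) := by
        ext a b; simp
      rw [h2, LinearMap.comp_apply, h3, TensorProduct.map_tmul]
      simp only [LinearMap.coe_comp, Function.comp_apply, Algebra.linearMap_apply,
        LinearMap.id_coe, id_eq]
      rw [Algebra.algebraMap_eq_smul_one, Algebra.algebraMap_eq_smul_one,
        ← TensorProduct.smul_tmul', Algebra.TensorProduct.one_def]
    have h5 : TensorProduct.map (augProj (R := R) (A := A)) (augProj (R := R) (A := A)) =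
        LinearMap.id
        - TensorProduct.map (LinearMap.id : A →ₗ[R] A)
            (Algebra.linearMap R A ∘ₗ (counit : A →ₗ[R] R))
        - TensorProduct.map (Algebra.linearMap R A ∘ₗ (counit : A →ₗ[R] R))
            (LinearMap.id : A →ₗ[R] A)
        + TensorProduct.map (Algebra.linearMap R A ∘ₗ (counit : A →ₗ[R] R))
            (Algebra.linearMap R A ∘ₗ (counit : A →ₗ[R] R)) := by
      ext a b
      simp only [augProj, TensorProduct.AlgebraTensorModule.curry_apply,
        LinearMap.restrictScalars_self, TensorProduct.curry_apply, TensorProduct.map_tmul,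
        LinearMap.sub_apply, LinearMap.id_coe, id_eq, LinearMap.coe_comp, Function.comp_apply,
        Algebra.linearMap_apply, LinearMap.add_apply]
      rw [TensorProduct.sub_tmul, TensorProduct.tmul_sub, TensorProduct.tmul_sub]
      abel
    rw [h5]
    simp only [LinearMap.add_apply, LinearMap.sub_apply, LinearMap.id_coe, id_eq, h1, h3, h4]
  rwa [e] at h


section Conv

variable {C : Type*} [CommRing C] [Algebra R C]

/-- The convolution product of two algebra maps is additive modulo the product of the images
of the augmentation ideal. -/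
theorem convMul_apply_sub_mem (f g : WithConv (A →ₐ[R] C)) (x : A) :
    (f * g) x - f x - g x + algebraMap R C (counit (R := R) x) ∈
      (augIdeal R A).map f.ofConv * (augIdeal R A).map g.ofConv := by
  set φ : A ⊗[R] A →ₐ[R] C :=
    Algebra.TensorProduct.lift f.ofConv g.ofConv (fun _ _ => Commute.all _ _) with hφ
  have h1 : (f * g) x = φ (comul (R := R) x) := AlgHom.convMul_apply f g x
  have h2 : (f * g) x - f x - g x + algebraMap R C (counit (R := R) x) =
      φ (comul (R := R) x - x ⊗ₜ[R] (1 : A) - (1 : A) ⊗ₜ[R] x +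
        algebraMap R (A ⊗[R] A) (counit (R := R) x)) := by
    rw [map_add, map_sub, map_sub, ← h1, AlgHom.commutes]
    simp [hφ]
  rw [h2]
  have h3 : (augSq R A).map φ ≤ (augIdeal R A).map f.ofConv * (augIdeal R A).map g.ofConv := by
    unfold augSq
    rw [Ideal.map_mul]
    refine Ideal.mul_mono ?_ ?_
    · refine Ideal.map_le_iff_le_comap.mpr (Ideal.map_le_iff_le_comap.mpr fun a ha => ?_)
      rw [Ideal.mem_comap, Ideal.mem_comap]
      have : φ ((Algebra.TensorProduct.includeLeft : A →ₐ[R] A ⊗[R] A) a) = f.ofConv a := by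
        simp [hφ]
      rw [this]
      exact Ideal.mem_map_of_mem _ ha
    · refine Ideal.map_le_iff_le_comap.mpr (Ideal.map_le_iff_le_comap.mpr fun a ha => ?_)
      rw [Ideal.mem_comap, Ideal.mem_comap]
      have : φ ((Algebra.TensorProduct.includeRight : A →ₐ[R] A ⊗[R] A) a) = g.ofConv a := by
        simp [hφ]
      rw [this]
      exact Ideal.mem_map_of_mem _ ha
  exact h3 (Ideal.mem_map_of_mem _ (comul_sub_mem_augSq x))

end Conv

/-- An algebra endomorphism is *augmented* if it commutes with the counit. -/
def IsAugmented (f : A →ₐ[R] A) : Prop := (counitAlgHom R A).comp f = counitAlgHom R A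

theorem IsAugmented.map_mem {f : A →ₐ[R] A} (hf : IsAugmented f) {x : A}
    (hx : x ∈ augIdeal R A) : f x ∈ augIdeal R A := by
  rw [mem_augIdeal] at hx ⊢
  have := congrArg (fun g : A →ₐ[R] R => g x) hf
  simpa [hx] using this

theorem IsAugmented.map_le {f : A →ₐ[R] A} (hf : IsAugmented f) :
    (augIdeal R A).map f ≤ augIdeal R A :=
  Ideal.map_le_iff_le_comap.mpr fun _ hx => hf.map_mem hx

theorem isAugmented_id : IsAugmented (AlgHom.id R A) := AlgHom.comp_id _

theorem counit_convOne : (1 : WithConv (A →ₐ[R] R)) = toConv (counitAlgHom R A) := by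
  rw [AlgHom.convOne_def]
  congr 1

theorem isAugmented_convMul {f g : WithConv (A →ₐ[R] A)} (hf : IsAugmented f.ofConv)
    (hg : IsAugmented g.ofConv) : IsAugmented (f * g).ofConv := by
  unfold IsAugmented at *
  rw [AlgHom.comp_convMul_distrib, hf, hg, ← counit_convOne, mul_one, counit_convOne]

theorem isAugmented_convOne : IsAugmented (1 : WithConv (A →ₐ[R] A)).ofConv := by
  unfold IsAugmented
  ext x
  simp [AlgHom.convOne_apply]

theorem isAugmented_convPow {f : WithConv (A →ₐ[R] A)} (hf : IsAugmented f.ofConv) (n : ℕ) :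
    IsAugmented (f ^ n).ofConv := by
  induction n with
  | zero => rw [pow_zero]; exact isAugmented_convOne
  | succ n ih => rw [pow_succ]; exact isAugmented_convMul ih hf

/-- For augmented `f`, `g` and `x ∈ I`: `(f * g) x ≡ f x + g x` modulo `I²`. -/
theorem convMul_apply_sub_mem_sq {f g : WithConv (A →ₐ[R] A)} (hf : IsAugmented f.ofConv)
    (hg : IsAugmented g.ofConv) {x : A} (hx : x ∈ augIdeal R A) :
    (f * g) x - f x - g x ∈ augIdeal R A ^ 2 := by
  have h := convMul_apply_sub_mem f g x
  rw [mem_augIdeal.mp hx, map_zero, add_zero] at h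
  rw [pow_two]
  exact Ideal.mul_mono hf.map_le hg.map_le h

variable (R A) in
/-- The `n`-th convolution power of the identity: the map `[n]^*` on the Hopf algebra. -/
noncomputable def convId (n : ℕ) : WithConv (A →ₐ[R] A) := toConv (AlgHom.id R A) ^ n

theorem isAugmented_convId (n : ℕ) : IsAugmented (convId R A n).ofConv :=
  isAugmented_convPow isAugmented_id n

/-- `[n]^* x ≡ n x` modulo `I²` for `x ∈ I`. -/
theorem convId_apply_sub_mem_sq (n : ℕ) {x : A} (hx : x ∈ augIdeal R A) :
    convId R A n x - n • x ∈ augIdeal R A ^ 2 := by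
  induction n with
  | zero =>
    have : convId R A 0 x = 0 := by
      simp [convId, mem_augIdeal.mp hx]
    rw [this, zero_smul, sub_zero]
    exact Ideal.zero_mem _
  | succ n ih =>
    have h := convMul_apply_sub_mem_sq (isAugmented_convId (R := R) (A := A) n)
      (isAugmented_id (R := R) (A := A)) hx
    have e : convId R A (n + 1) = convId R A n * toConv (AlgHom.id R A) := pow_succ _ _
    rw [e]
    have : (convId R A n * toConv (AlgHom.id R A)) x - (n + 1) • x =
        ((convId R A n * toConv (AlgHom.id R A)) x - convId R A n x -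
          (toConv (AlgHom.id R A)) x) + (convId R A n x - n • x) := by
      rw [add_smul, one_smul]
      change _ = _ - _ - x + _
      abel
    rw [this]
    exact Ideal.add_mem _ h ih

variable (R A) in
/-- The bialgebra (group scheme) is killed by `n`: `[n]^* = η ∘ ε`. -/
def IsKilledBy (n : ℕ) : Prop := convId R A n = 1

/-- If the group scheme is killed by `n` then `n • I ⊆ I²`. -/
theorem IsKilledBy.nsmul_mem_sq {n : ℕ} (h : IsKilledBy R A n) {x : A}
    (hx : x ∈ augIdeal R A) : n • x ∈ augIdeal R A ^ 2 := by
  have h1 := convId_apply_sub_mem_sq (R := R) n hx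
  rw [h, AlgHom.convOne_apply, mem_augIdeal.mp hx, map_zero, zero_sub] at h1
  simpa using (Ideal.neg_mem_iff _).mp h1

end Fermat.Agent.S56lib.Hopf
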