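import Fermat.Agent.S56lib.Hopf.Aug

/-!
# Differentials of a commutative Hopf algebra killed by `n`

If `A` is a commutative Hopf algebra over `R` with `[n]^* = η ∘ ε` then `n • Ω[A⁄R] = 0`.
The proof uses the Maurer–Cartan form `λ = id⁻¹ * d`, computed in the convolution group of
algebra maps from `A` to the trivial square-zero extension `A ⊕ Ω`.
-/

open TensorProduct Coalgebra Bialgebra WithConv TrivSqZeroExt

namespace Fermat.Agent.S56lib.Hopf

section TSZ

variable {R A M : Type*} [CommRing R] [CommRing A] [Algebra R A] [AddCommGroup M] [Module A M]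
  [Module R M] [IsScalarTower R A M]

/-- The right action of a commutative ring on a module, needed for `TrivSqZeroExt`. -/
@[reducible] noncomputable def opModule : Module Aᵐᵒᵖ M :=
  Module.compHom M ((RingHom.id A).fromOpposite fun _ _ => mul_comm _ _)

attribute [local instance] opModule

theorem opModule_isCentralScalar : IsCentralScalar A M := ⟨fun _ _ => rfl⟩

attribute [local instance] opModule_isCentralScalar

/-- A derivation `D : A → M` as an algebra map `A → A ⊕ M`, `a ↦ (a, D a)`. -/
noncomputable def derivAlgHom (D : Derivation R A M) : A →ₐ[R] TrivSqZeroExt A M :=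
  AlgHom.ofLinearMap
    ((inlAlgHom R A M).toLinearMap + (inrHom A M).restrictScalars R ∘ₗ D.toLinearMap)
    (by simp)
    (fun a b => by
      ext
      · simp
      · simp [add_comm])

@[simp] theorem fst_derivAlgHom (D : Derivation R A M) (a : A) : (derivAlgHom D a).fst = a := by
  simp [derivAlgHom]

@[simp] theorem snd_derivAlgHom (D : Derivation R A M) (a : A) : (derivAlgHom D a).snd = D a := by
  simp [derivAlgHom]

end TSZ

section MC

variable {R A M : Type*} [CommRing R] [CommRing A] [HopfAlgebra R A] [AddCommGroup M] [Module A M]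
  [Module R M] [IsScalarTower R A M]

attribute [local instance] opModule opModule_isCentralScalar

/-- Convolution inverse of an algebra map out of a Hopf algebra: `f * (f ∘ S) = 1`. -/
theorem convMul_comp_antipode {C : Type*} [CommRing C] [Algebra R C] (f : A →ₐ[R] C) :
    toConv f * toConv (f.comp (HopfAlgebra.antipodeAlgHom R A)) = 1 := by
  have h := AlgHom.comp_convMul_distrib f (toConv (AlgHom.id R A))
    (toConv (AlgHom.id R A))⁻¹
  rw [mul_inv_cancel] at h
  have h' : toConv f * toConv (f.comp (HopfAlgebra.antipodeAlgHom R A)) =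
      toConv (f.comp (1 : WithConv (A →ₐ[R] A)).ofConv) := by
    rw [h]; rfl
  rw [h']
  apply WithConv.ofConv_injective
  ext x
  simp [AlgHom.convOne_apply]

/-- The Maurer–Cartan map `Λ = inl⁻¹ * (inl + inr ∘ D)` as an algebra map `A → A ⊕ M`. -/
noncomputable def mcHom (D : Derivation R A M) : WithConv (A →ₐ[R] TrivSqZeroExt A M) :=
  toConv ((inlAlgHom R A M).comp (HopfAlgebra.antipodeAlgHom R A)) * toConv (derivAlgHom D)

theorem inl_mul_mcHom (D : Derivation R A M) :
    toConv (inlAlgHom R A M) * mcHom D = toConv (derivAlgHom D) := by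
  rw [mcHom, ← mul_assoc, convMul_comp_antipode, one_mul]

theorem fst_mcHom (D : Derivation R A M) (a : A) :
    ((mcHom D) a).fst = algebraMap R A (counit (R := R) a) := by
  have h : (fstHom R A M).comp (mcHom D).ofConv =
      (1 : WithConv (A →ₐ[R] A)).ofConv := by
    rw [mcHom, AlgHom.comp_convMul_distrib]
    have e1 : (fstHom R A M).comp
        (toConv ((inlAlgHom R A M).comp (HopfAlgebra.antipodeAlgHom R A))).ofConv =
        ((toConv (AlgHom.id R A))⁻¹).ofConv := by
      ext x; rfl
    have e2 : (fstHom R A M).comp (toConv (derivAlgHom D)).ofConv = AlgHom.id R A := by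
      ext x; simp
    rw [e1, e2]
    simp
  have := congrArg (fun g : A →ₐ[R] A => g a) h
  simpa using this

/-- `Λ` kills `I²`. -/
theorem mcHom_apply_eq_zero_of_mem_sq (D : Derivation R A M) {y : A}
    (hy : y ∈ augIdeal R A ^ 2) : (mcHom D) y = 0 := by
  have hle : augIdeal R A ^ 2 ≤ RingHom.ker ((mcHom D).ofConv : A →+* TrivSqZeroExt A M) := by
    rw [pow_two, Ideal.mul_le]
    intro u hu v hv
    rw [RingHom.mem_ker]
    change (mcHom D).ofConv (u * v) = 0
    rw [map_mul]
    have hu' : ((mcHom D) u).fst = 0 := by rw [fst_mcHom, mem_augIdeal.mp hu, map_zero]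
    have hv' : ((mcHom D) v).fst = 0 := by rw [fst_mcHom, mem_augIdeal.mp hv, map_zero]
    ext
    · simp only [fst_mul, fst_zero]
      change ((mcHom D) u).fst * ((mcHom D) v).fst = 0
      rw [hu', zero_mul]
    · simp only [snd_mul, snd_zero]
      change ((mcHom D) u).fst • ((mcHom D) v).snd +
        MulOpposite.op ((mcHom D) v).fst • ((mcHom D) u).snd = 0
      rw [hu', hv']
      simp
  exact hle hy

/-- If the group is killed by `n`, the Maurer–Cartan form is killed by `n`. -/
theorem nsmul_snd_mcHom (D : Derivation R A M) {n : ℕ} (h : IsKilledBy R A n) (b : A) :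
    n • ((mcHom D) b).snd = 0 := by
  have hx := sub_counit_mem_augIdeal (R := R) b
  have h1 : (mcHom D) (n • (b - algebraMap R A (counit (R := R) b))) = 0 :=
    mcHom_apply_eq_zero_of_mem_sq D (h.nsmul_mem_sq hx)
  change (mcHom D).ofConv (n • (b - algebraMap R A (counit (R := R) b))) = 0 at h1
  rw [map_nsmul, map_sub, AlgHom.commutes] at h1
  have h2 := congrArg TrivSqZeroExt.snd h1
  simp only [snd_smul, snd_sub, snd_zero] at h2
  have h3 : (algebraMap R (TrivSqZeroExt A M) (counit (R := R) b)).snd = 0 := by
    rw [TrivSqZeroExt.algebraMap_eq_inl']; simp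
  rw [h3, sub_zero] at h2
  exact h2

/-- If the group is killed by `n` then `n • D a = 0` for every derivation `D`. -/
theorem nsmul_derivation_eq_zero (D : Derivation R A M) {n : ℕ} (h : IsKilledBy R A n) (a : A) :
    n • D a = 0 := by
  have key : ∀ t : A ⊗[R] A, n • ((Algebra.TensorProduct.lift (inlAlgHom R A M)
      (mcHom D).ofConv (fun _ _ => Commute.all _ _)) t).snd = 0 := by
    intro t
    induction t using TensorProduct.induction_on with
    | zero => simp
    | tmul x y =>
      rw [Algebra.TensorProduct.lift_tmul]
      simp only [snd_mul, inlAlgHom_apply, fst_inl, snd_inl, smul_zero, add_zero]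
      rw [smul_comm]
      change x • n • ((mcHom D) y).snd = 0
      rw [nsmul_snd_mcHom D h, smul_zero]
    | add x y hx hy => rw [map_add, snd_add, smul_add, hx, hy, add_zero]
  have e : derivAlgHom D a = (Algebra.TensorProduct.lift (inlAlgHom R A M)
      (mcHom D).ofConv (fun _ _ => Commute.all _ _)) (comul (R := R) a) := by
    have := congrArg (fun g : WithConv (A →ₐ[R] TrivSqZeroExt A M) => g a) (inl_mul_mcHom D)
    simp only at this
    rw [← AlgHom.convMul_apply]
    exact this.symm
  have := key (comul (R := R) a)
  rwa [← e, snd_derivAlgHom] at this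

end MC

section Kaehler

variable {R A : Type*} [CommRing R] [CommRing A] [HopfAlgebra R A]

/-- If the group scheme `Spec A` is killed by `n` then `n • Ω[A⁄R] = 0`. -/
theorem nsmul_kaehler_eq_zero {n : ℕ} (h : IsKilledBy R A n) (w : Ω[A⁄R]) : n • w = 0 := by
  have hspan := KaehlerDifferential.span_range_derivation R A
  have hw : w ∈ Submodule.span A (Set.range (KaehlerDifferential.D R A)) := by
    rw [hspan]; trivial
  induction hw using Submodule.span_induction with
  | mem x hx =>
    obtain ⟨a, rfl⟩ := hx
    exact nsmul_derivation_eq_zero (KaehlerDifferential.D R A) h a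
  | zero => simp
  | add x y _ _ hx hy => rw [smul_add, hx, hy, add_zero]
  | smul a x _ hx => rw [smul_comm, hx, smul_zero]

end Kaehler

end Fermat.Agent.S56lib.Hopf
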