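import Fermat.Agent.S56lib.Hopf.HopfSub

/-!
# The torsor isomorphism and freeness over a Hopf subalgebra

For a Hopf subalgebra `B ⊆ A` of a commutative Hopf algebra over a field `k`, with
`J = B⁺ A`, we construct the `A`-algebra map `Ψ : A ⊗ A → A ⊗ A/J`,
`a ⊗ a' ↦ ∑ a a'₁ ⊗ [a'₂]`, show that it is surjective and `B`-balanced, and deduce (for `A`
local) that `dim A = dim B * dim A/J`.
-/

open TensorProduct Coalgebra Bialgebra WithConv

namespace Fermat.Agent.S56lib.Hopf

variable {k A : Type*} [Field k] [CommRing A] [HopfAlgebra k A]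

/-- `toConv (f ∘ S) * toConv f = 1`. -/
theorem comp_antipode_convMul {C : Type*} [CommRing C] [Algebra k C] (f : A →ₐ[k] C) :
    toConv (f.comp (HopfAlgebra.antipodeAlgHom k A)) * toConv f = 1 := by
  have h := AlgHom.comp_convMul_distrib f (toConv (AlgHom.id k A))⁻¹ (toConv (AlgHom.id k A))
  rw [inv_mul_cancel] at h
  have h' : toConv (f.comp (HopfAlgebra.antipodeAlgHom k A)) * toConv f =
      toConv (f.comp (1 : WithConv (A →ₐ[k] A)).ofConv) := by
    rw [h]; rfl
  rw [h']
  apply WithConv.ofConv_injective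
  ext x
  simp [AlgHom.convOne_apply]

variable (B : Subalgebra k A)

/-- The ideal `B⁺ A` of `A` generated by the augmentation ideal of a subalgebra `B`. -/
def augSpan : Ideal A := Ideal.span {a | a ∈ B ∧ counit (R := k) a = 0}

theorem sub_counit_mem_augSpan {b : A} (hb : b ∈ B) :
    b - algebraMap k A (counit (R := k) b) ∈ augSpan B :=
  Ideal.subset_span ⟨B.sub_mem hb (B.algebraMap_mem _), by simp⟩

theorem augSpan_le_augIdeal : augSpan B ≤ augIdeal k A :=
  Ideal.span_le.mpr fun _ ha => mem_augIdeal.mpr ha.2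

/-- The shearing map `a ⊗ a' ↦ ∑ a a'₁ ⊗ a'₂`, an `A`-algebra endomorphism of `A ⊗ A`. -/
noncomputable def shear : A ⊗[k] A →ₐ[A] A ⊗[k] A :=
  Algebra.TensorProduct.lift (Algebra.TensorProduct.includeLeft (S := A))
    (comulAlgHom k A) (fun _ _ => Commute.all _ _)

@[simp] theorem shear_tmul (a a' : A) :
    shear (k := k) (a ⊗ₜ[k] a') = (a ⊗ₜ[k] (1 : A)) * comul (R := k) a' := by
  simp [shear]

/-- `Ψ : A ⊗ A → A ⊗ A/J`. -/
noncomputable def torsorMap : A ⊗[k] A →ₐ[A] A ⊗[k] (A ⧸ augSpan B) :=
  (Algebra.TensorProduct.map (AlgHom.id A A) (Ideal.Quotient.mkₐ k (augSpan B))).comp shear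

theorem map_mk_incl₂ (t : ↥B ⊗[k] ↥B) :
    Algebra.TensorProduct.map (AlgHom.id A A) (Ideal.Quotient.mkₐ k (augSpan B))
      (IsHopfSub.incl₂ B t) =
    Algebra.TensorProduct.map (AlgHom.id A A)
      ((Algebra.ofId k (A ⧸ augSpan B)).comp (counitAlgHom k A)) (IsHopfSub.incl₂ B t) := by
  induction t using TensorProduct.induction_on with
  | zero => simp
  | tmul u v =>
    simp only [Algebra.TensorProduct.map_tmul, Subalgebra.coe_val, AlgHom.coe_id, id_eq,
      Ideal.Quotient.mkₐ_eq_mk, AlgHom.coe_comp, Function.comp_apply, counitAlgHom_apply,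
      Algebra.ofId_apply]
    congr 1
    have h := sub_counit_mem_augSpan B v.2
    rw [← Ideal.Quotient.eq] at h
    rw [h]
    rfl
  | add x y hx hy => simp only [map_add, hx, hy]

variable {B}

/-- `Ψ (1 ⊗ b) = b ⊗ 1` for `b ∈ B`. -/
theorem torsorMap_one_tmul (hB : IsHopfSub B) {b : A} (hb : b ∈ B) :
    torsorMap B ((1 : A) ⊗ₜ[k] b) = b ⊗ₜ[k] (1 : A ⧸ augSpan B) := by
  obtain ⟨t, ht⟩ := hB.comul_mem b hb
  have ht' : IsHopfSub.incl₂ B t = comul (R := k) b := ht
  unfold torsorMap
  rw [AlgHom.comp_apply, shear_tmul, ← Algebra.TensorProduct.one_def, one_mul, ← ht']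
  have h1 := map_mk_incl₂ B t
  refine h1.trans ?_
  rw [ht']
  have h2 := Coalgebra.lTensor_counit_comul (R := k) b
  have h3 : ∀ s : A ⊗[k] A, Algebra.TensorProduct.map (AlgHom.id A A)
      ((Algebra.ofId k (A ⧸ augSpan B)).comp (counitAlgHom k A)) s =
      TensorProduct.map (LinearMap.id : A →ₗ[k] A) (Algebra.linearMap k (A ⧸ augSpan B))
        ((counit (R := k) (A := A)).lTensor A s) := by
    intro s
    induction s using TensorProduct.induction_on with
    | zero => simp
    | tmul u v => simp [Algebra.ofId_apply]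
    | add x y hx hy => simp only [map_add, hx, hy]
  rw [h3, h2]
  simp

/-- `Ψ` is `B`-balanced: `Ψ (a ⊗ b a') = Ψ (a b ⊗ a')`. -/
theorem torsorMap_balanced (hB : IsHopfSub B) {b : A} (hb : b ∈ B) (a a' : A) :
    torsorMap B (a ⊗ₜ[k] (b * a')) = torsorMap B ((a * b) ⊗ₜ[k] a') := by
  have e1 : a ⊗ₜ[k] (b * a') = (a ⊗ₜ[k] (1 : A)) * ((1 : A) ⊗ₜ[k] b) * ((1 : A) ⊗ₜ[k] a') := by
    simp [Algebra.TensorProduct.tmul_mul_tmul]
  have e2 : (a * b) ⊗ₜ[k] a' = (a ⊗ₜ[k] (1 : A)) * (b ⊗ₜ[k] (1 : A)) * ((1 : A) ⊗ₜ[k] a') := by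
    simp [Algebra.TensorProduct.tmul_mul_tmul]
  rw [e1, e2, map_mul, map_mul, map_mul, map_mul, torsorMap_one_tmul hB hb]
  congr 2
  have : b ⊗ₜ[k] (1 : A) = algebraMap A (A ⊗[k] A) b := rfl
  rw [this, AlgHom.commutes]
  rfl


section Surj

/-- `a' ↦ ∑ S a'₁ ⊗ a'₂`. -/
noncomputable def invShearRight : A →ₐ[k] A ⊗[k] A :=
  (toConv ((Algebra.TensorProduct.includeLeft : A →ₐ[k] A ⊗[k] A).comp
      (HopfAlgebra.antipodeAlgHom k A)) *
    toConv (Algebra.TensorProduct.includeRight : A →ₐ[k] A ⊗[k] A)).ofConv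

theorem comulAlgHom_eq_convMul :
    comulAlgHom k A = (toConv (Algebra.TensorProduct.includeLeft : A →ₐ[k] A ⊗[k] A) *
      toConv (Algebra.TensorProduct.includeRight : A →ₐ[k] A ⊗[k] A)).ofConv := by
  rw [AlgHom.convMul_def]
  have : (Algebra.TensorProduct.lmul' k).comp
      (Algebra.TensorProduct.map (Algebra.TensorProduct.includeLeft : A →ₐ[k] A ⊗[k] A)
        (Algebra.TensorProduct.includeRight : A →ₐ[k] A ⊗[k] A)) = AlgHom.id k (A ⊗[k] A) := by
    ext a <;> simp
  rw [← AlgHom.comp_assoc, this, AlgHom.id_comp]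

theorem shear_invShearRight (c : A) :
    shear (k := k) (invShearRight (k := k) c) = (1 : A) ⊗ₜ[k] c := by
  have h0 : ((shear (k := k) (A := A)).restrictScalars k).comp
      (Algebra.TensorProduct.includeLeft : A →ₐ[k] A ⊗[k] A) =
      (Algebra.TensorProduct.includeLeft : A →ₐ[k] A ⊗[k] A) := by
    ext a; simp [shear]
  have h1 : ((shear (k := k) (A := A)).restrictScalars k).comp
      (Algebra.TensorProduct.includeRight : A →ₐ[k] A ⊗[k] A) = comulAlgHom k A := by
    ext a; simp [shear]
  have h2 : ((shear (k := k) (A := A)).restrictScalars k).comp (invShearRight (k := k)) =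
      (Algebra.TensorProduct.includeRight : A →ₐ[k] A ⊗[k] A) := by
    unfold invShearRight
    rw [AlgHom.comp_convMul_distrib]
    rw [← AlgHom.comp_assoc, h0, h1, comulAlgHom_eq_convMul]
    simp only [toConv_ofConv]
    rw [← mul_assoc, comp_antipode_convMul, one_mul, ofConv_toConv]
  have := congrArg (fun f : A →ₐ[k] A ⊗[k] A => f c) h2
  simpa using this

variable (B) in
theorem torsorMap_invShearRight (c : A) :
    torsorMap B (invShearRight (k := k) c) =
      (1 : A) ⊗ₜ[k] (Ideal.Quotient.mk (augSpan B) c) := by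
  unfold torsorMap
  rw [AlgHom.comp_apply, shear_invShearRight]
  simp

variable (B) in
theorem torsorMap_surjective : Function.Surjective (torsorMap B) := by
  intro y
  induction y using TensorProduct.induction_on with
  | zero => exact ⟨0, map_zero _⟩
  | tmul a c =>
    obtain ⟨c, rfl⟩ := Ideal.Quotient.mk_surjective c
    refine ⟨a • invShearRight (k := k) c, ?_⟩
    rw [map_smul, torsorMap_invShearRight, TensorProduct.smul_tmul', smul_eq_mul, mul_one]
  | add x y hx hy =>
    obtain ⟨x', rfl⟩ := hx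
    obtain ⟨y', rfl⟩ := hy
    exact ⟨x' + y', map_add _ _ _⟩

end Surj

section Free

open Module

/-- The augmentation ideal of the subalgebra `B`, as an ideal of `B`. -/
noncomputable def subAug (B : Subalgebra k A) : Ideal ↥B := RingHom.ker (IsHopfSub.counitHom B)

theorem mem_subAug {B : Subalgebra k A} {b : ↥B} :
    b ∈ subAug B ↔ counit (R := k) (b : A) = 0 := by
  simp [subAug, RingHom.mem_ker, IsHopfSub.counitHom]

variable [FiniteDimensional k A]

omit [FiniteDimensional k A] in
theorem subAug_le_jacobson (hnil : ∀ x ∈ augIdeal k A, IsNilpotent x) :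
    subAug B ≤ Ideal.jacobson ⊥ := by
  intro m hm
  rw [Ideal.mem_jacobson_bot]
  intro y
  have h1 : IsNilpotent ((m : A)) := hnil _ (mem_augIdeal.mpr (mem_subAug.mp hm))
  have h2 : IsNilpotent m := by
    obtain ⟨n, hn⟩ := h1
    exact ⟨n, Subtype.ext (by simpa using hn)⟩
  exact ((Commute.all m y).isNilpotent_mul_right h2).isUnit_add_one

omit [FiniteDimensional k A] in
theorem augSpan_le_smul_top :
    ((augSpan B).restrictScalars ↥B : Submodule ↥B A) ≤ subAug B • (⊤ : Submodule ↥B A) := by
  intro x hx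
  change x ∈ augSpan B at hx
  unfold augSpan at hx
  rw [Ideal.span, ] at hx
  induction hx using Submodule.span_induction with
  | mem x hx =>
    have : x = (⟨x, hx.1⟩ : ↥B) • (1 : A) := by
      rw [Subalgebra.smul_def]; simp
    rw [this]
    exact Submodule.smul_mem_smul (mem_subAug.mpr hx.2) Submodule.mem_top
  | zero => exact Submodule.zero_mem _
  | add x y _ _ hx hy => exact Submodule.add_mem _ hx hy
  | smul a x _ hx =>
    refine Submodule.smul_induction_on hx (fun r hr n _ => ?_) (fun x y hx hy => ?_)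
    · have : a • r • n = r • (a • n) := by
        rw [Subalgebra.smul_def, Subalgebra.smul_def, smul_eq_mul, smul_eq_mul, smul_eq_mul,
          smul_eq_mul]; ring
      rw [this]
      exact Submodule.smul_mem_smul hr Submodule.mem_top
    · rw [smul_add]; exact Submodule.add_mem _ hx hy

/-- Lifts of a `k`-basis of `A/J` generate `A` as a `B`-module (Nakayama). -/
theorem span_lifts_eq_top (hnil : ∀ x ∈ augIdeal k A, IsNilpotent x) {ι : Type*} [Fintype ι]
    (bC : Basis ι k (A ⧸ augSpan B)) (a : ι → A)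
    (ha : ∀ i, Ideal.Quotient.mk (augSpan B) (a i) = bC i) :
    Submodule.span ↥B (Set.range a) = ⊤ := by
  have hfin : Module.Finite ↥B A := Module.Finite.of_restrictScalars_finite k ↥B A
  rw [eq_top_iff]
  refine Submodule.le_of_le_smul_of_le_jacobson_bot (Module.finite_def.mp hfin)
    (subAug_le_jacobson hnil) ?_
  intro x _
  have hx : x - ∑ i, bC.repr (Ideal.Quotient.mk (augSpan B) x) i • a i ∈ augSpan B := by
    rw [← Ideal.Quotient.eq]
    conv_lhs => rw [← bC.sum_repr (Ideal.Quotient.mk (augSpan B) x)]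
    rw [map_sum]
    refine Finset.sum_congr rfl fun i _ => ?_
    rw [← ha i]
    rfl
  have h1 : ∑ i, bC.repr (Ideal.Quotient.mk (augSpan B) x) i • a i ∈
      Submodule.span ↥B (Set.range a) := by
    refine Submodule.sum_mem _ fun i _ => ?_
    have : bC.repr (Ideal.Quotient.mk (augSpan B) x) i • a i =
        (algebraMap k ↥B (bC.repr (Ideal.Quotient.mk (augSpan B) x) i)) • a i := by
      rw [algebraMap_smul]
    rw [this]
    exact Submodule.smul_mem _ _ (Submodule.subset_span ⟨i, rfl⟩)
  have h2 := augSpan_le_smul_top (B := B) hx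
  have : x = ∑ i, bC.repr (Ideal.Quotient.mk (augSpan B) x) i • a i +
      (x - ∑ i, bC.repr (Ideal.Quotient.mk (augSpan B) x) i • a i) := by abel
  rw [this]
  exact Submodule.add_mem_sup h1 h2


omit [FiniteDimensional k A] in
/-- The images `Ψ (1 ⊗ aᵢ)` of lifts of a basis of `A/J` span `A ⊗ A/J` over `A`. -/
theorem span_torsorMap_lifts (hB : IsHopfSub B) {ι : Type*} [Fintype ι] (a : ι → A)
    (hspan : Submodule.span ↥B (Set.range a) = ⊤) :
    Submodule.span A (Set.range fun i => torsorMap B ((1 : A) ⊗ₜ[k] a i)) = ⊤ := by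
  have key : ∀ a' : A, ∀ α : A, torsorMap B (α ⊗ₜ[k] a') ∈
      Submodule.span A (Set.range fun i => torsorMap B ((1 : A) ⊗ₜ[k] a i)) := by
    intro a'
    have ha' : a' ∈ Submodule.span ↥B (Set.range a) := by rw [hspan]; trivial
    induction ha' using Submodule.span_induction with
    | mem z hz =>
      intro α
      obtain ⟨i, rfl⟩ := hz
      have : α ⊗ₜ[k] a i = α • ((1 : A) ⊗ₜ[k] a i) := by
        rw [TensorProduct.smul_tmul', smul_eq_mul, mul_one]
      rw [this, map_smul]
      exact Submodule.smul_mem _ _ (Submodule.subset_span ⟨i, rfl⟩)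
    | zero => intro α; rw [TensorProduct.tmul_zero, map_zero]; exact Submodule.zero_mem _
    | add u v _ _ hu hv =>
      intro α
      rw [TensorProduct.tmul_add, map_add]; exact Submodule.add_mem _ (hu α) (hv α)
    | smul b u _ hu =>
      intro α
      rw [Subalgebra.smul_def, smul_eq_mul, torsorMap_balanced hB b.2]
      exact hu _
  rw [eq_top_iff]
  rintro y -
  obtain ⟨x, rfl⟩ := torsorMap_surjective B y
  induction x using TensorProduct.induction_on with
  | zero => rw [map_zero]; exact Submodule.zero_mem _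
  | tmul α a' => exact key a' α
  | add x y hx hy => rw [map_add]; exact Submodule.add_mem _ hx hy

/-- Lifts of a basis of `A/J` are linearly independent over `B`. -/
theorem linearIndependent_lifts (hB : IsHopfSub B) {ι : Type*} [Fintype ι]
    (bC : Basis ι k (A ⧸ augSpan B)) (a : ι → A)
    (hspan : Submodule.span ↥B (Set.range a) = ⊤) : LinearIndependent ↥B a := by
  have : Nontrivial A := Bialgebra.nontrivial k
  have hcard : Fintype.card ι = finrank A (A ⊗[k] (A ⧸ augSpan B)) := by
    rw [Module.finrank_baseChange, Module.finrank_eq_card_basis bC]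
  have hli : LinearIndependent A fun i => torsorMap B ((1 : A) ⊗ₜ[k] a i) :=
    linearIndependent_of_top_le_span_of_card_eq_finrank
      (le_of_eq (span_torsorMap_lifts hB a hspan).symm) hcard
  rw [Fintype.linearIndependent_iff]
  intro g hg i
  have h1 : torsorMap B ((1 : A) ⊗ₜ[k] (∑ j, g j • a j)) = 0 := by
    rw [hg, TensorProduct.tmul_zero, map_zero]
  rw [TensorProduct.tmul_sum, map_sum] at h1
  have h2 : ∀ j, torsorMap B ((1 : A) ⊗ₜ[k] (g j • a j)) =
      (g j : A) • torsorMap B ((1 : A) ⊗ₜ[k] a j) := by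
    intro j
    rw [Subalgebra.smul_def, smul_eq_mul, torsorMap_balanced hB (g j).2, one_mul, ← map_smul,
      TensorProduct.smul_tmul', smul_eq_mul, mul_one]
  simp only [h2] at h1
  have := Fintype.linearIndependent_iff.mp hli (fun j => (g j : A)) h1 i
  exact Subtype.ext this

/-- **Dimension formula** for a Hopf subalgebra of a local finite-dimensional commutative
Hopf algebra: `dim A = dim B * dim A/B⁺A`. -/
theorem finrank_eq_finrank_sub_mul (hB : IsHopfSub B)
    (hnil : ∀ x ∈ augIdeal k A, IsNilpotent x) :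
    finrank k A = finrank k ↥B * finrank k (A ⧸ augSpan B) := by
  have : Nontrivial A := Bialgebra.nontrivial k
  have : Nontrivial ↥B := inferInstance
  let bC := Module.finBasis k (A ⧸ augSpan B)
  choose a ha using fun i => Ideal.Quotient.mk_surjective (bC i)
  have hspan := span_lifts_eq_top hnil bC a ha
  have hli := linearIndependent_lifts hB bC a hspan
  let bA : Basis _ ↥B A := Basis.mk hli (le_of_eq hspan.symm)
  have : Module.Free ↥B A := Module.Free.of_basis bA
  rw [← Module.finrank_mul_finrank k ↥B A, Module.finrank_eq_card_basis bA]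
  simp

end Free

end Fermat.Agent.S56lib.Hopf
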