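import Mathlib
import Fermat.Agent.S56lib.Hopf.Aug
import Fermat.Agent.S56lib.Hopf.Omega
import Fermat.Agent.S56lib.Hopf.Torsor

/-!
# Identity component and translations

For a commutative Hopf algebra `A` with augmentation ideal `I`, if `I ^ N = I ^ (2N)` then `I ^ N`
is a Hopf ideal and `A ⧸ I ^ N` is the Hopf algebra of the identity component.  Every `R`-point
`g : A → R` gives a translation automorphism `τ` of the algebra `A` with `ε ∘ τ = g`, which
identifies `A ⧸ (ker g) ^ N` with `A ⧸ I ^ N`.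
-/

open TensorProduct Coalgebra Bialgebra WithConv

namespace Fermat.Agent.S56lib.Hopf

section HopfIdeal

variable {R A : Type*} [CommRing R] [CommRing A] [HopfAlgebra R A]

variable (R) in
/-- The ideal `J ⊗ A + A ⊗ J` of `A ⊗ A`. -/
def sideIdeal (J : Ideal A) : Ideal (A ⊗[R] A) :=
  J.map (Algebra.TensorProduct.includeLeft : A →ₐ[R] A ⊗[R] A) ⊔
    J.map (Algebra.TensorProduct.includeRight : A →ₐ[R] A ⊗[R] A)

theorem comul_mem_sideIdeal {x : A} (hx : x ∈ augIdeal R A) :
    comul (R := R) x ∈ sideIdeal R (augIdeal R A) := by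
  have h := comul_sub_mem_augSq (R := R) x
  have h0 : algebraMap R (A ⊗[R] A) (counit (R := R) x) = 0 := by
    rw [mem_augIdeal.mp hx, map_zero]
  rw [h0, add_zero] at h
  have h1 : comul (R := R) x - x ⊗ₜ[R] (1 : A) - (1 : A) ⊗ₜ[R] x ∈ sideIdeal R (augIdeal R A) :=
    Ideal.mem_sup_left (Ideal.mul_le_left h)
  have h2 : x ⊗ₜ[R] (1 : A) ∈ sideIdeal R (augIdeal R A) :=
    Ideal.mem_sup_left (Ideal.mem_map_of_mem
      (Algebra.TensorProduct.includeLeft : A →ₐ[R] A ⊗[R] A) hx)
  have h3 : (1 : A) ⊗ₜ[R] x ∈ sideIdeal R (augIdeal R A) :=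
    Ideal.mem_sup_right (Ideal.mem_map_of_mem
      (Algebra.TensorProduct.includeRight : A →ₐ[R] A ⊗[R] A) hx)
  have e : comul (R := R) x = (comul (R := R) x - x ⊗ₜ[R] (1 : A) - (1 : A) ⊗ₜ[R] x) +
      x ⊗ₜ[R] (1 : A) + (1 : A) ⊗ₜ[R] x := by abel
  rw [e]
  exact Ideal.add_mem _ (Ideal.add_mem _ h1 h2) h3

theorem sideIdeal_le_ker (J : Ideal A) :
    sideIdeal R J ≤ RingHom.ker
      (Algebra.TensorProduct.map (Ideal.Quotient.mkₐ R J) (Ideal.Quotient.mkₐ R J)) := by
  refine sup_le ?_ ?_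
  · rw [Ideal.map_le_iff_le_comap]
    intro j hj
    simp [RingHom.mem_ker, Ideal.Quotient.eq_zero_iff_mem.mpr hj]
  · rw [Ideal.map_le_iff_le_comap]
    intro j hj
    simp [RingHom.mem_ker, Ideal.Quotient.eq_zero_iff_mem.mpr hj]

theorem comul_mem_sideIdeal_pow {N : ℕ}
    (hstab : (augIdeal R A) ^ (N + N) = (augIdeal R A) ^ N) {x : A}
    (hx : x ∈ (augIdeal R A) ^ N) : comul (R := R) x ∈ sideIdeal R ((augIdeal R A) ^ N) := by
  rw [← hstab] at hx
  have h1 : comulAlgHom R A x ∈ ((augIdeal R A) ^ (N + N)).map (comulAlgHom R A) :=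
    Ideal.mem_map_of_mem _ hx
  rw [Ideal.map_pow] at h1
  have h2 : (augIdeal R A).map (comulAlgHom R A) ≤ sideIdeal R (augIdeal R A) := by
    rw [Ideal.map_le_iff_le_comap]
    intro a ha
    exact comul_mem_sideIdeal ha
  have h3 := Ideal.pow_right_mono h2 (N + N) h1
  have h4 := Ideal.sup_pow_add_le_pow_sup_pow h3
  rw [← Ideal.map_pow, ← Ideal.map_pow] at h4
  exact h4

theorem antipode_mem_pow {N : ℕ} {x : A} (hx : x ∈ (augIdeal R A) ^ N) :
    HopfAlgebra.antipode R x ∈ (augIdeal R A) ^ N := by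
  have h1 : HopfAlgebra.antipodeAlgHom R A x ∈
      ((augIdeal R A) ^ N).map (HopfAlgebra.antipodeAlgHom R A) := Ideal.mem_map_of_mem _ hx
  rw [Ideal.map_pow] at h1
  have h2 : (augIdeal R A).map (HopfAlgebra.antipodeAlgHom R A) ≤ augIdeal R A := by
    rw [Ideal.map_le_iff_le_comap]
    intro a ha
    rw [Ideal.mem_comap, mem_augIdeal]
    have := AlgHom.congr_fun (AlgHom.counitAlgHom_comp_antipodeAlgHom (R := R) (A := A)) a
    simp only [AlgHom.comp_apply, counitAlgHom_apply] at this
    rw [this]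
    exact mem_augIdeal.mp ha
  exact Ideal.pow_right_mono h2 N h1

/-- A stable power of the augmentation ideal is a Hopf ideal. -/
theorem isHopfIdeal_pow {N : ℕ} (hN : 1 ≤ N)
    (hstab : (augIdeal R A) ^ (N + N) = (augIdeal R A) ^ N) :
    ((augIdeal R A) ^ N).IsHopfIdeal R where
  counit_eq_zero := fun x hx => by
    have : x ∈ augIdeal R A := Ideal.pow_le_self (by omega) hx
    exact mem_augIdeal.mp this
  map_mkQ_comul_eq_zero := fun x hx =>
    RingHom.mem_ker.mp (sideIdeal_le_ker _ (comul_mem_sideIdeal_pow hstab hx))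
  antipode_mem := fun x hx => antipode_mem_pow hx

end HopfIdeal

section Quot

variable {R A : Type*} [CommRing R] [CommRing A] [HopfAlgebra R A]

/-- In `A ⧸ I ^ N` the augmentation ideal is nil. -/
theorem isNilpotent_of_mem_augIdeal_quot {N : ℕ} [((augIdeal R A) ^ N).IsHopfIdeal R]
    (y : A ⧸ (augIdeal R A) ^ N) (hy : y ∈ augIdeal R (A ⧸ (augIdeal R A) ^ N)) :
    IsNilpotent y := by
  obtain ⟨a, rfl⟩ := Ideal.Quotient.mk_surjective y
  have ha : a ∈ augIdeal R A := by
    rw [mem_augIdeal] at hy ⊢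
    exact hy
  refine ⟨N, ?_⟩
  rw [← map_pow, Ideal.Quotient.eq_zero_iff_mem]
  exact Ideal.pow_mem_pow ha N

/-- Powers of an ideal in an Artinian ring stabilise. -/
theorem exists_pow_stable [IsArtinianRing A] (I : Ideal A) :
    ∃ N : ℕ, 1 ≤ N ∧ I ^ (N + N) = I ^ N := by
  let f : ℕ →o (Ideal A)ᵒᵈ :=
    ⟨fun n => OrderDual.toDual (I ^ n), fun m n h => Ideal.pow_le_pow_right h⟩
  obtain ⟨n, hn⟩ := IsArtinian.monotone_stabilizes f
  refine ⟨n + 1, by omega, ?_⟩
  have h1 := hn (n + 1) (by omega)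
  have h2 := hn (n + 1 + (n + 1)) (by omega)
  have h1' : I ^ n = I ^ (n + 1) := congrArg OrderDual.ofDual h1
  have h2' : I ^ n = I ^ (n + 1 + (n + 1)) := congrArg OrderDual.ofDual h2
  rw [← h1', ← h2']

end Quot

section Transl

variable {R A : Type*} [CommRing R] [CommRing A] [HopfAlgebra R A]

/-- `toConv (f ∘ S) * toConv f = 1` (over any commutative base ring). -/
theorem comp_antipode_convMul' {C : Type*} [CommRing C] [Algebra R C] (f : A →ₐ[R] C) :
    toConv (f.comp (HopfAlgebra.antipodeAlgHom R A)) * toConv f = 1 := by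
  have h := AlgHom.comp_convMul_distrib f (toConv (AlgHom.id R A))⁻¹ (toConv (AlgHom.id R A))
  rw [inv_mul_cancel] at h
  have h' : toConv (f.comp (HopfAlgebra.antipodeAlgHom R A)) * toConv f =
      toConv (f.comp (1 : WithConv (A →ₐ[R] A)).ofConv) := by
    rw [h]; rfl
  rw [h']
  apply WithConv.ofConv_injective
  ext x
  simp [AlgHom.convOne_apply]

/-- Translation by an `R`-point `g`: `a ↦ ∑ g a₁ • a₂`. -/
noncomputable def transl (g : A →ₐ[R] R) : A →ₐ[R] A :=
  (toConv ((Algebra.ofId R A).comp g) * toConv (AlgHom.id R A)).ofConv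

theorem transl_comp_ofId (g : A →ₐ[R] R) (h : A →ₐ[R] R) :
    (transl g).comp ((Algebra.ofId R A).comp h) = (Algebra.ofId R A).comp h := by
  ext a
  simp

theorem transl_comp (g h : A →ₐ[R] R) :
    (transl g).comp (transl h) = transl (toConv h * toConv g).ofConv := by
  unfold transl
  rw [AlgHom.comp_convMul_distrib]
  have e1 : toConv ((toConv ((Algebra.ofId R A).comp g) * toConv (AlgHom.id R A)).ofConv.comp
      (toConv ((Algebra.ofId R A).comp h)).ofConv) = toConv ((Algebra.ofId R A).comp h) := by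
    congr 1
    exact transl_comp_ofId g h
  have e2 : toConv ((toConv ((Algebra.ofId R A).comp g) * toConv (AlgHom.id R A)).ofConv.comp
      (toConv (AlgHom.id R A)).ofConv) =
      toConv ((Algebra.ofId R A).comp g) * toConv (AlgHom.id R A) := by
    rfl
  rw [e1, e2, ← mul_assoc]
  congr 2
  have := AlgHom.comp_convMul_distrib (Algebra.ofId R A) (toConv h) (toConv g)
  exact (congrArg toConv this).symm

theorem transl_one : transl (counitAlgHom R A) = AlgHom.id R A := by
  unfold transl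
  have : toConv ((Algebra.ofId R A).comp (counitAlgHom R A)) = (1 : WithConv (A →ₐ[R] A)) := by
    rw [AlgHom.convOne_def]
  rw [this, one_mul]

theorem counit_comp_transl (g : A →ₐ[R] R) : (counitAlgHom R A).comp (transl g) = g := by
  unfold transl
  rw [AlgHom.comp_convMul_distrib]
  have e1 : toConv ((counitAlgHom R A).comp (toConv ((Algebra.ofId R A).comp g)).ofConv) =
      toConv g := by
    congr 1
    ext a
    simp
  have e2 : toConv ((counitAlgHom R A).comp (toConv (AlgHom.id R A)).ofConv) =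
      (1 : WithConv (A →ₐ[R] R)) := by
    rw [counit_convOne]
    rfl
  rw [e1, e2, mul_one]

/-- Translation by `g` as an algebra automorphism. -/
noncomputable def translEquiv (g : A →ₐ[R] R) : A ≃ₐ[R] A :=
  AlgEquiv.ofAlgHom (transl g) (transl (g.comp (HopfAlgebra.antipodeAlgHom R A)))
    (by
      rw [transl_comp, comp_antipode_convMul', counit_convOne]
      exact transl_one)
    (by
      rw [transl_comp, convMul_comp_antipode, counit_convOne]
      exact transl_one)

theorem counit_translEquiv (g : A →ₐ[R] R) (a : A) :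
    counit (R := R) (translEquiv g a) = g a :=
  AlgHom.congr_fun (counit_comp_transl g) a

end Transl

end Fermat.Agent.S56lib.Hopf
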