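import Mathlib
import Fermat.Agent.S56lib.Hopf.MonoBasis

/-!
# Linear independence of reduced monomials from derivations

Let `A` be a commutative algebra over a field `k` of characteristic `p`, with an augmentation
`ε : A → k`, elements `z i ∈ ker ε` and derivations `D i` with `ε (D i (z j)) = δ i j`.
Then the monomials `z ^ γ`, `γ i < p`, are linearly independent, even modulo an ideal
`J ≤ ker ε` stable under the `D i`.
-/

namespace Fermat.Agent.S56lib.Hopf

open MvPolynomial

section chain

variable {k A : Type*} [CommRing k] [CommRing A] [Algebra k A] {σ : Type*} [Fintype σ]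

/-- Chain rule for a derivation applied to a polynomial expression. -/
theorem derivation_aeval (D : Derivation k A A) (z : σ → A) (P : MvPolynomial σ k) :
    D (aeval z P) = ∑ j, aeval z (pderiv j P) * D (z j) := by
  classical
  induction P using MvPolynomial.induction_on with
  | C c => simp
  | add P Q hP hQ => simp [hP, hQ, add_mul, Finset.sum_add_distrib]
  | mul_X P i hP =>
    rw [map_mul, aeval_X, Derivation.leibniz, hP]
    simp only [pderiv_mul, pderiv_X, map_add, map_mul, aeval_X, add_mul, Finset.sum_add_distrib,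
      smul_eq_mul]
    have h2 : ∑ j, aeval z P * aeval z (Pi.single (M := fun _ => MvPolynomial σ k) j 1 i) * D (z j)
        = aeval z P * D (z i) := by
      rw [Finset.sum_eq_single i]
      · simp
      · intro j _ hj
        rw [Pi.single_eq_of_ne' hj]
        simp
      · intro h; exact absurd (Finset.mem_univ i) h
    rw [h2, Finset.mul_sum, add_comm]
    congr 1
    refine Finset.sum_congr rfl fun j _ => ?_
    ring

/-- A derivation maps `I ^ (m + 1)` into `I ^ m`. -/
theorem derivation_mem_pow (D : Derivation k A A) (I : Ideal A) (m : ℕ) {a : A}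
    (ha : a ∈ I ^ (m + 1)) : D a ∈ I ^ m := by
  induction m generalizing a with
  | zero => simp
  | succ m ih =>
    rw [pow_succ'] at ha
    refine Submodule.mul_induction_on ha (fun b hb c hc => ?_) (fun u v hu hv => ?_)
    · rw [Derivation.leibniz, smul_eq_mul, smul_eq_mul]
      refine Ideal.add_mem _ ?_ ?_
      · rw [pow_succ']
        exact Ideal.mul_mem_mul hb (ih hc)
      · exact Ideal.mul_mem_right _ _ hc
    · rw [map_add]; exact Ideal.add_mem _ hu hv

end chain

section main

variable {k A : Type*} [Field k] [CommRing A] [Algebra k A] (p : ℕ)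
  [CharP k p] {σ : Type*} [Fintype σ] (ε : A →ₐ[k] k) (J : Ideal A) (z : σ → A)
  (D : σ → Derivation k A A)

theorem coeff_eq_zero_of_aeval_mem (hJ : J ≤ RingHom.ker ε) (hz : ∀ i, ε (z i) = 0)
    (hD1 : ∀ i, ε (D i (z i)) = 1) (hD0 : ∀ i j, i ≠ j → ε (D i (z j)) = 0)
    (hDJ : ∀ i, ∀ a ∈ J, D i a ∈ J) (d : ℕ) :
    ∀ P : MvPolynomial σ k, P ∈ redPoly k (fun _ : σ => p) →
      (∀ γ, coeff γ P ≠ 0 → d ≤ γ.degree) →
      aeval z P ∈ (RingHom.ker ε) ^ (d + 1) ⊔ J → ∀ γ, γ.degree = d → coeff γ P = 0 := by
  classical
  set I : Ideal A := RingHom.ker ε with hI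
  have hzI : ∀ i, z i ∈ I := fun i => (RingHom.mem_ker).mpr (hz i)
  induction d with
  | zero =>
    intro P _ _ hmem γ hγ
    rw [(Finsupp.degree_eq_zero_iff γ).mp hγ]
    have h1 : aeval z P ∈ I := by
      refine (sup_le ?_ hJ) hmem
      simp
    have h2 : ε (aeval z P) = 0 := RingHom.mem_ker.mp h1
    rw [comp_aeval_apply] at h2
    simp only [hz] at h2
    rw [aeval_zero'] at h2
    rw [← constantCoeff_eq]
    simpa using h2
  | succ d ih =>
    intro P hPred hPdeg hmem γ' hγ'
    -- the partial derivatives
    have hQred : ∀ i, pderiv i P ∈ redPoly k (fun _ : σ => p) := by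
      intro i
      rw [mem_redPoly_iff]
      intro γ hγ j
      rw [coeff_pderiv] at hγ
      have h1 : coeff (γ + Finsupp.single i 1) P ≠ 0 := left_ne_zero_of_mul hγ
      have h2 := (mem_redPoly_iff.mp hPred) _ h1 j
      have h3 : γ j ≤ (γ + Finsupp.single i 1 : σ →₀ ℕ) j := by simp
      exact lt_of_le_of_lt h3 h2
    have hQdeg : ∀ i, ∀ γ, coeff γ (pderiv i P) ≠ 0 → d ≤ γ.degree := by
      intro i γ hγ
      rw [coeff_pderiv] at hγ
      have h1 : coeff (γ + Finsupp.single i 1) P ≠ 0 := left_ne_zero_of_mul hγ
      have h2 := hPdeg _ h1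
      rw [map_add, Finsupp.degree_single] at h2
      omega
    have hQmem : ∀ i, aeval z (pderiv i P) ∈ I ^ (d + 1) ⊔ J := by
      intro i
      have h1 : D i (aeval z P) ∈ I ^ (d + 1) ⊔ J := by
        obtain ⟨u, hu, v, hv, huv⟩ := Submodule.mem_sup.mp hmem
        rw [← huv, map_add]
        exact Submodule.add_mem_sup (derivation_mem_pow (D i) I (d + 1) hu) (hDJ i v hv)
      rw [derivation_aeval] at h1
      have h2 : ∑ j, aeval z (pderiv j P) * D i (z j) = aeval z (pderiv i P) +
          ∑ j, aeval z (pderiv j P) *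
            (D i (z j) - algebraMap k A (if i = j then 1 else 0)) := by
        simp only [mul_sub, Finset.sum_sub_distrib]
        have : ∑ j, aeval z (pderiv j P) * algebraMap k A (if i = j then 1 else 0) =
            aeval z (pderiv i P) := by
          rw [Finset.sum_eq_single i]
          · simp
          · intro j _ hj
            rw [if_neg (Ne.symm hj)]
            simp
          · intro h; exact absurd (Finset.mem_univ i) h
        rw [this]
        ring
      rw [h2] at h1
      have h3 : ∑ j, aeval z (pderiv j P) *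
          (D i (z j) - algebraMap k A (if i = j then 1 else 0)) ∈ I ^ (d + 1) := by
        refine Ideal.sum_mem _ fun j _ => ?_
        rw [pow_succ]
        refine Ideal.mul_mem_mul (aeval_mem_pow I z hzI d _ (hQdeg j)) ?_
        rw [hI, RingHom.mem_ker, map_sub, AlgHom.commutes]
        by_cases hij : i = j
        · subst hij; simp [hD1]
        · simp [hij, hD0 i j hij]
      have h4 : aeval z (pderiv i P) = (aeval z (pderiv i P) + ∑ j, aeval z (pderiv j P) *
          (D i (z j) - algebraMap k A (if i = j then 1 else 0))) - ∑ j, aeval z (pderiv j P) *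
          (D i (z j) - algebraMap k A (if i = j then 1 else 0)) := by ring
      rw [h4]
      exact Submodule.sub_mem _ h1 (Submodule.mem_sup_left h3)
    -- choose a variable occurring in `γ'`
    by_contra hne
    have hex : ∃ i, γ' i ≠ 0 := by
      by_contra hall
      push Not at hall
      have : γ' = 0 := Finsupp.ext hall
      rw [this] at hγ'
      simp at hγ'
    obtain ⟨i, hi⟩ := hex
    have hγeq : (γ' - Finsupp.single i 1) + Finsupp.single i 1 = γ' := by
      ext j
      by_cases hj : j = i
      · subst hj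
        simp only [Finsupp.coe_add, Finsupp.coe_tsub, Pi.add_apply, Pi.sub_apply,
          Finsupp.single_eq_same]
        omega
      · simp [Finsupp.single_eq_of_ne hj]
    have hdeg : (γ' - Finsupp.single i 1).degree = d := by
      have := congrArg Finsupp.degree hγeq
      rw [map_add, Finsupp.degree_single, hγ'] at this
      omega
    have h5 := ih (pderiv i P) (hQred i) (hQdeg i) (hQmem i) _ hdeg
    rw [coeff_pderiv, hγeq] at h5
    have h6 : (((γ' - Finsupp.single i 1 : σ →₀ ℕ) i : ℕ) : k) + 1 = ((γ' i : ℕ) : k) := by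
      have : (γ' - Finsupp.single i 1 : σ →₀ ℕ) i + 1 = γ' i := by
        simp only [Finsupp.coe_tsub, Pi.sub_apply, Finsupp.single_eq_same]
        omega
      rw [← this]; push_cast; ring
    rw [h6] at h5
    rcases mul_eq_zero.mp h5 with h7 | h7
    · exact hne h7
    · have h8 := (mem_redPoly_iff.mp hPred) γ' hne i
      rw [CharP.cast_eq_zero_iff k p] at h7
      exact absurd (Nat.le_of_dvd (Nat.pos_of_ne_zero hi) h7) (not_le.mpr h8)

/-- Reduced polynomials (exponents `< p`) in the `z i` vanishing modulo `J` are zero. -/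
theorem eq_zero_of_aeval_mem (hJ : J ≤ RingHom.ker ε) (hz : ∀ i, ε (z i) = 0)
    (hD1 : ∀ i, ε (D i (z i)) = 1) (hD0 : ∀ i j, i ≠ j → ε (D i (z j)) = 0)
    (hDJ : ∀ i, ∀ a ∈ J, D i a ∈ J) (P : MvPolynomial σ k)
    (hP : P ∈ redPoly k (fun _ : σ => p)) (hmem : aeval z P ∈ J) : P = 0 := by
  have key : ∀ d : ℕ, ∀ γ : σ →₀ ℕ, γ.degree < d → coeff γ P = 0 := by
    intro d
    induction d with
    | zero => intro γ h; exact absurd h (Nat.not_lt_zero _)
    | succ d ih =>
      intro γ hγ
      rcases Nat.lt_succ_iff_lt_or_eq.mp hγ with h | h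
      · exact ih γ h
      · refine coeff_eq_zero_of_aeval_mem p ε J z D hJ hz hD1 hD0 hDJ d P hP ?_
          (Submodule.mem_sup_right hmem) γ h
        intro γ₂ hγ₂
        by_contra hlt
        exact hγ₂ (ih γ₂ (not_le.mp hlt))
  ext γ
  rw [coeff_zero]
  exact key (γ.degree + 1) γ (Nat.lt_succ_self _)

end main

end Fermat.Agent.S56lib.Hopf
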