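import Fermat.Agent.S56lib.Hopf.Aug

/-!
# Hopf subalgebras of a commutative Hopf algebra over a field

A subalgebra `B ⊆ A` stable under comultiplication and antipode inherits a Hopf algebra
structure (over a field, where `B ⊗ B → A ⊗ A` is injective).
-/

open TensorProduct Coalgebra Bialgebra

namespace Fermat.Agent.S56lib.Hopf

variable {k A : Type*} [Field k] [CommRing A] [HopfAlgebra k A]

/-- A subalgebra stable under comultiplication and antipode. -/
structure IsHopfSub (B : Subalgebra k A) : Prop where
  comul_mem : ∀ b ∈ B, comul (R := k) b ∈ (Algebra.TensorProduct.map B.val B.val).range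
  antipode_mem : ∀ b ∈ B, HopfAlgebra.antipode k b ∈ B

namespace IsHopfSub

variable {B : Subalgebra k A}

/-- `B ⊗ B → A ⊗ A`. -/
noncomputable abbrev incl₂ (B : Subalgebra k A) : ↥B ⊗[k] ↥B →ₐ[k] A ⊗[k] A :=
  Algebra.TensorProduct.map B.val B.val

theorem incl₂_injective (B : Subalgebra k A) : Function.Injective (incl₂ B) := by
  have : (incl₂ B : ↥B ⊗[k] ↥B → A ⊗[k] A) =
      TensorProduct.map B.val.toLinearMap B.val.toLinearMap := by
    ext x; rfl
  rw [this]
  exact TensorProduct.map_injective_of_flat_flat _ _ Subtype.val_injective Subtype.val_injective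

/-- `B ⊗ B ⊗ B → A ⊗ A ⊗ A`. -/
noncomputable abbrev incl₃ (B : Subalgebra k A) : ↥B ⊗[k] (↥B ⊗[k] ↥B) →ₐ[k] A ⊗[k] (A ⊗[k] A) :=
  Algebra.TensorProduct.map B.val (incl₂ B)

theorem incl₃_injective (B : Subalgebra k A) : Function.Injective (incl₃ B) := by
  have : (incl₃ B : ↥B ⊗[k] (↥B ⊗[k] ↥B) → A ⊗[k] (A ⊗[k] A)) =
      TensorProduct.map B.val.toLinearMap (incl₂ B).toLinearMap := by
    ext x; rfl
  rw [this]
  exact TensorProduct.map_injective_of_flat_flat _ _ Subtype.val_injective (incl₂_injective B)

/-- The comultiplication of a Hopf subalgebra. -/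
noncomputable def comulHom (hB : IsHopfSub B) : ↥B →ₐ[k] ↥B ⊗[k] ↥B :=
  ((AlgEquiv.ofInjective (incl₂ B) (incl₂_injective B)).symm : _ →ₐ[k] _).comp
    (((comulAlgHom k A).comp B.val).codRestrict (incl₂ B).range fun b => hB.comul_mem b b.2)

theorem incl₂_comulHom (hB : IsHopfSub B) (b : ↥B) :
    incl₂ B (hB.comulHom b) = comul (R := k) (b : A) := by
  unfold comulHom
  rw [AlgHom.comp_apply]
  change incl₂ B ((AlgEquiv.ofInjective (incl₂ B) (incl₂_injective B)).symm _) = _
  have := (AlgEquiv.ofInjective (incl₂ B) (incl₂_injective B)).apply_symm_apply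
    ((((comulAlgHom k A).comp B.val).codRestrict (incl₂ B).range
      fun b => hB.comul_mem b b.2) b)
  have h2 := congrArg Subtype.val this
  rw [AlgEquiv.ofInjective_apply] at h2
  exact h2

/-- The counit of a Hopf subalgebra. -/
noncomputable def counitHom (B : Subalgebra k A) : ↥B →ₐ[k] k := (counitAlgHom k A).comp B.val


theorem incl₃_assoc_map_comulHom (hB : IsHopfSub B) (t : ↥B ⊗[k] ↥B) :
    incl₃ B (Algebra.TensorProduct.assoc k k k ↥B ↥B ↥B
      (Algebra.TensorProduct.map hB.comulHom (AlgHom.id k ↥B) t)) =
    Algebra.TensorProduct.assoc k k k A A A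
      (Algebra.TensorProduct.map (comulAlgHom k A) (AlgHom.id k A) (incl₂ B t)) := by
  have key : ∀ (s : ↥B ⊗[k] ↥B) (c : ↥B),
      incl₃ B (Algebra.TensorProduct.assoc k k k ↥B ↥B ↥B (s ⊗ₜ[k] c)) =
      Algebra.TensorProduct.assoc k k k A A A (incl₂ B s ⊗ₜ[k] (c : A)) := by
    intro s c
    induction s using TensorProduct.induction_on with
    | zero => simp
    | tmul u v => simp
    | add x y hx hy => simp only [TensorProduct.add_tmul, map_add, hx, hy]
  induction t using TensorProduct.induction_on with
  | zero => simp
  | tmul b c =>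
    simp only [Algebra.TensorProduct.map_tmul, AlgHom.coe_id, id_eq]
    rw [key, incl₂_comulHom]
    rfl
  | add x y hx hy => simp only [map_add, hx, hy]

theorem incl₃_map_comulHom (hB : IsHopfSub B) (t : ↥B ⊗[k] ↥B) :
    incl₃ B (Algebra.TensorProduct.map (AlgHom.id k ↥B) hB.comulHom t) =
      Algebra.TensorProduct.map (AlgHom.id k A) (comulAlgHom k A) (incl₂ B t) := by
  induction t using TensorProduct.induction_on with
  | zero => simp
  | tmul b c =>
    simp only [Algebra.TensorProduct.map_tmul, AlgHom.coe_id, id_eq]
    rw [incl₂_comulHom]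
    rfl
  | add x y hx hy => simp only [map_add, hx, hy]

/-- The bialgebra structure on a Hopf subalgebra. -/
@[reducible] noncomputable def bialgebra (hB : IsHopfSub B) : Bialgebra k ↥B :=
  Bialgebra.ofAlgHom hB.comulHom (counitHom B)
    (by
      apply AlgHom.ext
      intro b
      apply incl₃_injective B
      have e1 := incl₃_assoc_map_comulHom hB (hB.comulHom b)
      have e2 := incl₃_map_comulHom hB (hB.comulHom b)
      rw [incl₂_comulHom] at e1 e2
      refine e1.trans (Eq.trans ?_ e2.symm)
      exact Coalgebra.coassoc_apply (R := k) (b : A))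
    (by
      apply AlgHom.ext
      intro b
      have hinj : Function.Injective
          (Algebra.TensorProduct.map (AlgHom.id k k) B.val : k ⊗[k] ↥B →ₐ[k] k ⊗[k] A) := by
        have : (Algebra.TensorProduct.map (AlgHom.id k k) B.val : k ⊗[k] ↥B → k ⊗[k] A) =
            TensorProduct.map (LinearMap.id : k →ₗ[k] k) B.val.toLinearMap := by
          ext x; rfl
        rw [this]
        exact TensorProduct.map_injective_of_flat_flat _ _ Function.injective_id
          Subtype.val_injective
      apply hinj
      have h1 : ∀ t : ↥B ⊗[k] ↥B,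
          Algebra.TensorProduct.map (AlgHom.id k k) B.val
            (Algebra.TensorProduct.map (counitHom B) (AlgHom.id k ↥B) t) =
          Algebra.TensorProduct.map (counitAlgHom k A) (AlgHom.id k A) (incl₂ B t) := by
        intro t
        induction t using TensorProduct.induction_on with
        | zero => simp
        | tmul u v => simp [counitHom]
        | add x y hx hy => simp only [map_add, hx, hy]
      rw [AlgHom.comp_apply, h1, incl₂_comulHom]
      have := Coalgebra.rTensor_counit_comul (R := k) (b : A)
      exact this.trans rfl)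
    (by
      apply AlgHom.ext
      intro b
      have hinj : Function.Injective
          (Algebra.TensorProduct.map B.val (AlgHom.id k k) : ↥B ⊗[k] k →ₐ[k] A ⊗[k] k) := by
        have : (Algebra.TensorProduct.map B.val (AlgHom.id k k) : ↥B ⊗[k] k → A ⊗[k] k) =
            TensorProduct.map B.val.toLinearMap (LinearMap.id : k →ₗ[k] k) := by
          ext x; rfl
        rw [this]
        exact TensorProduct.map_injective_of_flat_flat _ _ Subtype.val_injective
          Function.injective_id
      apply hinj
      have h1 : ∀ t : ↥B ⊗[k] ↥B,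
          Algebra.TensorProduct.map B.val (AlgHom.id k k)
            (Algebra.TensorProduct.map (AlgHom.id k ↥B) (counitHom B) t) =
          Algebra.TensorProduct.map (AlgHom.id k A) (counitAlgHom k A) (incl₂ B t) := by
        intro t
        induction t using TensorProduct.induction_on with
        | zero => simp
        | tmul u v => simp [counitHom]
        | add x y hx hy => simp only [map_add, hx, hy]
      rw [AlgHom.comp_apply, h1, incl₂_comulHom]
      have := Coalgebra.lTensor_counit_comul (R := k) (b : A)
      exact this.trans rfl)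


theorem comul_eq (hB : IsHopfSub B) (b : ↥B) :
    letI := hB.bialgebra
    incl₂ B (comul (R := k) b) = comul (R := k) (b : A) := incl₂_comulHom hB b

theorem counit_eq (hB : IsHopfSub B) (b : ↥B) :
    letI := hB.bialgebra
    counit (R := k) b = counit (R := k) (b : A) := rfl

/-- The antipode of a Hopf subalgebra. -/
noncomputable def antipodeMap (hB : IsHopfSub B) : ↥B →ₗ[k] ↥B where
  toFun b := ⟨HopfAlgebra.antipode k (b : A), hB.antipode_mem b b.2⟩
  map_add' x y := Subtype.ext (by simp)
  map_smul' c x := Subtype.ext (by simp)

@[simp] theorem coe_antipodeMap (hB : IsHopfSub B) (b : ↥B) :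
    (hB.antipodeMap b : A) = HopfAlgebra.antipode k (b : A) := rfl

/-- The Hopf algebra structure on a Hopf subalgebra. -/
@[reducible] noncomputable def hopfAlgebra (hB : IsHopfSub B) : HopfAlgebra k ↥B :=
  letI := hB.bialgebra
  { antipode := hB.antipodeMap
    mul_antipode_rTensor_comul := by
      apply LinearMap.ext
      intro b
      apply Subtype.val_injective
      have h1 : ∀ t : ↥B ⊗[k] ↥B,
          ((LinearMap.mul' k ↥B (hB.antipodeMap.rTensor ↥B t) : ↥B) : A) =
          LinearMap.mul' k A ((HopfAlgebra.antipode k (A := A)).rTensor A (incl₂ B t)) := by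
        intro t
        induction t using TensorProduct.induction_on with
        | zero => simp
        | tmul u v => simp
        | add x y hx hy =>
          simp only [map_add, Subalgebra.coe_add, hx, hy]
      have h2 := HopfAlgebra.mul_antipode_rTensor_comul_apply (R := k) (b : A)
      simp only [LinearMap.coe_comp, Function.comp_apply, Algebra.linearMap_apply]
      rw [h1]
      exact (congrArg _ (congrArg _ (hB.comul_eq b))).trans h2
    mul_antipode_lTensor_comul := by
      apply LinearMap.ext
      intro b
      apply Subtype.val_injective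
      have h1 : ∀ t : ↥B ⊗[k] ↥B,
          ((LinearMap.mul' k ↥B (hB.antipodeMap.lTensor ↥B t) : ↥B) : A) =
          LinearMap.mul' k A ((HopfAlgebra.antipode k (A := A)).lTensor A (incl₂ B t)) := by
        intro t
        induction t using TensorProduct.induction_on with
        | zero => simp
        | tmul u v => simp
        | add x y hx hy =>
          simp only [map_add, Subalgebra.coe_add, hx, hy]
      have h2 := HopfAlgebra.mul_antipode_lTensor_comul_apply (R := k) (b : A)
      simp only [LinearMap.coe_comp, Function.comp_apply, Algebra.linearMap_apply]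
      rw [h1]
      exact (congrArg _ (congrArg _ (hB.comul_eq b))).trans h2 }

end IsHopfSub

end Fermat.Agent.S56lib.Hopf
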