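import Mathlib
import Fermat.Agent.S56lib.Hopf.HopfSub

/-!
# The Hopf subalgebra of `p`-th powers

Over a perfect field `k` of characteristic `p`, the set `A^p` of `p`-th powers in a commutative
Hopf algebra `A` is a Hopf subalgebra.
-/

open TensorProduct Coalgebra Bialgebra

namespace Fermat.Agent.S56lib.Hopf

section

variable (p : ℕ) (k : Type*) [Field k] [CharP k p]

/-- A nontrivial algebra over a field of characteristic `p` has characteristic `p`. -/
theorem charP_algebra (R : Type*) [CommRing R] [Algebra k R] [Nontrivial R] : CharP R p :=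
  charP_of_injective_algebraMap (algebraMap k R).injective p

variable [hp : Fact p.Prime] [PerfectRing k p] (A : Type*) [CommRing A] [HopfAlgebra k A]

/-- The subalgebra `A^p` of `p`-th powers. -/
def frobSub : Subalgebra k A where
  carrier := {a | ∃ b : A, b ^ p = a}
  mul_mem' := by
    rintro _ _ ⟨b, rfl⟩ ⟨c, rfl⟩
    exact ⟨b * c, mul_pow _ _ _⟩
  add_mem' := by
    rintro _ _ ⟨b, rfl⟩ ⟨c, rfl⟩
    have := Bialgebra.nontrivial k (A := A)
    have := charP_algebra p k A
    exact ⟨b + c, add_pow_char b c p⟩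
  algebraMap_mem' := fun c => by
    obtain ⟨c', hc'⟩ := surjective_frobenius k p c
    refine ⟨algebraMap k A c', ?_⟩
    rw [← map_pow, ← hc', frobenius_def]

variable {p k A}

theorem mem_frobSub {a : A} : a ∈ frobSub p k A ↔ ∃ b : A, b ^ p = a := Iff.rfl

theorem pow_mem_frobSub (a : A) : a ^ p ∈ frobSub p k A := ⟨a, rfl⟩

variable (p k A)

theorem pow_mem_range_incl₂ (t : A ⊗[k] A) :
    t ^ p ∈ (IsHopfSub.incl₂ (frobSub p k A)).range := by
  have := Bialgebra.nontrivial k (A := A)
  have : CharP (A ⊗[k] A) p := charP_algebra p k (A ⊗[k] A)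
  induction t using TensorProduct.induction_on with
  | zero =>
    rw [zero_pow hp.out.ne_zero]
    exact zero_mem _
  | tmul u v =>
    refine ⟨(⟨u ^ p, pow_mem_frobSub u⟩ : frobSub p k A) ⊗ₜ[k]
      (⟨v ^ p, pow_mem_frobSub v⟩ : frobSub p k A), ?_⟩
    simp [Algebra.TensorProduct.tmul_pow]
  | add s t hs ht =>
    rw [add_pow_char s t p]
    exact add_mem hs ht

theorem isHopfSub_frobSub : IsHopfSub (frobSub p k A) where
  comul_mem := by
    rintro _ ⟨b, rfl⟩
    have : comul (R := k) (b ^ p) = (comul (R := k) b) ^ p := by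
      rw [← Bialgebra.comulAlgHom_apply, map_pow]
      rfl
    rw [this]
    exact pow_mem_range_incl₂ p k A _
  antipode_mem := by
    rintro _ ⟨b, rfl⟩
    refine ⟨HopfAlgebra.antipode k b, ?_⟩
    have := map_pow (HopfAlgebra.antipodeAlgHom k A) b p
    exact this.symm

end

end Fermat.Agent.S56lib.Hopf
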