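import Mathlib
import Fermat.Agent.S56lib.Hopf.Aug

/-!
# Invariant derivations of a commutative bialgebra

A point derivation `ℓ : A → k` at the identity (`ℓ (a b) = ε a ℓ b + ℓ a ε b`) gives the
invariant derivation `(id ⊗ ℓ) ∘ Δ` of `A`, whose value at the identity is `ℓ`.  Over a field,
elements of the augmentation ideal which are linearly independent modulo its square admit dual
point derivations.
-/

open TensorProduct Coalgebra Bialgebra

namespace Fermat.Agent.S56lib.Hopf

section slant

variable {k A : Type*} [CommRing k] [CommRing A] [Bialgebra k A]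

/-- `u ⊗ v ↦ ℓ v • u`. -/
noncomputable def slant (ℓ : A →ₗ[k] k) : A ⊗[k] A →ₗ[k] A :=
  (TensorProduct.rid k A).toLinearMap ∘ₗ LinearMap.lTensor A ℓ

@[simp]
theorem slant_tmul (ℓ : A →ₗ[k] k) (u v : A) : slant ℓ (u ⊗ₜ[k] v) = ℓ v • u := by
  simp [slant]

/-- `ℓ` is a point derivation at the identity. -/
def IsPointDeriv (ℓ : A →ₗ[k] k) : Prop :=
  ∀ a b : A, ℓ (a * b) = counit (R := k) a * ℓ b + ℓ a * counit (R := k) b

theorem slant_mul {ℓ : A →ₗ[k] k} (hℓ : IsPointDeriv ℓ) (s t : A ⊗[k] A) :
    slant ℓ (s * t) = slant (counit (R := k) (A := A)) s * slant ℓ t +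
      slant ℓ s * slant (counit (R := k) (A := A)) t := by
  induction s using TensorProduct.induction_on with
  | zero => simp
  | add s₁ s₂ h₁ h₂ => simp only [add_mul, map_add, h₁, h₂]; ring
  | tmul u v =>
    induction t using TensorProduct.induction_on with
    | zero => simp
    | add t₁ t₂ h₁ h₂ => simp only [mul_add, map_add, h₁, h₂]; ring
    | tmul u' v' =>
      rw [Algebra.TensorProduct.tmul_mul_tmul]
      simp only [slant_tmul, hℓ v v']
      simp only [Algebra.smul_def, map_add, map_mul]
      ring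

theorem slant_counit_comul (a : A) : slant (counit (R := k) (A := A)) (comul (R := k) a) = a := by
  have := Coalgebra.lTensor_counit_comul (R := k) a
  unfold slant
  rw [LinearMap.comp_apply, this]
  simp

/-- The invariant derivation `(id ⊗ ℓ) ∘ Δ` attached to a point derivation `ℓ`. -/
noncomputable def invDeriv (ℓ : A →ₗ[k] k) (hℓ : IsPointDeriv ℓ) : Derivation k A A :=
  Derivation.mk' (slant ℓ ∘ₗ comul) (fun a b => by
    simp only [LinearMap.comp_apply, Bialgebra.comul_mul, slant_mul hℓ, slant_counit_comul,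
      smul_eq_mul]
    ring)

theorem invDeriv_apply (ℓ : A →ₗ[k] k) (hℓ : IsPointDeriv ℓ) (a : A) :
    invDeriv ℓ hℓ a = slant ℓ (comul (R := k) a) := rfl

theorem counit_slant (ℓ : A →ₗ[k] k) (t : A ⊗[k] A) :
    counit (R := k) (slant ℓ t) =
      ℓ (TensorProduct.lid k A (LinearMap.rTensor A (counit (R := k) (A := A)) t)) := by
  induction t using TensorProduct.induction_on with
  | zero => simp
  | add s₁ s₂ h₁ h₂ => simp only [map_add, h₁, h₂]
  | tmul u v => simp [mul_comm]

theorem counit_invDeriv (ℓ : A →ₗ[k] k) (hℓ : IsPointDeriv ℓ) (a : A) :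
    counit (R := k) (invDeriv ℓ hℓ a) = ℓ a := by
  rw [invDeriv_apply, counit_slant, Coalgebra.rTensor_counit_comul]
  simp

end slant

section dual

variable {k A : Type*} [Field k] [CommRing A] [Bialgebra k A]

/-- A functional killing `I²`, precomposed with `a ↦ a - ε a`, is a point derivation. -/
theorem isPointDeriv_of_sq (ℓ' : A →ₗ[k] k) (h : ∀ a ∈ (augIdeal k A) ^ 2, ℓ' a = 0) :
    IsPointDeriv (ℓ' ∘ₗ augProj (R := k)) := by
  intro a b
  simp only [LinearMap.comp_apply, augProj_apply]
  have e : a * b - algebraMap k A (counit (R := k) (a * b)) =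
      (a - algebraMap k A (counit (R := k) a)) * (b - algebraMap k A (counit (R := k) b)) +
      (counit (R := k) a • (b - algebraMap k A (counit (R := k) b)) +
        counit (R := k) b • (a - algebraMap k A (counit (R := k) a))) := by
    simp only [Bialgebra.counit_mul, map_mul, Algebra.smul_def]
    ring
  rw [e, map_add, map_add, map_smul, map_smul, h, zero_add, smul_eq_mul, smul_eq_mul]
  · ring
  · rw [pow_two]
    exact Ideal.mul_mem_mul (sub_counit_mem_augIdeal a) (sub_counit_mem_augIdeal b)

/-- Dual point derivations to a family in `I` linearly independent modulo `I²`. -/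
theorem exists_pointDeriv {σ : Type*} [Fintype σ] (z : σ → A) (hz : ∀ i, z i ∈ augIdeal k A)
    (hind : ∀ c : σ → k, ∑ i, c i • z i ∈ (augIdeal k A) ^ 2 → c = 0) :
    ∃ ℓ : σ → (A →ₗ[k] k), (∀ i, IsPointDeriv (ℓ i)) ∧ (∀ i, ℓ i (z i) = 1) ∧
      ∀ i j, i ≠ j → ℓ i (z j) = 0 := by
  classical
  set M : Submodule k A := ((augIdeal k A) ^ 2).restrictScalars k with hM
  have hli : LinearIndependent k (fun i => M.mkQ (z i)) := by
    rw [Fintype.linearIndependent_iff]
    intro c hc
    have : ∑ i, c i • z i ∈ M := by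
      rw [← Submodule.Quotient.mk_eq_zero, ← Submodule.mkQ_apply, map_sum]
      simpa using hc
    exact congrFun (hind c this)
  -- the dual functional on the span, extended to the whole quotient
  have hex : ∀ i, ∃ g : (A ⧸ M) →ₗ[k] k, ∀ j, g (M.mkQ (z j)) = if i = j then 1 else 0 := by
    intro i
    obtain ⟨g, hg⟩ := LinearMap.exists_extend ((Finsupp.lapply i) ∘ₗ hli.repr)
    refine ⟨g, fun j => ?_⟩
    have hj : M.mkQ (z j) ∈ Submodule.span k (Set.range fun i => M.mkQ (z i)) :=
      Submodule.subset_span ⟨j, rfl⟩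
    have := LinearMap.congr_fun hg ⟨_, hj⟩
    simp only [LinearMap.comp_apply, Submodule.subtype_apply] at this
    rw [this, hli.repr_eq_single j ⟨_, hj⟩ rfl]
    simp [Finsupp.single_apply, eq_comm]
  choose g hg using hex
  refine ⟨fun i => (g i ∘ₗ M.mkQ) ∘ₗ augProj (R := k), fun i => ?_, fun i => ?_, fun i j hij => ?_⟩
  · refine isPointDeriv_of_sq _ fun a ha => ?_
    rw [LinearMap.comp_apply]
    have : M.mkQ a = 0 := by
      rw [Submodule.mkQ_apply, Submodule.Quotient.mk_eq_zero]
      exact ha
    rw [this, map_zero]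
  · simp only [LinearMap.comp_apply, augProj_apply, mem_augIdeal.mp (hz i), map_zero, sub_zero]
    rw [hg i i, if_pos rfl]
  · simp only [LinearMap.comp_apply, augProj_apply, mem_augIdeal.mp (hz j), map_zero, sub_zero]
    rw [hg i j, if_neg hij]

end dual

end Fermat.Agent.S56lib.Hopf
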