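import Mathlib

/-!
# Generation of a local finite algebra by lifts of a basis of the cotangent space

Let `A` be a commutative `k`-algebra with an ideal `I` such that `A = k + I`, `I` is nilpotent and
`x i ∈ I` span `I` modulo `I²`. Then the `x i` generate `A` as an algebra, and if moreover
`x i ^ q i = 0` then the reduced monomials `∏ x i ^ β i`, `β i < q i`, span `A` over `k`.
-/

namespace Fermat.Agent.S56lib.Hopf

open Submodule

variable {k A : Type*} [Field k] [CommRing A] [Algebra k A]

section

variable {ι : Type*} (I : Ideal A) (x : ι → A)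

theorem adjoin_eq_top_of_cotangent_span
    (h0 : ∀ a : A, ∃ c : k, a - algebraMap k A c ∈ I)
    (hnil : ∃ N : ℕ, I ^ N = ⊥)
    (hx : ∀ i, x i ∈ I)
    (hspan : I.restrictScalars k ≤ span k (Set.range x) ⊔ (I ^ 2).restrictScalars k) :
    Algebra.adjoin k (Set.range x) = ⊤ := by
  set S := Algebra.adjoin k (Set.range x) with hS
  have hxS : span k (Set.range x) ≤ Subalgebra.toSubmodule S :=
    span_le.mpr fun y hy => Algebra.subset_adjoin hy
  have hxI : span k (Set.range x) ≤ I.restrictScalars k :=
    span_le.mpr fun y hy => by obtain ⟨i, rfl⟩ := hy; exact hx i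
  have step : ∀ m : ℕ, (I ^ m).restrictScalars k ≤
      Subalgebra.toSubmodule S ⊔ (I ^ (m + 1)).restrictScalars k := by
    intro m
    induction m with
    | zero =>
      intro a _
      obtain ⟨c, hc⟩ := h0 a
      have : a = algebraMap k A c + (a - algebraMap k A c) := by ring
      rw [this]
      refine add_mem_sup (S.algebraMap_mem c) ?_
      simpa using hc
    | succ m ih =>
      intro y hy
      change y ∈ I ^ (m + 1) at hy
      rw [pow_succ'] at hy
      refine Submodule.mul_induction_on hy (fun a ha b hb => ?_) (fun u v hu hv => add_mem hu hv)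
      obtain ⟨s, hs, a₂, ha₂, rfl⟩ := mem_sup.mp (hspan ha)
      obtain ⟨t, ht, b₂, hb₂, rfl⟩ := mem_sup.mp (ih hb)
      have e : (s + a₂) * (t + b₂) = s * t + (s * b₂ + a₂ * (t + b₂)) := by ring
      rw [e]
      refine add_mem_sup (S.mul_mem (hxS hs) ht) ?_
      change s * b₂ + a₂ * (t + b₂) ∈ I ^ (m + 1 + 1)
      refine Ideal.add_mem _ ?_ ?_
      · have : s * b₂ ∈ I * I ^ (m + 1) := Ideal.mul_mem_mul (hxI hs) hb₂
        rwa [← pow_succ'] at this
      · have h1 : t + b₂ ∈ I ^ m := by
          have := ih hb
          exact hb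
        have : a₂ * (t + b₂) ∈ I ^ 2 * I ^ m := Ideal.mul_mem_mul ha₂ h1
        rwa [← pow_add, add_comm 2 m] at this
  have all : ∀ m : ℕ, (⊤ : Submodule k A) ≤
      Subalgebra.toSubmodule S ⊔ (I ^ m).restrictScalars k := by
    intro m
    induction m with
    | zero => simp
    | succ m ih =>
      refine ih.trans (sup_le le_sup_left ?_)
      exact (step m)
  obtain ⟨N, hN⟩ := hnil
  have hfin := all N
  rw [hN] at hfin
  have hbot : (⊥ : Ideal A).restrictScalars k = (⊥ : Submodule k A) := by
    ext; simp
  rw [hbot, sup_bot_eq] at hfin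
  exact Subalgebra.toSubmodule_injective (top_le_iff.mp hfin)

end

end Fermat.Agent.S56lib.Hopf
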