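import Mathlib
import Fermat.Agent.S56lib.Hopf.Torsor
import Fermat.Agent.S56lib.Hopf.LocalGen
import Fermat.Agent.S56lib.Hopf.MonoBasis
import Fermat.Agent.S56lib.Hopf.DerivIndep
import Fermat.Agent.S56lib.Hopf.InvDeriv
import Fermat.Agent.S56lib.Hopf.FrobSub

/-!
# Structure of local finite commutative Hopf algebras over a perfect field

Let `k` be a perfect field of characteristic `p` and `A` a finite-dimensional commutative Hopf
algebra over `k` whose augmentation ideal is nil.  Then there are `x i` in the augmentation ideal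
and exponents `e i ≥ 1` such that the monomials `∏ x i ^ γ i`, `γ i < p ^ e i`, form a `k`-basis of
`A` (Waterhouse, *Introduction to affine group schemes*, 14.4).
-/

open TensorProduct Coalgebra Bialgebra Module MvPolynomial

namespace Fermat.Agent.S56lib.Hopf

section basics

variable {k A : Type*} [Field k] [CommRing A] [Algebra k A]

/-- The statement "`A` has a basis of reduced monomials in elements of `ker ε`". -/
def HasMonoBasis (p : ℕ) (ε : A →ₐ[k] k) : Prop :=
  ∃ (σ : Type) (_ : Fintype σ) (e : σ → ℕ) (x : σ → A),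
    (∀ i, 1 ≤ e i) ∧ (∀ i, ε (x i) = 0) ∧ (∀ i, x i ^ p ^ e i = 0) ∧
    (∀ c : σ → k, ∑ i, c i • x i ∈ (RingHom.ker ε) ^ 2 → c = 0) ∧
    Function.Bijective (redEval (R := k) x (fun i => p ^ e i))

theorem redEval_bijective_of_le [FiniteDimensional k A] {σ : Type*} [Fintype σ] (x : σ → A)
    (q : σ → ℕ) (hx : ∀ i, x i ^ q i = 0) (hgen : Algebra.adjoin k (Set.range x) = ⊤)
    (hle : ∏ i, q i ≤ finrank k A) : Function.Bijective (redEval (R := k) x q) := by
  have hs := redEval_surjective (R := k) x q hx hgen
  have h1 : finrank k A ≤ finrank k (redPoly k q) := by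
    have := LinearMap.finrank_range_le (redEval (R := k) x q)
    rwa [LinearMap.range_eq_top.mpr hs, finrank_top] at this
  have heq : finrank k (redPoly k q) = finrank k A :=
    le_antisymm (by rw [finrank_redPoly]; exact hle) h1
  exact ⟨(LinearMap.injective_iff_surjective_of_finrank_eq_finrank heq).mpr hs, hs⟩

theorem exists_pow_eq_bot [FiniteDimensional k A] (I : Ideal A)
    (hnil : ∀ x ∈ I, IsNilpotent x) : ∃ N : ℕ, I ^ N = ⊥ := by
  have : IsNoetherianRing A := IsNoetherianRing.of_finite k A
  have hfg : I.FG := IsNoetherian.noetherian I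
  have h : IsNilpotent I :=
    (Ideal.FG.isNilpotent_iff_le_nilradical hfg).mpr fun x hx => mem_nilradical.mpr (hnil x hx)
  obtain ⟨N, hN⟩ := h
  exact ⟨N, by simpa using hN⟩

theorem aeval_pow_char (p : ℕ) [Fact p.Prime] [CharP k p] [CharP A p] {σ : Type*} (x : σ → A)
    (Q : MvPolynomial σ k) :
    (aeval x Q) ^ p = aeval (fun i => x i ^ p) (MvPolynomial.map (frobenius k p) Q) := by
  induction Q using MvPolynomial.induction_on with
  | C c => simp [frobenius_def]
  | add P Q hP hQ => rw [map_add, add_pow_char _ _ p, hP, hQ, map_add, map_add]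
  | mul_X P i hP => simp [mul_pow, hP]

theorem adjoin_sub_mem (ε : A →ₐ[k] k) {ι : Type*} (x : ι → A) (hx : ∀ i, ε (x i) = 0) {t : A}
    (ht : t ∈ Algebra.adjoin k (Set.range x)) :
    t - algebraMap k A (ε t) ∈
      Submodule.span k (Set.range x) ⊔ ((RingHom.ker ε) ^ 2).restrictScalars k := by
  induction ht using Algebra.adjoin_induction with
  | mem t ht =>
    obtain ⟨i, rfl⟩ := ht
    rw [hx i, map_zero, sub_zero]
    exact Submodule.mem_sup_left (Submodule.subset_span ⟨i, rfl⟩)
  | algebraMap r => simp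
  | add a b _ _ ha hb =>
    have : a + b - algebraMap k A (ε (a + b)) =
        (a - algebraMap k A (ε a)) + (b - algebraMap k A (ε b)) := by
      rw [map_add, map_add]; ring
    rw [this]
    exact add_mem ha hb
  | mul a b _ _ ha hb =>
    have : a * b - algebraMap k A (ε (a * b)) =
        (a - algebraMap k A (ε a)) * (b - algebraMap k A (ε b)) +
        (ε a • (b - algebraMap k A (ε b)) + ε b • (a - algebraMap k A (ε a))) := by
      simp only [map_mul, Algebra.smul_def]; ring
    rw [this]
    refine add_mem (Submodule.mem_sup_right ?_) (add_mem (Submodule.smul_mem _ _ hb)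
      (Submodule.smul_mem _ _ ha))
    change _ ∈ (RingHom.ker ε) ^ 2
    rw [pow_two]
    refine Ideal.mul_mem_mul ?_ ?_ <;> simp [RingHom.mem_ker]

theorem derivation_pow_char (p : ℕ) [CharP k p] (D : Derivation k A A) (a : A) :
    D (a ^ p) = 0 := by
  rw [Derivation.leibniz_pow, ← Nat.cast_smul_eq_nsmul k, CharP.cast_eq_zero, zero_smul]

end basics

section hopf

variable (p : ℕ) [hp : Fact p.Prime] {k : Type*} [Field k] [CharP k p] [PerfectRing k p]
  {A : Type*} [CommRing A] [HopfAlgebra k A]

theorem derivation_mem_augSpan (D : Derivation k A A) {a : A}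
    (ha : a ∈ augSpan (frobSub p k A)) : D a ∈ augSpan (frobSub p k A) := by
  unfold augSpan at ha ⊢
  induction ha using Submodule.span_induction with
  | mem b hb =>
    obtain ⟨⟨c, rfl⟩, -⟩ := hb
    rw [derivation_pow_char p]
    exact zero_mem _
  | zero => simp
  | add u v _ _ hu hv => rw [map_add]; exact add_mem hu hv
  | smul r u hu hDu =>
    rw [smul_eq_mul, Derivation.leibniz, smul_eq_mul, smul_eq_mul]
    exact add_mem (Ideal.mul_mem_left _ _ hDu) (Ideal.mul_mem_right _ _ hu)

/-- Height one: elements of `I` independent modulo `I²` give independent reduced monomials in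
`A / (A^p)⁺A`. -/
theorem pow_card_le_finrank_quot [FiniteDimensional k A] {σ : Type*} [Fintype σ] (w : σ → A)
    (hw : ∀ i, w i ∈ augIdeal k A)
    (hind : ∀ c : σ → k, ∑ i, c i • w i ∈ (augIdeal k A) ^ 2 → c = 0) :
    p ^ Fintype.card σ ≤ finrank k (A ⧸ augSpan (frobSub p k A)) := by
  obtain ⟨ℓ, hℓ, hℓ1, hℓ0⟩ := exists_pointDeriv w hw hind
  set J := augSpan (frobSub p k A) with hJ
  set f := redEval (R := k) (fun i => Ideal.Quotient.mk J (w i)) (fun _ : σ => p) with hf
  have hinj : Function.Injective f := by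
    rw [injective_iff_map_eq_zero]
    intro P hP
    have h1 : aeval (fun i => Ideal.Quotient.mkₐ k J (w i)) (P : MvPolynomial σ k) = 0 := hP
    rw [← comp_aeval_apply, Ideal.Quotient.mkₐ_eq_mk, Ideal.Quotient.eq_zero_iff_mem] at h1
    have := eq_zero_of_aeval_mem p (counitAlgHom k A) J w (fun i => invDeriv (ℓ i) (hℓ i))
      (augSpan_le_augIdeal _) (fun i => mem_augIdeal.mp (hw i))
      (fun i => by
        rw [counitAlgHom_apply, counit_invDeriv]; exact hℓ1 i)
      (fun i j hij => by
        rw [counitAlgHom_apply, counit_invDeriv]; exact hℓ0 i j hij)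
      (fun i a ha => derivation_mem_augSpan p _ ha) (P : MvPolynomial σ k) P.2 h1
    exact Subtype.ext this
  have := LinearMap.finrank_le_finrank_of_injective hinj
  rwa [finrank_redPoly, Finset.prod_const, Finset.card_univ] at this

theorem exists_mem_subAug_sq (a : A) (ha : a ∈ (augIdeal k A) ^ 2) :
    ∃ b : ↥(frobSub p k A), b ∈ (subAug (frobSub p k A)) ^ 2 ∧ (b : A) = a ^ p := by
  have hntA : Nontrivial A := Bialgebra.nontrivial k
  have hchA : CharP A p := charP_algebra p k A
  rw [pow_two] at ha
  refine Submodule.mul_induction_on ha (fun u hu v hv => ?_) (fun a₁ a₂ h₁ h₂ => ?_)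
  · refine ⟨⟨u ^ p, pow_mem_frobSub u⟩ * ⟨v ^ p, pow_mem_frobSub v⟩, ?_, ?_⟩
    · rw [pow_two]
      refine Ideal.mul_mem_mul ?_ ?_
      · rw [mem_subAug]
        change counit (R := k) (u ^ p) = 0
        rw [← counitAlgHom_apply, map_pow, counitAlgHom_apply, mem_augIdeal.mp hu,
          zero_pow hp.out.ne_zero]
      · rw [mem_subAug]
        change counit (R := k) (v ^ p) = 0
        rw [← counitAlgHom_apply, map_pow, counitAlgHom_apply, mem_augIdeal.mp hv,
          zero_pow hp.out.ne_zero]
    · simp [mul_pow]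
  · obtain ⟨b₁, hb₁, e₁⟩ := h₁
    obtain ⟨b₂, hb₂, e₂⟩ := h₂
    refine ⟨b₁ + b₂, add_mem hb₁ hb₂, ?_⟩
    rw [add_pow_char _ _ p, ← e₁, ← e₂]
    rfl

/-- Inductive step: a reduced-monomial basis of `A^p` lifts to one of `A`. -/
theorem hasMonoBasis_step [FiniteDimensional k A]
    (hnil : ∀ x ∈ augIdeal k A, IsNilpotent x)
    (hBm : HasMonoBasis p (IsHopfSub.counitHom (frobSub p k A))) :
    HasMonoBasis p (counitAlgHom k A) := by
  classical
  have hntA : Nontrivial A := Bialgebra.nontrivial k
  have hchA : CharP A p := charP_algebra p k A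
  have hB : IsHopfSub (frobSub p k A) := isHopfSub_frobSub p k A
  obtain ⟨σ₁, _, e₁, y, he₁, hyε, hypow, hyind, hybij⟩ := hBm
  -- `p`-th roots of the generators of `A^p`
  have hroot : ∀ i, ∃ b : A, b ^ p = (y i : A) := fun i => (y i).2
  choose x hx using hroot
  have hcounit_pow : ∀ a : A, counit (R := k) (a ^ p) = 0 → counit (R := k) a = 0 := by
    intro a h
    rw [← counitAlgHom_apply, map_pow] at h
    exact (pow_eq_zero_iff hp.out.ne_zero).mp h
  have hxI : ∀ i, x i ∈ augIdeal k A := by
    intro i
    rw [mem_augIdeal]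
    apply hcounit_pow
    rw [hx i]
    exact hyε i
  -- independence of the `x i` modulo `I²`
  have hxind : ∀ c : σ₁ → k, ∑ i, c i • x i ∈ (augIdeal k A) ^ 2 → c = 0 := by
    intro c hc
    obtain ⟨b, hb2, hbcoe⟩ := exists_mem_subAug_sq p _ hc
    have hb : b = ∑ i, (c i ^ p) • y i := by
      apply Subtype.ext
      rw [hbcoe, sum_pow_char p]
      rw [← Subalgebra.coe_val, map_sum]
      refine Finset.sum_congr rfl fun i _ => ?_
      rw [smul_pow, hx i, map_smul]
      rfl
    rw [hb] at hb2
    have := hyind (fun i => c i ^ p) hb2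
    funext i
    exact (pow_eq_zero_iff hp.out.ne_zero).mp (congrFun this i)
  -- the complement
  set M : Submodule k A := ((augIdeal k A) ^ 2).restrictScalars k with hM
  set N : Submodule k A := Submodule.span k (Set.range x) ⊔ M with hN
  set U : Submodule k (A ⧸ N) := ((augIdeal k A).restrictScalars k).map N.mkQ with hU
  have hxN : ∀ i, x i ∈ N := fun i => Submodule.mem_sup_left (Submodule.subset_span ⟨i, rfl⟩)
  have hMN : M ≤ N := le_sup_right
  -- every element of `I` is congruent modulo `N` to one with vanishing `p`-th power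
  have hF3 : ∀ u ∈ augIdeal k A, ∃ z ∈ augIdeal k A, z ^ p = 0 ∧ u - z ∈ N := by
    intro u hu
    obtain ⟨P, hP⟩ := hybij.2 ⟨u ^ p, pow_mem_frobSub u⟩
    set Q := MvPolynomial.map ((frobeniusEquiv k p).symm : k →+* k) (P : MvPolynomial σ₁ k)
      with hQ
    have hQP : MvPolynomial.map (frobenius k p) Q = (P : MvPolynomial σ₁ k) := by
      rw [hQ, MvPolynomial.map_map, frobenius_comp_frobeniusEquiv_symm, MvPolynomial.map_id]
    set t := aeval x Q with ht
    have htp : t ^ p = u ^ p := by
      rw [ht, aeval_pow_char p, hQP]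
      have h1 := congrArg (Subalgebra.val (frobSub p k A)) hP
      rw [redEval_apply, comp_aeval_apply] at h1
      simp only [Subalgebra.coe_val] at h1
      rw [← h1]
      have : (fun i => x i ^ p) = fun i => (y i : A) := funext hx
      rw [this]
    have htε : counit (R := k) t = 0 := by
      apply hcounit_pow
      rw [htp, ← counitAlgHom_apply, map_pow, counitAlgHom_apply, mem_augIdeal.mp hu,
        zero_pow hp.out.ne_zero]
    have htN : t ∈ N := by
      have hmem : t ∈ Algebra.adjoin k (Set.range x) := by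
        rw [Algebra.adjoin_range_eq_range_aeval]
        exact ⟨Q, rfl⟩
      have := adjoin_sub_mem (counitAlgHom k A) x (fun i => mem_augIdeal.mp (hxI i)) hmem
      rw [counitAlgHom_apply, htε, map_zero, sub_zero] at this
      exact this
    refine ⟨u - t, ?_, ?_, ?_⟩
    · exact Ideal.sub_mem _ hu (mem_augIdeal.mpr htε)
    · rw [sub_pow_char, htp, sub_self]
    · rw [sub_sub_cancel]; exact htN
  set s := finrank k U with hs
  let bU : Basis (Fin s) k U := Module.finBasis k U
  have hlift : ∀ j : Fin s, ∃ z ∈ augIdeal k A, z ^ p = 0 ∧ N.mkQ z = (bU j : A ⧸ N) := by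
    intro j
    obtain ⟨a, ha, haj⟩ := Submodule.mem_map.mp (bU j).2
    obtain ⟨z, hzI, hzp, hzN⟩ := hF3 a ha
    refine ⟨z, hzI, hzp, ?_⟩
    rw [← haj]
    symm
    rw [Submodule.mkQ_apply, Submodule.mkQ_apply, Submodule.Quotient.eq]
    exact hzN
  choose z hzI hzp hzb using hlift
  -- the new family
  let w : σ₁ ⊕ Fin s → A := Sum.elim x z
  let e : σ₁ ⊕ Fin s → ℕ := Sum.elim (fun i => e₁ i + 1) (fun _ => 1)
  have hwI : ∀ i, w i ∈ augIdeal k A := by
    rintro (i | j)
    · exact hxI i
    · exact hzI j
  have hwpow : ∀ i, w i ^ p ^ e i = 0 := by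
    rintro (i | j)
    · change x i ^ p ^ (e₁ i + 1) = 0
      rw [pow_succ', pow_mul, hx i]
      have := congrArg (Subalgebra.val (frobSub p k A)) (hypow i)
      simpa using this
    · change z j ^ p ^ 1 = 0
      rw [pow_one, hzp j]
  have hwind : ∀ c : σ₁ ⊕ Fin s → k, ∑ i, c i • w i ∈ (augIdeal k A) ^ 2 → c = 0 := by
    intro c hc0
    have hc : ∑ i, c (Sum.inl i) • x i + ∑ j, c (Sum.inr j) • z j ∈ (augIdeal k A) ^ 2 := by
      rw [Fintype.sum_sum_type] at hc0
      exact hc0
    have h1 : N.mkQ (∑ i, c (Sum.inl i) • x i + ∑ j, c (Sum.inr j) • z j) = 0 := by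
      rw [Submodule.mkQ_apply, Submodule.Quotient.mk_eq_zero]
      exact hMN hc
    have h2 : N.mkQ (∑ i, c (Sum.inl i) • x i) = 0 := by
      rw [Submodule.mkQ_apply, Submodule.Quotient.mk_eq_zero]
      exact Submodule.sum_mem _ fun i _ => Submodule.smul_mem _ _ (hxN i)
    rw [map_add, h2, zero_add, map_sum] at h1
    have h3 : ∑ j, c (Sum.inr j) • bU j = 0 := by
      apply Subtype.ext
      rw [Submodule.coe_sum, Submodule.coe_zero, ← h1]
      refine Finset.sum_congr rfl fun j _ => ?_
      rw [Submodule.coe_smul, map_smul, hzb j]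
    have h4 := Fintype.linearIndependent_iff.mp bU.linearIndependent _ h3
    have h5 : ∑ i, c (Sum.inl i) • x i ∈ (augIdeal k A) ^ 2 := by
      have : ∑ j, c (Sum.inr j) • z j = 0 :=
        Finset.sum_eq_zero fun j _ => by rw [h4 j, zero_smul]
      rw [this, add_zero] at hc
      exact hc
    have h6 := hxind _ h5
    funext i
    rcases i with i | j
    · exact congrFun h6 i
    · exact h4 j
  have hwspan : (augIdeal k A).restrictScalars k ≤ Submodule.span k (Set.range w) ⊔ M := by
    intro u hu
    have hxw : Submodule.span k (Set.range x) ≤ Submodule.span k (Set.range w) :=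
      Submodule.span_mono (by rintro _ ⟨i, rfl⟩; exact ⟨Sum.inl i, rfl⟩)
    have hzw : ∀ j, z j ∈ Submodule.span k (Set.range w) :=
      fun j => Submodule.subset_span ⟨Sum.inr j, rfl⟩
    let v : U := ⟨N.mkQ u, Submodule.mem_map_of_mem hu⟩
    have hv := bU.sum_repr v
    set u' := u - ∑ j, (bU.repr v j) • z j with hu'
    have hu'N : u' ∈ N := by
      rw [← Submodule.Quotient.mk_eq_zero, ← Submodule.mkQ_apply, hu', map_sub, map_sum]
      have : ∑ j, N.mkQ ((bU.repr v j) • z j) = ((∑ j, (bU.repr v j) • bU j : U) : A ⧸ N) := by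
        rw [Submodule.coe_sum]
        refine Finset.sum_congr rfl fun j _ => ?_
        rw [Submodule.coe_smul, map_smul, hzb j]
      rw [this, hv, sub_self]
    obtain ⟨a₁, ha₁, a₂, ha₂, h12⟩ := Submodule.mem_sup.mp hu'N
    have : u = a₁ + ∑ j, (bU.repr v j) • z j + a₂ := by
      rw [add_right_comm, h12, hu']; ring
    rw [this]
    refine Submodule.add_mem_sup (add_mem (hxw ha₁) ?_) ha₂
    exact Submodule.sum_mem _ fun j _ => Submodule.smul_mem _ _ (hzw j)
  obtain ⟨Nn, hNn⟩ := exists_pow_eq_bot (k := k) (augIdeal k A) hnil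
  have hgen : Algebra.adjoin k (Set.range w) = ⊤ :=
    adjoin_eq_top_of_cotangent_span (augIdeal k A) w
      (fun a => ⟨counit (R := k) a, sub_counit_mem_augIdeal a⟩) ⟨Nn, hNn⟩ hwI hwspan
  -- the count
  have hfrB : finrank k ↥(frobSub p k A) = ∏ i, p ^ e₁ i := by
    rw [← (LinearEquiv.ofBijective _ hybij).finrank_eq, finrank_redPoly]
  have hcount : ∏ i, p ^ e i ≤ finrank k A := by
    rw [finrank_eq_finrank_sub_mul hB hnil, hfrB, Fintype.prod_sum_type]
    have h1 : ∏ i : σ₁, p ^ e (Sum.inl i) = (∏ i, p ^ e₁ i) * p ^ Fintype.card σ₁ := by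
      change ∏ i : σ₁, p ^ (e₁ i + 1) = _
      simp only [pow_succ, Finset.prod_mul_distrib, Finset.prod_const, Finset.card_univ]
    have h2 : ∏ j : Fin s, p ^ e (Sum.inr j) = p ^ s := by
      change ∏ j : Fin s, p ^ 1 = _
      simp
    rw [h1, h2, mul_assoc, ← pow_add]
    refine Nat.mul_le_mul_left _ ?_
    have := pow_card_le_finrank_quot p w hwI hwind
    rwa [Fintype.card_sum, Fintype.card_fin] at this
  refine ⟨σ₁ ⊕ Fin s, inferInstance, e, w, ?_, fun i => mem_augIdeal.mp (hwI i), hwpow, hwind,
    redEval_bijective_of_le w _ hwpow hgen hcount⟩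
  rintro (i | j)
  · exact Nat.le_add_left 1 (e₁ i)
  · exact le_refl 1

end hopf

section main

universe u

variable (p : ℕ) [hp : Fact p.Prime] {k : Type*} [Field k] [CharP k p] [PerfectRing k p]

theorem frobSub_ne_top {A : Type u} [CommRing A] [HopfAlgebra k A] [FiniteDimensional k A]
    (hnil : ∀ x ∈ augIdeal k A, IsNilpotent x) (hI : augIdeal k A ≠ ⊥) :
    frobSub p k A ≠ ⊤ := by
  intro htop
  apply hI
  obtain ⟨N, hN⟩ := exists_pow_eq_bot (k := k) (augIdeal k A) hnil
  have hsq : augIdeal k A ≤ (augIdeal k A) ^ 2 := by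
    intro a ha
    have : a ∈ frobSub p k A := htop ▸ Algebra.mem_top
    obtain ⟨b, rfl⟩ := this
    have hb : b ∈ augIdeal k A := by
      rw [mem_augIdeal] at ha ⊢
      rw [← counitAlgHom_apply, map_pow] at ha
      exact (pow_eq_zero_iff hp.out.ne_zero).mp ha
    exact Ideal.pow_le_pow_right hp.out.two_le (Ideal.pow_mem_pow hb p)
  have hall : ∀ m : ℕ, augIdeal k A ≤ (augIdeal k A) ^ (m + 1) := by
    intro m
    induction m with
    | zero => simp
    | succ m ih =>
      refine hsq.trans ?_
      rw [pow_two, pow_succ' _ (m + 1)]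
      exact Ideal.mul_mono_right ih
  have := (hall N).trans (Ideal.pow_le_pow_right (Nat.le_succ N))
  rw [hN] at this
  exact le_bot_iff.mp this

/-- **Structure theorem** for local finite commutative Hopf algebras over a perfect field of
characteristic `p`: there is a basis of reduced monomials. -/
theorem hasMonoBasis_of_isNilpotent (A : Type u) [CommRing A] [HopfAlgebra k A]
    [FiniteDimensional k A] (hnil : ∀ x ∈ augIdeal k A, IsNilpotent x) :
    HasMonoBasis p (counitAlgHom k A) := by
  suffices H : ∀ (n : ℕ) (A : Type u) [CommRing A] [HopfAlgebra k A] [FiniteDimensional k A],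
      finrank k A = n → (∀ x ∈ augIdeal k A, IsNilpotent x) →
      HasMonoBasis p (counitAlgHom k A) from H _ A rfl hnil
  intro n
  induction n using Nat.strong_induction_on with
  | _ n ih =>
    intro A _ _ _ hn hnil
    have hntA : Nontrivial A := Bialgebra.nontrivial k
    by_cases hI : augIdeal k A = ⊥
    · -- `A = k`
      refine ⟨Empty, inferInstance, Empty.elim, Empty.elim, fun i => i.elim, fun i => i.elim,
        fun i => i.elim, fun c _ => funext fun i => i.elim, ?_⟩
      refine redEval_bijective_of_le _ _ (fun i => i.elim) ?_ ?_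
      · refine adjoin_eq_top_of_cotangent_span (augIdeal k A) _
          (fun a => ⟨counit (R := k) a, sub_counit_mem_augIdeal a⟩) ⟨1, by simp [hI]⟩
          (fun i => i.elim) ?_
        rw [hI]
        intro a ha
        have : a = 0 := by simpa using ha
        rw [this]
        exact zero_mem _
      · simp only [Finset.univ_eq_empty, Finset.prod_empty]
        exact Module.finrank_pos
    · have hB : IsHopfSub (frobSub p k A) := isHopfSub_frobSub p k A
      have hlt : finrank k ↥(frobSub p k A) < n := by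
        rw [← hn, ← Subalgebra.finrank_toSubmodule]
        refine Submodule.finrank_lt ?_
        rw [Ne, Algebra.toSubmodule_eq_top]
        exact frobSub_ne_top p hnil hI
      letI := hB.hopfAlgebra
      have hnilB : ∀ b ∈ augIdeal k ↥(frobSub p k A), IsNilpotent b := by
        intro b hb
        have : (b : A) ∈ augIdeal k A := by
          rw [mem_augIdeal] at hb ⊢
          exact hb
        obtain ⟨m, hm⟩ := hnil _ this
        exact ⟨m, Subtype.ext (by simpa using hm)⟩
      have ihB := ih _ hlt ↥(frobSub p k A) rfl hnilB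
      have e : counitAlgHom k ↥(frobSub p k A) = IsHopfSub.counitHom (frobSub p k A) :=
        AlgHom.ext fun b => rfl
      rw [e] at ihB
      exact hasMonoBasis_step p hnil ihB

end main

end Fermat.Agent.S56lib.Hopf
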