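import Mathlib
import Fermat.Agent.S56lib.Hopf.Struct
import Fermat.Agent.S56lib.Hopf.Components

/-!
# The local factor of a finite commutative Hopf algebra at a rational point

Over a perfect field `k` of characteristic `p`, for a finite-dimensional commutative Hopf algebra
`A` and a `k`-point `g : A → k`, the local factor `A ⧸ (ker g) ^ N` (`N` large) has a basis of
reduced monomials.
-/

open TensorProduct Coalgebra Bialgebra Module MvPolynomial

namespace Fermat.Agent.S56lib.Hopf

section transport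

variable {k C₁ C₂ : Type*} [Field k] [CommRing C₁] [CommRing C₂] [Algebra k C₁] [Algebra k C₂]

theorem HasMonoBasis.transport (p : ℕ) (φ : C₁ ≃ₐ[k] C₂) (ε₁ : C₁ →ₐ[k] k) (ε₂ : C₂ →ₐ[k] k)
    (h : ∀ a, ε₂ (φ a) = ε₁ a) (H : HasMonoBasis p ε₂) : HasMonoBasis p ε₁ := by
  obtain ⟨σ, _, e, x, he, hxε, hxpow, hxind, hxbij⟩ := H
  refine ⟨σ, inferInstance, e, fun i => φ.symm (x i), he, fun i => ?_, fun i => ?_, ?_, ?_⟩
  · rw [← h, AlgEquiv.apply_symm_apply]; exact hxε i
  · rw [← map_pow, hxpow i, map_zero]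
  · intro c hc
    apply hxind c
    have h1 : (RingHom.ker ε₁).map (φ : C₁ →ₐ[k] C₂) ≤ RingHom.ker ε₂ := by
      rw [Ideal.map_le_iff_le_comap]
      intro a ha
      rw [Ideal.mem_comap, RingHom.mem_ker]
      exact (h a).trans (RingHom.mem_ker.mp ha)
    have h2 : (φ : C₁ →ₐ[k] C₂) (∑ i, c i • φ.symm (x i)) ∈ (RingHom.ker ε₂) ^ 2 := by
      have := Ideal.mem_map_of_mem (φ : C₁ →ₐ[k] C₂) hc
      rw [Ideal.map_pow] at this
      exact Ideal.pow_right_mono h1 2 this
    simpa using h2
  · have e1 : ∀ P : redPoly k (fun i => p ^ e i),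
        redEval (R := k) (fun i => φ.symm (x i)) (fun i => p ^ e i) P =
        φ.symm (redEval (R := k) x (fun i => p ^ e i) P) := by
      intro P
      rw [redEval_apply, redEval_apply]
      exact (comp_aeval_apply x (φ.symm : C₂ →ₐ[k] C₁) (P : MvPolynomial σ k)).symm
    have e2 : (redEval (R := k) (fun i => φ.symm (x i)) (fun i => p ^ e i) : _ → C₁) =
        φ.symm ∘ (redEval (R := k) x (fun i => p ^ e i)) := funext e1
    rw [e2]
    exact φ.symm.bijective.comp hxbij

end transport

section point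

universe u

variable (p : ℕ) [hp : Fact p.Prime] {k : Type*} [Field k] [CharP k p] [PerfectRing k p]
  {A : Type u} [CommRing A] [HopfAlgebra k A] [FiniteDimensional k A]

omit [FiniteDimensional k A] in
theorem ker_eq_comap_translEquiv (g : A →ₐ[k] k) :
    RingHom.ker g = (augIdeal k A).comap (translEquiv g : A ≃+* A) := by
  ext a
  rw [RingHom.mem_ker, Ideal.mem_comap, mem_augIdeal]
  change _ ↔ counit (R := k) (translEquiv g a) = 0
  rw [counit_translEquiv]

omit [FiniteDimensional k A] in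
theorem ker_pow_eq_comap_translEquiv (g : A →ₐ[k] k) (N : ℕ) :
    (RingHom.ker g) ^ N = ((augIdeal k A) ^ N).comap (translEquiv g : A ≃+* A) := by
  rw [ker_eq_comap_translEquiv, ← Ideal.map_symm, ← Ideal.map_symm, Ideal.map_pow]

/-- **Local factor at a rational point** has a basis of reduced monomials. -/
theorem hasMonoBasis_at_point (g : A →ₐ[k] k) :
    ∃ N : ℕ, 1 ≤ N ∧ (RingHom.ker g) ^ (N + N) = (RingHom.ker g) ^ N ∧
      ∃ gN : (A ⧸ (RingHom.ker g) ^ N) →ₐ[k] k,
        (∀ a, gN (Ideal.Quotient.mk _ a) = g a) ∧ HasMonoBasis p gN := by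
  have hart : IsArtinianRing A := IsArtinianRing.of_finite k A
  obtain ⟨N, hN1, hstab⟩ := exists_pow_stable (augIdeal k A)
  have hHopf : ((augIdeal k A) ^ N).IsHopfIdeal k := isHopfIdeal_pow hN1 hstab
  have H0 := hasMonoBasis_of_isNilpotent p (A ⧸ (augIdeal k A) ^ N)
    (fun y hy => isNilpotent_of_mem_augIdeal_quot y hy)
  refine ⟨N, hN1, ?_, ?_⟩
  · rw [ker_pow_eq_comap_translEquiv, ker_pow_eq_comap_translEquiv, hstab]
  · have hmap : (augIdeal k A) ^ N = ((RingHom.ker g) ^ N).map
        ((translEquiv g : A ≃ₐ[k] A) : A →+* A) := by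
      rw [ker_pow_eq_comap_translEquiv]
      exact (Ideal.map_comap_of_surjective _ (translEquiv g).surjective _).symm
    let φ := Ideal.quotientEquivAlg ((RingHom.ker g) ^ N) ((augIdeal k A) ^ N)
      (translEquiv g) hmap
    refine ⟨(counitAlgHom k (A ⧸ (augIdeal k A) ^ N)).comp (φ : _ →ₐ[k] _), fun a => ?_, ?_⟩
    · change counit (R := k) (Ideal.Quotient.mk ((augIdeal k A) ^ N) (translEquiv g a)) = g a
      rw [Bialgebra.Quotient.counit_mk, counit_translEquiv]
    · exact HasMonoBasis.transport p φ _ _ (fun a => rfl) H0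

end point

end Fermat.Agent.S56lib.Hopf
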