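import Mathlib
import Fermat.Agent.S56lib.Hopf.Point
import Fermat.Agent.S56lib.Hopf.AdicFree
import Fermat.Agent.S56lib.Hopf.LiftBasis

/-!
# Local factors of a finite flat commutative Hopf algebra over a complete unramified base

Let `W` be a local ring with maximal ideal `(p)`, `p`-adically complete, with perfect residue
field `k`, and `A` a commutative Hopf algebra over `W`, finite free as a `W`-module.  For every
point `g : A → k` there is an idempotent `f` of `A` with `g f = 0` such that the factor
`A ⧸ (f)` has a `W`-basis of reduced monomials `∏ X i ^ γ i`, `γ i < p ^ e i`.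
-/

open TensorProduct Coalgebra Bialgebra Module MvPolynomial IsLocalRing

namespace Fermat.Agent.S56lib.Hopf

section basechange

variable {W : Type*} [CommRing W] [IsLocalRing W] {A : Type*} [CommRing A] [Algebra W A]

theorem includeRight_surjective :
    Function.Surjective
      (Algebra.TensorProduct.includeRight : A →ₐ[W] ResidueField W ⊗[W] A) := by
  intro t
  induction t using TensorProduct.induction_on with
  | zero => exact ⟨0, map_zero _⟩
  | tmul c a =>
    obtain ⟨w, rfl⟩ := residue_surjective c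
    refine ⟨w • a, ?_⟩
    rw [Algebra.TensorProduct.includeRight_apply, TensorProduct.tmul_smul,
      TensorProduct.smul_tmul', ← Algebra.algebraMap_eq_smul_one]
    rfl
  | add x y hx hy =>
    obtain ⟨a, rfl⟩ := hx
    obtain ⟨b, rfl⟩ := hy
    exact ⟨a + b, map_add _ _ _⟩

theorem mem_smul_top_of_includeRight_eq_zero (a : A)
    (h : (Algebra.TensorProduct.includeRight : A →ₐ[W] ResidueField W ⊗[W] A) a = 0) :
    a ∈ (maximalIdeal W) • (⊤ : Submodule W A) := by
  have h1 := TensorProduct.quotTensorEquivQuotSMul_mk_one_tmul (M := A) (maximalIdeal W) a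
  rw [Algebra.TensorProduct.includeRight_apply] at h
  have h2 : ((1 : W ⧸ maximalIdeal W) ⊗ₜ[W] a : (W ⧸ maximalIdeal W) ⊗[W] A) = 0 := h
  rw [h2, map_zero] at h1
  exact (Submodule.Quotient.mk_eq_zero _).mp h1.symm

theorem smul_top_eq_span_of_maximalIdeal_eq {ϖ : W} (hmax : maximalIdeal W = Ideal.span {ϖ})
    (a : A) : a ∈ (maximalIdeal W) • (⊤ : Submodule W A) ↔
      a ∈ Ideal.span {algebraMap W A ϖ} := by
  rw [hmax, Submodule.ideal_span_singleton_smul, Ideal.mem_span_singleton]
  constructor
  · intro h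
    obtain ⟨b, -, rfl⟩ := (Submodule.mem_smul_pointwise_iff_exists _ _ _).mp h
    exact ⟨b, by rw [Algebra.smul_def]⟩
  · rintro ⟨b, rfl⟩
    rw [← Algebra.smul_def]
    exact Submodule.smul_mem_pointwise_smul b ϖ ⊤ Submodule.mem_top

end basechange

section proj

theorem projective_quotient_idempotent {W A : Type*} [CommRing W] [CommRing A] [Algebra W A]
    [Module.Projective W A] {f : A} (hf : IsIdempotentElem f) :
    Module.Projective W (A ⧸ Ideal.span {f}) := by
  let E := AlgEquiv.prodQuotientOfIsIdempotentElem W hf hf.one_sub (by ring)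
    (by rw [mul_sub, mul_one, hf.eq, sub_self])
  refine Module.Projective.of_split
    (E.symm.toLinearMap ∘ₗ LinearMap.inl W (A ⧸ Ideal.span {f}) (A ⧸ Ideal.span {1 - f}))
    (LinearMap.fst W (A ⧸ Ideal.span {f}) (A ⧸ Ideal.span {1 - f}) ∘ₗ E.toLinearMap) ?_
  apply LinearMap.ext
  intro x
  simp

end proj

section polylift

variable {R S : Type*} [CommRing R] [CommRing S] {σ : Type*}

theorem exists_redPoly_map_eq (φ : R →+* S) (hφ : Function.Surjective φ) (q : σ → ℕ)
    (Pbar : redPoly S q) :
    ∃ P : redPoly R q, MvPolynomial.map φ (P : MvPolynomial σ R) = (Pbar : MvPolynomial σ S) := by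
  classical
  let c : S → R := Function.surjInv hφ
  have hc : ∀ s, φ (c s) = s := Function.surjInv_eq hφ
  refine ⟨⟨∑ γ ∈ (Pbar : MvPolynomial σ S).support,
    monomial γ (c (coeff γ (Pbar : MvPolynomial σ S))), ?_⟩, ?_⟩
  · refine Submodule.sum_mem _ fun γ hγ => monomial_mem_redPoly ?_ _
    exact (mem_redPoly_iff.mp Pbar.2) γ (by simpa using hγ)
  · simp only [map_sum, MvPolynomial.map_monomial, hc]
    exact ((Pbar : MvPolynomial σ S).as_sum).symm

theorem map_mem_redPoly (φ : R →+* S) (q : σ → ℕ) (P : redPoly R q) :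
    MvPolynomial.map φ (P : MvPolynomial σ R) ∈ redPoly S q := by
  rw [mem_redPoly_iff]
  intro γ hγ
  rw [MvPolynomial.coeff_map] at hγ
  refine (mem_redPoly_iff.mp P.2) γ ?_
  intro h
  rw [h, map_zero] at hγ
  exact hγ rfl

end polylift

section main

universe u v

variable (p : ℕ) [hp : Fact p.Prime] {W : Type u} [CommRing W] [IsLocalRing W]
  {A : Type v} [CommRing A] [HopfAlgebra W A] [Module.Free W A] [Module.Finite W A]

/-- **Presentation of the local factors** of a finite flat commutative Hopf algebra over a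
complete local ring with maximal ideal `(p)` and perfect residue field. -/
theorem exists_monoBasis_factor (hmax : maximalIdeal W = Ideal.span {(p : W)})
    [IsAdicComplete (Ideal.span {(p : W)}) W] [PerfectRing (ResidueField W) p]
    (g : A →ₐ[W] ResidueField W) :
    ∃ f : A, IsIdempotentElem f ∧ g f = 0 ∧
      ∃ (σ : Type) (_ : Fintype σ) (e : σ → ℕ) (X : σ → A ⧸ Ideal.span {f}),
        (∀ i, 1 ≤ e i) ∧ (∀ i, ∃ a : A, Ideal.Quotient.mk _ a = X i ∧ g a = 0) ∧
        (∀ i, X i ^ p ^ e i ∈ Ideal.span {((p : ℕ) : A ⧸ Ideal.span {f})}) ∧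
        Function.Bijective (redEval (R := W) X (fun i => p ^ e i)) := by
  classical
  have hpm : (p : W) ∈ maximalIdeal W := by
    rw [hmax]; exact Ideal.mem_span_singleton_self _
  have hpk : ((p : ℕ) : ResidueField W) = 0 := by
    have := (residue_eq_zero_iff (p : W)).mpr hpm
    simpa using this
  have : CharP (ResidueField W) p := (CharP.charP_iff_prime_eq_zero hp.out).mpr hpk
  let π : A →ₐ[W] ResidueField W ⊗[W] A := Algebra.TensorProduct.includeRight
  have hπs : Function.Surjective π := includeRight_surjective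
  let gbar : ResidueField W ⊗[W] A →ₐ[ResidueField W] ResidueField W :=
    Algebra.TensorProduct.lift (AlgHom.id _ _) g (fun _ _ => Commute.all _ _)
  have hgbar : ∀ a, gbar (π a) = g a := fun a => by simp [π, gbar]
  obtain ⟨N, hN1, hstab, H⟩ := hasMonoBasis_at_point p gbar
  set Jbar := (RingHom.ker gbar) ^ N with hJbar
  obtain ⟨gN, hgN, σ, _, e, xbar, he, hxε, hxpow, -, hxbij⟩ := H
  have hJidem : IsIdempotentElem Jbar := by
    change Jbar * Jbar = Jbar
    rw [hJbar, ← pow_add, hstab]
  have hnoeth : IsNoetherianRing (ResidueField W ⊗[W] A) :=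
    IsNoetherianRing.of_finite (ResidueField W) _
  obtain ⟨fbar, hfbar, hJf⟩ :=
    (Ideal.isIdempotentElem_iff_of_fg Jbar (IsNoetherian.noetherian Jbar)).mp hJidem
  have hfJ : fbar ∈ Jbar := by rw [hJf]; exact Ideal.mem_span_singleton_self _
  obtain ⟨a₀, ha₀⟩ := hπs fbar
  let bA := Module.Free.chooseBasis W A
  have : IsAdicComplete (Ideal.span {algebraMap W A (p : W)}) A :=
    isAdicComplete_of_basis bA (p : W)
  have hπp : π (algebraMap W A (p : W)) = 0 := by
    rw [AlgHom.commutes, Algebra.TensorProduct.algebraMap_apply]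
    have : algebraMap W (ResidueField W) (p : W) = 0 := (residue_eq_zero_iff (p : W)).mpr hpm
    rw [this, TensorProduct.zero_tmul]
  have hkerπ : ∀ a, π a = 0 ↔ a ∈ Ideal.span {algebraMap W A (p : W)} := by
    intro a
    constructor
    · intro h
      exact (smul_top_eq_span_of_maximalIdeal_eq hmax a).mp
        (mem_smul_top_of_includeRight_eq_zero a h)
    · intro h
      obtain ⟨b, rfl⟩ := Ideal.mem_span_singleton.mp h
      rw [map_mul, hπp, zero_mul]
  have h0 : a₀ ^ 2 - a₀ ∈ Ideal.span {algebraMap W A (p : W)} := by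
    rw [← hkerπ, map_sub, map_pow, ha₀, pow_two, hfbar.eq, sub_self]
  obtain ⟨f, hf, hfa⟩ := exists_isIdempotentElem_sub_mem _ a₀ h0
  have hπf : π f = fbar := by
    have := (hkerπ _).mpr hfa
    rw [map_sub, ha₀, sub_eq_zero] at this
    exact this
  have hgf : g f = 0 := by
    rw [← hgbar, hπf]
    exact RingHom.mem_ker.mp (Ideal.pow_le_self (by omega) hfJ)
  refine ⟨f, hf, hgf, σ, inferInstance, e, ?_⟩
  have hle : Ideal.span {f} ≤ Jbar.comap π := by
    rw [Ideal.span_le, Set.singleton_subset_iff]
    change π f ∈ Jbar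
    rw [hπf]; exact hfJ
  let ρ : A ⧸ Ideal.span {f} →ₐ[W] (ResidueField W ⊗[W] A) ⧸ Jbar :=
    Ideal.quotientMapₐ Jbar π hle
  have hρmk : ∀ a, ρ (Ideal.Quotient.mk _ a) = Ideal.Quotient.mk Jbar (π a) := fun a => rfl
  have hρs : Function.Surjective ρ := Ideal.quotientMap_surjective (H := hle) hπs
  have hρker : ∀ a' : A ⧸ Ideal.span {f}, ρ a' = 0 →
      a' ∈ (maximalIdeal W) • (⊤ : Submodule W (A ⧸ Ideal.span {f})) := by
    intro a' h
    obtain ⟨a, rfl⟩ := Ideal.Quotient.mk_surjective a'
    have h1 : π a ∈ Jbar := Ideal.Quotient.eq_zero_iff_mem.mp h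
    rw [hJf, Ideal.mem_span_singleton] at h1
    obtain ⟨cbar, hc⟩ := h1
    obtain ⟨c, rfl⟩ := hπs cbar
    have h2 : π (a - f * c) = 0 := by rw [map_sub, map_mul, hπf, hc, sub_self]
    have h3 := mem_smul_top_of_includeRight_eq_zero _ h2
    have h4 : Ideal.Quotient.mk (Ideal.span {f}) a =
        (Ideal.Quotient.mkₐ W (Ideal.span {f})).toLinearMap (a - f * c) := by
      have : Ideal.Quotient.mk (Ideal.span {f}) (f * c) = 0 :=
        Ideal.Quotient.eq_zero_iff_mem.mpr
          (Ideal.mul_mem_right c _ (Ideal.mem_span_singleton_self f))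
      simp [map_sub, this]
    rw [h4]
    have h5 := Submodule.mem_map_of_mem (f := (Ideal.Quotient.mkₐ W (Ideal.span {f})).toLinearMap) h3
    rw [Submodule.map_smul''] at h5
    exact Submodule.smul_mono le_rfl le_top h5
  have hρzero : ∀ a' : A ⧸ Ideal.span {f},
      a' ∈ (maximalIdeal W) • (⊤ : Submodule W (A ⧸ Ideal.span {f})) → ρ a' = 0 := by
    intro a' h
    refine Submodule.smul_induction_on h (fun w hw m _ => ?_) (fun u v hu hv => ?_)
    · rw [map_smul, ← IsScalarTower.algebraMap_smul (ResidueField W) w (ρ m)]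
      have : algebraMap W (ResidueField W) w = 0 := (residue_eq_zero_iff w).mpr hw
      rw [this, zero_smul]
    · rw [map_add, hu, hv, add_zero]
  choose X hX using fun i => hρs (xbar i)
  have hρeval : ∀ P : MvPolynomial σ W, ρ (aeval X P) =
      aeval xbar (MvPolynomial.map (algebraMap W (ResidueField W)) P) := by
    intro P
    rw [comp_aeval_apply, aeval_map_algebraMap]
    congr 2
    funext i
    exact hX i
  have hproj : Module.Projective W (A ⧸ Ideal.span {f}) := projective_quotient_idempotent hf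
  refine ⟨X, he, fun i => ?_, fun i => ?_, ?_⟩
  · obtain ⟨a, ha⟩ := Ideal.Quotient.mk_surjective (X i)
    refine ⟨a, ha, ?_⟩
    rw [← hgbar, ← hgN, ← hρmk, ha, hX i]
    exact hxε i
  · have h1 : ρ (X i ^ p ^ e i) = 0 := by rw [map_pow, hX i, hxpow i]
    have h2 := (smul_top_eq_span_of_maximalIdeal_eq hmax _).mp (hρker _ h1)
    rwa [map_natCast] at h2
  · refine redEval_bijective_of_mod (maximalIdeal W)
      (IsLocalRing.jacobson_eq_maximalIdeal ⊥ bot_ne_top).ge X _ ?_ ?_
    · intro a'
      obtain ⟨Pbar, hPbar⟩ := hxbij.2 (ρ a')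
      obtain ⟨P, hP⟩ := exists_redPoly_map_eq (algebraMap W (ResidueField W))
        residue_surjective _ Pbar
      refine ⟨P, hρker _ ?_⟩
      rw [map_sub, redEval_apply, hρeval, hP, ← redEval_apply, hPbar, sub_self]
    · intro P hP γ
      have h1 : ρ (redEval X _ P) = 0 := by rw [hP, map_zero]
      rw [redEval_apply, hρeval] at h1
      have h2 : (⟨_, map_mem_redPoly (algebraMap W (ResidueField W)) _ P⟩ :
          redPoly (ResidueField W) (fun i => p ^ e i)) = 0 :=
        hxbij.1 (by rw [map_zero]; exact h1)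
      have h3 := congrArg (fun Q : redPoly (ResidueField W) (fun i => p ^ e i) =>
        coeff γ (Q : MvPolynomial σ (ResidueField W))) h2
      simp only [MvPolynomial.coeff_map, Submodule.coe_zero, coeff_zero] at h3
      exact (residue_eq_zero_iff _).mp h3

end main

end Fermat.Agent.S56lib.Hopf
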