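import Mathlib
import Fermat.Agent.S56lib.Hopf.Omega
import Fermat.Agent.S56lib.Hopf.Lift

/-!
# Final packaging of the presentation theorem

* reindexing of reduced-monomial bases along an equivalence of index types (so that the variables
  can be indexed by `Fin m`);
* the basis of reduced monomials as a `Module.Basis`;
* `n • Ω = 0` passes to quotient algebras;
* `exists_presentation`: the statement consumed by the Newton/Fontaine argument.
-/

open TensorProduct Coalgebra Bialgebra Module MvPolynomial IsLocalRing

namespace Fermat.Agent.S56lib.Hopf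

section reindex

variable {R A : Type*} [CommRing R] [CommRing A] [Algebra R A] {σ τ : Type*}

theorem rename_mem_redPoly (φ : σ ≃ τ) (q : σ → ℕ) (q' : τ → ℕ) (hq : ∀ i, q' (φ i) = q i)
    {P : MvPolynomial σ R} (hP : P ∈ redPoly R q) : rename φ P ∈ redPoly R q' := by
  rw [mem_redPoly_iff]
  intro γ' hγ' j
  have h1 : γ' = Finsupp.mapDomain φ (Finsupp.mapDomain φ.symm γ') := by
    rw [← Finsupp.mapDomain_comp]
    simp
  rw [h1, coeff_rename_mapDomain φ φ.injective] at hγ'
  have h2 := (mem_redPoly_iff.mp hP) _ hγ' (φ.symm j)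
  rw [Finsupp.mapDomain_equiv_apply, Equiv.symm_symm, Equiv.apply_symm_apply] at h2
  rw [← hq (φ.symm j), Equiv.apply_symm_apply] at h2
  exact h2

theorem redEval_bijective_reindex (φ : σ ≃ τ) (X : σ → A) (q : σ → ℕ)
    (h : Function.Bijective (redEval (R := R) X q)) :
    Function.Bijective (redEval (R := R) (X ∘ φ.symm) (q ∘ φ.symm)) := by
  constructor
  · rw [injective_iff_map_eq_zero]
    intro Q hQ
    have hmem : rename φ.symm (Q : MvPolynomial τ R) ∈ redPoly R q :=
      rename_mem_redPoly φ.symm (q ∘ φ.symm) q (fun j => rfl) Q.2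
    have h1 : redEval (R := R) X q ⟨_, hmem⟩ = 0 := by
      rw [redEval_apply, aeval_rename]
      exact hQ
    have h2 := h.1 (h1.trans (map_zero _).symm)
    have h3 : rename φ.symm (Q : MvPolynomial τ R) = 0 := congrArg Subtype.val h2
    have h4 := congrArg (rename φ) h3
    rw [rename_rename, map_zero] at h4
    apply Subtype.ext
    simpa using h4
  · intro a
    obtain ⟨P, rfl⟩ := h.2 a
    have hmem : rename φ (P : MvPolynomial σ R) ∈ redPoly R (q ∘ φ.symm) :=
      rename_mem_redPoly φ q (q ∘ φ.symm) (fun i => by simp) P.2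
    refine ⟨⟨_, hmem⟩, ?_⟩
    rw [redEval_apply, aeval_rename, redEval_apply]
    congr 2
    funext i
    simp

end reindex

section basis

variable {R A : Type*} [CommRing R] [CommRing A] [Algebra R A] {σ : Type*} [Fintype σ]

omit [Fintype σ] [CommRing A] [Algebra R A] in
theorem coe_basisRestrictSupport (s : Set (σ →₀ ℕ)) (γ : s) :
    ((basisRestrictSupport R s γ : restrictSupport R s) : MvPolynomial σ R) =
      monomial (γ : σ →₀ ℕ) 1 := by
  classical
  have key : ∀ (P : restrictSupport R s) (δ : s),
      (basisRestrictSupport R s).repr P δ = coeff (δ : σ →₀ ℕ) (P : MvPolynomial σ R) :=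
    fun P δ => rfl
  ext δ
  rw [coeff_monomial]
  by_cases hδ : δ ∈ s
  · have := key (basisRestrictSupport R s γ) ⟨δ, hδ⟩
    rw [Module.Basis.repr_self, Finsupp.single_apply] at this
    rw [← this]
    simp only [Subtype.ext_iff]
  · have h1 : coeff δ ((basisRestrictSupport R s γ : restrictSupport R s) :
        MvPolynomial σ R) = 0 := by
      by_contra h
      have h2 := (basisRestrictSupport R s γ).2
      rw [mem_restrictSupport_iff] at h2
      exact hδ (h2 (by simpa using h))
    rw [h1, if_neg]
    intro h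
    exact hδ (h ▸ γ.2)

/-- The basis of reduced monomials. -/
noncomputable def monoBasis (X : σ → A) (q : σ → ℕ)
    (h : Function.Bijective (redEval (R := R) X q)) : Basis (redSet q) R A :=
  (basisRestrictSupport R (redSet q)).map (LinearEquiv.ofBijective _ h)

theorem monoBasis_apply (X : σ → A) (q : σ → ℕ)
    (h : Function.Bijective (redEval (R := R) X q)) (γ : redSet q) :
    monoBasis X q h γ = ∏ i, X i ^ (γ : σ →₀ ℕ) i := by
  unfold monoBasis
  rw [Basis.map_apply, LinearEquiv.ofBijective_apply]
  change aeval X (((basisRestrictSupport R (redSet q)) γ : restrictSupport R (redSet q)) :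
    MvPolynomial σ R) = _
  rw [coe_basisRestrictSupport, aeval_monomial, map_one, one_mul, Finsupp.prod_fintype _ _ (fun _ => pow_zero _)]

end basis

section kaehler

variable {R A B : Type*} [CommRing R] [CommRing A] [CommRing B] [Algebra R A] [Algebra R B]
  [Algebra A B] [IsScalarTower R A B]

/-- If `n` kills `Ω[A⁄R]` and `A → B` is surjective then `n` kills `Ω[B⁄R]`. -/
theorem nsmul_kaehler_eq_zero_of_surjective (n : ℕ)
    (hs : Function.Surjective (algebraMap A B)) (h : ∀ w : Ω[A⁄R], n • w = 0)
    (w : Ω[B⁄R]) : n • w = 0 := by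
  obtain ⟨v, rfl⟩ := KaehlerDifferential.map_surjective_of_surjective R R A B hs w
  rw [← map_nsmul, h v, map_zero]

end kaehler

section final

universe u v

variable (p : ℕ) [hp : Fact p.Prime] {W : Type u} [CommRing W] [IsLocalRing W]
  {A : Type v} [CommRing A] [HopfAlgebra W A] [Module.Free W A] [Module.Finite W A]

/-- **Presentation theorem** (final form): for a finite free commutative Hopf algebra `A` over a
`p`-adically complete local ring `W` with maximal ideal `(p)` and perfect residue field, killed by
`p`, and a point `g : A → k`, the local factor `A ⧸ (f)` at `g` has a `W`-basis of reduced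
monomials in `X i` (`i : Fin m`), `X i ^ p ^ e i ∈ p A'`, and `p • Ω[A'⁄W] = 0`. -/
theorem exists_presentation (hmax : maximalIdeal W = Ideal.span {(p : W)})
    [IsAdicComplete (Ideal.span {(p : W)}) W] [PerfectRing (ResidueField W) p]
    (hkill : IsKilledBy W A p) (g : A →ₐ[W] ResidueField W) :
    ∃ f : A, IsIdempotentElem f ∧ g f = 0 ∧
      ∃ (m : ℕ) (e : Fin m → ℕ) (X : Fin m → A ⧸ Ideal.span {f}),
        (∀ i, 1 ≤ e i) ∧ (∀ i, ∃ a : A, Ideal.Quotient.mk _ a = X i ∧ g a = 0) ∧
        (∀ i, X i ^ p ^ e i ∈ Ideal.span {((p : ℕ) : A ⧸ Ideal.span {f})}) ∧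
        Function.Bijective (redEval (R := W) X (fun i => p ^ e i)) ∧
        (∀ w : Ω[(A ⧸ Ideal.span {f})⁄W], p • w = 0) := by
  obtain ⟨f, hf, hgf, σ, _, e, X, he, hXg, hXp, hbij⟩ := exists_monoBasis_factor p hmax g
  refine ⟨f, hf, hgf, Fintype.card σ, e ∘ (Fintype.equivFin σ).symm,
    X ∘ (Fintype.equivFin σ).symm, fun i => he _, fun i => hXg _, fun i => hXp _, ?_, ?_⟩
  · exact redEval_bijective_reindex (Fintype.equivFin σ) X (fun i => p ^ e i) hbij
  · exact nsmul_kaehler_eq_zero_of_surjective p Ideal.Quotient.mk_surjective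
      (nsmul_kaehler_eq_zero hkill)

end final

end Fermat.Agent.S56lib.Hopf
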