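import Mathlib
import Fermat.Agent.S56lib.Hopf.InvDeriv
import Fermat.Agent.S56lib.Hopf.DerivIndep
import Fermat.Agent.S56lib.Hopf.Components
import Fermat.Agent.S56lib.Hopf.Point

/-!
# Cartier's theorem for finite commutative Hopf algebras in characteristic zero

A finite-dimensional commutative Hopf algebra over a field of characteristic zero has
`I = I²` for its augmentation ideal `I`; over an algebraically closed field its points separate
its elements.  Consequently a finite flat commutative Hopf algebra `H` over a subring `R` of an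
algebraically closed field `K` of characteristic zero, all of whose `K`-points are killed by `n`,
satisfies `[n]^* = η ∘ ε` (`IsKilledBy R H n`).
-/

open TensorProduct Coalgebra Bialgebra WithConv

namespace Fermat.Agent.S56lib.Hopf

section powers

variable {k A : Type*} [Field k] [CharZero k] [CommRing A] [Algebra k A]

/-- If a derivation `D` has `ε (D x) = 1` for some `x ∈ ker ε`, then `x ^ d ∉ (ker ε) ^ (d + 1)`. -/
theorem pow_not_mem_pow_succ (ε : A →ₐ[k] k) (x : A) (hx : ε x = 0) (D : Derivation k A A)
    (hD : ε (D x) = 1) (d : ℕ) : x ^ d ∉ (RingHom.ker ε) ^ (d + 1) := by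
  induction d with
  | zero =>
    intro h
    rw [pow_zero, zero_add, pow_one, RingHom.mem_ker, map_one] at h
    exact one_ne_zero h
  | succ d ih =>
    intro h
    apply ih
    have h1 : D (x ^ (d + 1)) ∈ (RingHom.ker ε) ^ (d + 1) := derivation_mem_pow D _ (d + 1) h
    rw [Derivation.leibniz_pow, Nat.add_sub_cancel] at h1
    have hu : D x - 1 ∈ RingHom.ker ε := by
      rw [RingHom.mem_ker, map_sub, hD, map_one, sub_self]
    have hxd : x ^ d ∈ (RingHom.ker ε) ^ d := Ideal.pow_mem_pow (RingHom.mem_ker.mpr hx) d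
    have h2 : x ^ d * (D x - 1) ∈ (RingHom.ker ε) ^ (d + 1) := by
      rw [pow_succ]
      exact Ideal.mul_mem_mul hxd hu
    have h3 : (d + 1) • x ^ d ∈ (RingHom.ker ε) ^ (d + 1) := by
      have e : (d + 1) • x ^ d = (d + 1) • x ^ d • D x - (d + 1) • (x ^ d * (D x - 1)) := by
        rw [smul_eq_mul, ← smul_sub]
        congr 1
        ring
      rw [e]
      exact Ideal.sub_mem _ h1 (Submodule.smul_of_tower_mem _ _ h2)
    have h4 : x ^ d = (((d + 1 : ℕ) : k))⁻¹ • ((d + 1) • x ^ d) := by
      rw [← Nat.cast_smul_eq_nsmul k (d + 1) (x ^ d), smul_smul, inv_mul_cancel₀, one_smul]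
      exact Nat.cast_ne_zero.mpr (Nat.succ_ne_zero d)
    rw [h4]
    exact Submodule.smul_of_tower_mem _ _ h3

end powers

section cartier

variable {k A : Type*} [Field k] [CharZero k] [CommRing A] [HopfAlgebra k A]
  [FiniteDimensional k A]

/-- **Cartier** (finite case): in characteristic zero the augmentation ideal is idempotent. -/
theorem augIdeal_sq_eq : (augIdeal k A) ^ 2 = augIdeal k A := by
  refine le_antisymm (Ideal.pow_le_self two_ne_zero) ?_
  by_contra hle
  obtain ⟨x, hxI, hx2⟩ := Set.not_subset.mp hle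
  have hind : ∀ c : Unit → k, ∑ i, c i • (fun _ : Unit => x) i ∈ (augIdeal k A) ^ 2 → c = 0 := by
    intro c hc
    funext i
    by_contra hci
    apply hx2
    have h1 : c () • x ∈ (augIdeal k A) ^ 2 := by simpa using hc
    have h2 : x = (c ())⁻¹ • (c () • x) := by
      rw [smul_smul, inv_mul_cancel₀ hci, one_smul]
    rw [h2]
    exact Submodule.smul_of_tower_mem _ _ h1
  obtain ⟨ℓ, hℓ, hℓ1, -⟩ := exists_pointDeriv (fun _ : Unit => x) (fun _ => hxI) hind
  have hart : IsArtinianRing A := IsArtinianRing.of_finite k A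
  obtain ⟨N, hN1, hstab⟩ := exists_pow_stable (augIdeal k A)
  refine pow_not_mem_pow_succ (counitAlgHom k A) x (mem_augIdeal.mp hxI)
    (invDeriv (ℓ ()) (hℓ ())) ?_ N ?_
  · rw [counitAlgHom_apply, counit_invDeriv]
    exact hℓ1 ()
  · have h1 : x ^ N ∈ (augIdeal k A) ^ N := Ideal.pow_mem_pow hxI N
    rw [← hstab] at h1
    exact Ideal.pow_le_pow_right (by omega) h1

end cartier

section points

variable {K A : Type*} [Field K] [CharZero K] [IsAlgClosed K] [CommRing A] [HopfAlgebra K A]
  [FiniteDimensional K A]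

omit [CharZero K] in
/-- Every maximal ideal of a finite-dimensional algebra over an algebraically closed field is the
kernel of a point. -/
theorem exists_point_of_isMaximal (𝔪 : Ideal A) [h𝔪 : 𝔪.IsMaximal] :
    ∃ g : A →ₐ[K] K, RingHom.ker g = 𝔪 := by
  let : Field (A ⧸ 𝔪) := Ideal.Quotient.field 𝔪
  have hbij : Function.Bijective (algebraMap K (A ⧸ 𝔪)) :=
    IsAlgClosed.algebraMap_bijective_of_isIntegral
  let E : K ≃ₐ[K] (A ⧸ 𝔪) := AlgEquiv.ofBijective (Algebra.ofId K (A ⧸ 𝔪)) hbij
  refine ⟨(E.symm : (A ⧸ 𝔪) →ₐ[K] K).comp (Ideal.Quotient.mkₐ K 𝔪), ?_⟩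
  ext a
  rw [RingHom.mem_ker, AlgHom.comp_apply]
  constructor
  · intro h
    have h1 : (Ideal.Quotient.mkₐ K 𝔪) a = 0 := by
      have := congrArg E h
      simpa using this
    exact Ideal.Quotient.eq_zero_iff_mem.mp h1
  · intro h
    have h1 : (Ideal.Quotient.mkₐ K 𝔪) a = 0 := Ideal.Quotient.eq_zero_iff_mem.mpr h
    rw [h1, map_zero]

/-- Points separate the elements of a finite commutative Hopf algebra over an algebraically
closed field of characteristic zero. -/
theorem eq_zero_of_forall_point (a : A) (h : ∀ g : A →ₐ[K] K, g a = 0) : a = 0 := by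
  by_contra ha
  have hann : (Ideal.span {a}).annihilator ≠ ⊤ := by
    intro htop
    have : (1 : A) ∈ (Ideal.span {a}).annihilator := htop ▸ Submodule.mem_top
    rw [Submodule.mem_annihilator_span_singleton, smul_eq_mul, one_mul] at this
    exact ha this
  obtain ⟨𝔪, h𝔪, hle⟩ := Ideal.exists_le_maximal _ hann
  obtain ⟨g, hg⟩ := exists_point_of_isMaximal (K := K) 𝔪
  have hsq : 𝔪 ^ 2 = 𝔪 := by
    rw [← hg, ker_pow_eq_comap_translEquiv, augIdeal_sq_eq, ← ker_eq_comap_translEquiv]
  have hnoeth : IsNoetherianRing A := IsNoetherianRing.of_finite K A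
  have hidem : IsIdempotentElem 𝔪 := by
    change 𝔪 * 𝔪 = 𝔪
    rw [← pow_two, hsq]
  obtain ⟨e, he, h𝔪e⟩ :=
    (Ideal.isIdempotentElem_iff_of_fg 𝔪 (IsNoetherian.noetherian 𝔪)).mp hidem
  have ha𝔪 : a ∈ 𝔪 := by rw [← hg, RingHom.mem_ker]; exact h g
  rw [h𝔪e, Ideal.mem_span_singleton] at ha𝔪
  obtain ⟨c, rfl⟩ := ha𝔪
  have h1 : (1 - e) ∈ (Ideal.span {e * c}).annihilator := by
    rw [Submodule.mem_annihilator_span_singleton, smul_eq_mul, ← mul_assoc, sub_mul, one_mul,
      he.eq, sub_self, zero_mul]
  have h2 : (1 - e) ∈ 𝔪 := hle h1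
  have h3 : e ∈ 𝔪 := by rw [h𝔪e]; exact Ideal.mem_span_singleton_self e
  have h4 : (1 : A) ∈ 𝔪 := by
    have := Ideal.add_mem _ h2 h3
    simpa using this
  exact h𝔪.ne_top ((Ideal.eq_top_iff_one 𝔪).mpr h4)

end points

section killed

variable {R A C : Type*} [CommRing R] [CommRing A] [HopfAlgebra R A] [CommRing C] [Algebra R C]

/-- Composition with an algebra map turns `[n]^*` into the `n`-th convolution power. -/
theorem comp_convId (g : A →ₐ[R] C) (n : ℕ) :
    toConv (g.comp (convId R A n).ofConv) = (toConv g) ^ n := by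
  induction n with
  | zero =>
    rw [pow_zero]
    apply WithConv.ofConv_injective
    ext a
    simp [convId, AlgHom.convOne_apply]
  | succ n ih =>
    have h1 : convId R A (n + 1) = convId R A n * toConv (AlgHom.id R A) := by
      unfold convId
      rw [pow_succ]
    rw [h1, pow_succ, ← ih]
    have := AlgHom.comp_convMul_distrib g (convId R A n) (toConv (AlgHom.id R A))
    exact congrArg toConv this

theorem apply_convId (g : A →ₐ[R] C) (n : ℕ) (a : A) :
    g ((convId R A n).ofConv a) = ((toConv g) ^ n).ofConv a := by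
  rw [← comp_convId]
  rfl

end killed

section killedPoints

variable {K A : Type*} [Field K] [CharZero K] [IsAlgClosed K] [CommRing A] [HopfAlgebra K A]
  [FiniteDimensional K A]

/-- If all points are killed by `n` then `[n]^* = η ∘ ε`. -/
theorem isKilledBy_of_forall_point (n : ℕ) (h : ∀ g : A →ₐ[K] K, (toConv g) ^ n = 1) :
    IsKilledBy K A n := by
  unfold IsKilledBy
  apply WithConv.ofConv_injective
  ext a
  rw [← sub_eq_zero]
  apply eq_zero_of_forall_point (K := K)
  intro g
  rw [map_sub, apply_convId, h g, AlgHom.convOne_apply, AlgHom.convOne_apply, sub_eq_zero,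
    AlgHom.commutes]

end killedPoints

section descent

variable {R K H : Type*} [CommRing R] [Field K] [CharZero K] [IsAlgClosed K] [Algebra R K]
  [CommRing H] [HopfAlgebra R H] [Module.Finite R H] [Module.Flat R H]

omit [CharZero K] [IsAlgClosed K] [Module.Finite R H] in
theorem includeRight_injective_of_flat (hinj : Function.Injective (algebraMap R K)) :
    Function.Injective (Algebra.TensorProduct.includeRight : H →ₐ[R] K ⊗[R] H) := by
  have h1 : Function.Injective (LinearMap.rTensor H (Algebra.linearMap R K)) :=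
    Module.Flat.rTensor_preserves_injective_linearMap _ hinj
  have h2 : (Algebra.TensorProduct.includeRight : H →ₐ[R] K ⊗[R] H) =
      (LinearMap.rTensor H (Algebra.linearMap R K)) ∘ (TensorProduct.lid R H).symm := by
    funext h
    simp
  rw [h2]
  exact h1.comp (TensorProduct.lid R H).symm.injective

/-- **Descent of `[n] = 0` from geometric points.**  Let `H` be a finite flat commutative Hopf
algebra over a subring `R` of an algebraically closed field `K` of characteristic zero.  If every
`K`-point of `H` is killed by `n`, then `[n]^* = η ∘ ε` on `H`. -/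
theorem isKilledBy_of_points (hinj : Function.Injective (algebraMap R K)) (n : ℕ)
    (h : ∀ x : H →ₐ[R] K, (toConv x) ^ n = 1) : IsKilledBy R H n := by
  unfold IsKilledBy
  apply WithConv.ofConv_injective
  ext a
  apply includeRight_injective_of_flat (K := K) hinj
  rw [← sub_eq_zero, ← map_sub]
  apply eq_zero_of_forall_point (K := K)
  intro y
  let x : H →ₐ[R] K := (y.restrictScalars R).comp Algebra.TensorProduct.includeRight
  change x _ = 0
  rw [map_sub, apply_convId, h x, AlgHom.convOne_apply, AlgHom.convOne_apply, sub_eq_zero,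
    AlgHom.commutes]

end descent

end Fermat.Agent.S56lib.Hopf
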