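import Fermat.Agent.S56lib.Hopf.Aug

/-!
# Hopf subalgebras of a flat commutative Hopf algebra over a ring

A subalgebra `B ⊆ A` stable under comultiplication and antipode inherits a Hopf algebra
structure, provided `A` and `B` are flat (so that `B ⊗ B → A ⊗ A` is injective).
-/

open TensorProduct Coalgebra Bialgebra

namespace Fermat.Agent.S56lib.Hopf

variable {R A : Type*} [CommRing R] [CommRing A] [HopfAlgebra R A]

/-- A subalgebra stable under comultiplication and antipode. -/
structure IsHopfSubR (B : Subalgebra R A) : Prop where
  comul_mem : ∀ b ∈ B, comul (R := R) b ∈ (Algebra.TensorProduct.map B.val B.val).range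
  antipode_mem : ∀ b ∈ B, HopfAlgebra.antipode R b ∈ B

namespace IsHopfSubR

set_option linter.unusedSectionVars false
set_option linter.style.haveILetI false

variable [Module.Flat R A]

/-- `B ⊗ B → A ⊗ A`. -/
noncomputable abbrev incl₂ (B : Subalgebra R A) : ↥B ⊗[R] ↥B →ₐ[R] A ⊗[R] A :=
  Algebra.TensorProduct.map B.val B.val

theorem incl₂_injective (B : Subalgebra R A) [Module.Flat R ↥B] : Function.Injective (incl₂ B) := by
  have : (incl₂ B : ↥B ⊗[R] ↥B → A ⊗[R] A) =
      TensorProduct.map B.val.toLinearMap B.val.toLinearMap := by
    ext x; rfl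
  rw [this]
  exact TensorProduct.map_injective_of_flat_flat _ _ Subtype.val_injective Subtype.val_injective

/-- `B ⊗ B ⊗ B → A ⊗ A ⊗ A`. -/
noncomputable abbrev incl₃ (B : Subalgebra R A) : ↥B ⊗[R] (↥B ⊗[R] ↥B) →ₐ[R] A ⊗[R] (A ⊗[R] A) :=
  Algebra.TensorProduct.map B.val (incl₂ B)

theorem incl₃_injective (B : Subalgebra R A) [Module.Flat R ↥B] : Function.Injective (incl₃ B) := by
  have : (incl₃ B : ↥B ⊗[R] (↥B ⊗[R] ↥B) → A ⊗[R] (A ⊗[R] A)) =
      TensorProduct.map B.val.toLinearMap (incl₂ B).toLinearMap := by
    ext x; rfl
  rw [this]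
  exact TensorProduct.map_injective_of_flat_flat _ _ Subtype.val_injective (incl₂_injective B)

variable {B : Subalgebra R A} [Module.Flat R ↥B]

/-- The comultiplication of a Hopf subalgebra. -/
noncomputable def comulHom (hB : IsHopfSubR B) : ↥B →ₐ[R] ↥B ⊗[R] ↥B :=
  ((AlgEquiv.ofInjective (incl₂ B) (incl₂_injective B)).symm : _ →ₐ[R] _).comp
    (((comulAlgHom R A).comp B.val).codRestrict (incl₂ B).range fun b => hB.comul_mem b b.2)

theorem incl₂_comulHom (hB : IsHopfSubR B) (b : ↥B) :
    incl₂ B (hB.comulHom b) = comul (R := R) (b : A) := by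
  unfold comulHom
  rw [AlgHom.comp_apply]
  change incl₂ B ((AlgEquiv.ofInjective (incl₂ B) (incl₂_injective B)).symm _) = _
  have := (AlgEquiv.ofInjective (incl₂ B) (incl₂_injective B)).apply_symm_apply
    ((((comulAlgHom R A).comp B.val).codRestrict (incl₂ B).range
      fun b => hB.comul_mem b b.2) b)
  have h2 := congrArg Subtype.val this
  rw [AlgEquiv.ofInjective_apply] at h2
  exact h2

/-- The counit of a Hopf subalgebra. -/
noncomputable def counitHom (B : Subalgebra R A) : ↥B →ₐ[R] R := (counitAlgHom R A).comp B.val


theorem incl₃_assoc_map_comulHom (hB : IsHopfSubR B) (t : ↥B ⊗[R] ↥B) :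
    incl₃ B (Algebra.TensorProduct.assoc R R R ↥B ↥B ↥B
      (Algebra.TensorProduct.map hB.comulHom (AlgHom.id R ↥B) t)) =
    Algebra.TensorProduct.assoc R R R A A A
      (Algebra.TensorProduct.map (comulAlgHom R A) (AlgHom.id R A) (incl₂ B t)) := by
  have key : ∀ (s : ↥B ⊗[R] ↥B) (c : ↥B),
      incl₃ B (Algebra.TensorProduct.assoc R R R ↥B ↥B ↥B (s ⊗ₜ[R] c)) =
      Algebra.TensorProduct.assoc R R R A A A (incl₂ B s ⊗ₜ[R] (c : A)) := by
    intro s c
    induction s using TensorProduct.induction_on with
    | zero => simp
    | tmul u v => simp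
    | add x y hx hy => simp only [TensorProduct.add_tmul, map_add, hx, hy]
  induction t using TensorProduct.induction_on with
  | zero => simp
  | tmul b c =>
    simp only [Algebra.TensorProduct.map_tmul, AlgHom.coe_id, id_eq]
    rw [key, incl₂_comulHom]
    rfl
  | add x y hx hy => simp only [map_add, hx, hy]

theorem incl₃_map_comulHom (hB : IsHopfSubR B) (t : ↥B ⊗[R] ↥B) :
    incl₃ B (Algebra.TensorProduct.map (AlgHom.id R ↥B) hB.comulHom t) =
      Algebra.TensorProduct.map (AlgHom.id R A) (comulAlgHom R A) (incl₂ B t) := by
  induction t using TensorProduct.induction_on with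
  | zero => simp
  | tmul b c =>
    simp only [Algebra.TensorProduct.map_tmul, AlgHom.coe_id, id_eq]
    rw [incl₂_comulHom]
    rfl
  | add x y hx hy => simp only [map_add, hx, hy]

/-- The bialgebra structure on a Hopf subalgebra. -/
@[reducible] noncomputable def bialgebra (hB : IsHopfSubR B) : Bialgebra R ↥B :=
  Bialgebra.ofAlgHom hB.comulHom (counitHom B)
    (by
      apply AlgHom.ext
      intro b
      apply incl₃_injective B
      have e1 := incl₃_assoc_map_comulHom hB (hB.comulHom b)
      have e2 := incl₃_map_comulHom hB (hB.comulHom b)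
      rw [incl₂_comulHom] at e1 e2
      refine e1.trans (Eq.trans ?_ e2.symm)
      exact Coalgebra.coassoc_apply (R := R) (b : A))
    (by
      apply AlgHom.ext
      intro b
      have hinj : Function.Injective
          (Algebra.TensorProduct.map (AlgHom.id R R) B.val : R ⊗[R] ↥B →ₐ[R] R ⊗[R] A) := by
        have : (Algebra.TensorProduct.map (AlgHom.id R R) B.val : R ⊗[R] ↥B → R ⊗[R] A) =
            TensorProduct.map (LinearMap.id : R →ₗ[R] R) B.val.toLinearMap := by
          ext x; rfl
        rw [this]
        exact TensorProduct.map_injective_of_flat_flat _ _ Function.injective_id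
          Subtype.val_injective
      apply hinj
      have h1 : ∀ t : ↥B ⊗[R] ↥B,
          Algebra.TensorProduct.map (AlgHom.id R R) B.val
            (Algebra.TensorProduct.map (counitHom B) (AlgHom.id R ↥B) t) =
          Algebra.TensorProduct.map (counitAlgHom R A) (AlgHom.id R A) (incl₂ B t) := by
        intro t
        induction t using TensorProduct.induction_on with
        | zero => simp
        | tmul u v => simp [counitHom]
        | add x y hx hy => simp only [map_add, hx, hy]
      rw [AlgHom.comp_apply, h1, incl₂_comulHom]
      have := Coalgebra.rTensor_counit_comul (R := R) (b : A)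
      exact this.trans rfl)
    (by
      apply AlgHom.ext
      intro b
      have hinj : Function.Injective
          (Algebra.TensorProduct.map B.val (AlgHom.id R R) : ↥B ⊗[R] R →ₐ[R] A ⊗[R] R) := by
        have : (Algebra.TensorProduct.map B.val (AlgHom.id R R) : ↥B ⊗[R] R → A ⊗[R] R) =
            TensorProduct.map B.val.toLinearMap (LinearMap.id : R →ₗ[R] R) := by
          ext x; rfl
        rw [this]
        exact TensorProduct.map_injective_of_flat_flat _ _ Subtype.val_injective
          Function.injective_id
      apply hinj
      have h1 : ∀ t : ↥B ⊗[R] ↥B,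
          Algebra.TensorProduct.map B.val (AlgHom.id R R)
            (Algebra.TensorProduct.map (AlgHom.id R ↥B) (counitHom B) t) =
          Algebra.TensorProduct.map (AlgHom.id R A) (counitAlgHom R A) (incl₂ B t) := by
        intro t
        induction t using TensorProduct.induction_on with
        | zero => simp
        | tmul u v => simp [counitHom]
        | add x y hx hy => simp only [map_add, hx, hy]
      rw [AlgHom.comp_apply, h1, incl₂_comulHom]
      have := Coalgebra.lTensor_counit_comul (R := R) (b : A)
      exact this.trans rfl)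


theorem comul_eq (hB : IsHopfSubR B) (b : ↥B) :
    letI := hB.bialgebra
    incl₂ B (comul (R := R) b) = comul (R := R) (b : A) := incl₂_comulHom hB b

theorem counit_eq (hB : IsHopfSubR B) (b : ↥B) :
    letI := hB.bialgebra
    counit (R := R) b = counit (R := R) (b : A) := rfl

/-- The antipode of a Hopf subalgebra. -/
noncomputable def antipodeMap (hB : IsHopfSubR B) : ↥B →ₗ[R] ↥B where
  toFun b := ⟨HopfAlgebra.antipode R (b : A), hB.antipode_mem b b.2⟩
  map_add' x y := Subtype.ext (by simp)
  map_smul' c x := Subtype.ext (by simp)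

@[simp] theorem coe_antipodeMap (hB : IsHopfSubR B) (b : ↥B) :
    (hB.antipodeMap b : A) = HopfAlgebra.antipode R (b : A) := rfl

/-- The Hopf algebra structure on a Hopf subalgebra. -/
@[reducible] noncomputable def hopfAlgebra (hB : IsHopfSubR B) : HopfAlgebra R ↥B :=
  letI := hB.bialgebra
  { antipode := hB.antipodeMap
    mul_antipode_rTensor_comul := by
      apply LinearMap.ext
      intro b
      apply Subtype.val_injective
      have h1 : ∀ t : ↥B ⊗[R] ↥B,
          ((LinearMap.mul' R ↥B (hB.antipodeMap.rTensor ↥B t) : ↥B) : A) =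
          LinearMap.mul' R A ((HopfAlgebra.antipode R (A := A)).rTensor A (incl₂ B t)) := by
        intro t
        induction t using TensorProduct.induction_on with
        | zero => simp
        | tmul u v => simp
        | add x y hx hy =>
          simp only [map_add, Subalgebra.coe_add, hx, hy]
      have h2 := HopfAlgebra.mul_antipode_rTensor_comul_apply (R := R) (b : A)
      simp only [LinearMap.coe_comp, Function.comp_apply, Algebra.linearMap_apply]
      rw [h1]
      exact (congrArg _ (congrArg _ (hB.comul_eq b))).trans h2
    mul_antipode_lTensor_comul := by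
      apply LinearMap.ext
      intro b
      apply Subtype.val_injective
      have h1 : ∀ t : ↥B ⊗[R] ↥B,
          ((LinearMap.mul' R ↥B (hB.antipodeMap.lTensor ↥B t) : ↥B) : A) =
          LinearMap.mul' R A ((HopfAlgebra.antipode R (A := A)).lTensor A (incl₂ B t)) := by
        intro t
        induction t using TensorProduct.induction_on with
        | zero => simp
        | tmul u v => simp
        | add x y hx hy =>
          simp only [map_add, Subalgebra.coe_add, hx, hy]
      have h2 := HopfAlgebra.mul_antipode_lTensor_comul_apply (R := R) (b : A)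
      simp only [LinearMap.coe_comp, Function.comp_apply, Algebra.linearMap_apply]
      rw [h1]
      exact (congrArg _ (congrArg _ (hB.comul_eq b))).trans h2 }

/-- A Hopf subalgebra of a cocommutative Hopf algebra is cocommutative. -/
theorem isCocomm (hB : IsHopfSubR B) [Coalgebra.IsCocomm R A] :
    letI := hB.bialgebra
    Coalgebra.IsCocomm R ↥B := by
  letI := hB.bialgebra
  refine ⟨?_⟩
  apply LinearMap.ext
  intro b
  apply incl₂_injective B
  have key : ∀ t : ↥B ⊗[R] ↥B, incl₂ B (TensorProduct.comm R ↥B ↥B t) =
      TensorProduct.comm R A A (incl₂ B t) := by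
    intro t
    induction t using TensorProduct.induction_on with
    | zero => simp
    | tmul u v => simp
    | add s t hs ht => simp only [map_add, hs, ht]
  change incl₂ B (TensorProduct.comm R ↥B ↥B (comul (R := R) b)) = incl₂ B (comul (R := R) b)
  rw [key, hB.comul_eq, Coalgebra.comm_comul]

section restrict

open WithConv

variable {C : Type*} [CommRing C] [Algebra R C]

theorem res_one (hB : IsHopfSubR B) :
    letI := hB.bialgebra
    toConv ((1 : WithConv (A →ₐ[R] C)).ofConv.comp B.val) = (1 : WithConv (↥B →ₐ[R] C)) := by
  letI := hB.bialgebra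
  rfl

theorem res_mul (hB : IsHopfSubR B) (x y : WithConv (A →ₐ[R] C)) :
    letI := hB.bialgebra
    toConv ((x * y).ofConv.comp B.val) =
      toConv (x.ofConv.comp B.val) * toConv (y.ofConv.comp B.val) := by
  letI := hB.bialgebra
  apply WithConv.ofConv_injective
  ext b
  change (Algebra.TensorProduct.lmul' R) (Algebra.TensorProduct.map x.ofConv y.ofConv
      (comul (R := R) (b : A))) =
    (Algebra.TensorProduct.lmul' R) (Algebra.TensorProduct.map (x.ofConv.comp B.val)
      (y.ofConv.comp B.val) (comul (R := R) b))
  rw [← hB.comul_eq b]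
  generalize comul (R := R) b = t
  induction t using TensorProduct.induction_on with
  | zero => simp
  | tmul u v => simp
  | add s t hs ht => simp only [map_add, hs, ht]

/-- Restriction of points to a Hopf subalgebra, as a monoid homomorphism. -/
noncomputable def resHom (hB : IsHopfSubR B) :
    letI := hB.bialgebra
    WithConv (A →ₐ[R] C) →* WithConv (↥B →ₐ[R] C) :=
  letI := hB.bialgebra
  { toFun := fun x => toConv (x.ofConv.comp B.val)
    map_one' := res_one hB
    map_mul' := res_mul hB }

theorem resHom_apply (hB : IsHopfSubR B) (x : WithConv (A →ₐ[R] C)) (b : ↥B) :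
    letI := hB.bialgebra
    (resHom hB x).ofConv b = x.ofConv (b : A) := rfl

end restrict

end IsHopfSubR

end Fermat.Agent.S56lib.Hopf
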