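import Mathlib
import Fermat.Agent.S56lib.Hopf.GalPts
import Fermat.Agent.S56lib.Hopf.HopfSubR
import Fermat.Agent.S56lib.Hopf.Components
import Fermat.Agent.S56lib.Hopf.Cartier

/-!
# The Hopf algebra of a quotient by a finite subgroup of points

`H` is a finite free commutative cocommutative Hopf algebra over a principal ideal domain `W`,
`K = Frac W`, `Ω / K` Galois.  For Galois-stable submonoids `F1 ≤ F3` of the group of points
`H → Ω`, with `F3` dense, the subalgebra `invSub F1 F3` of functions invariant under translation by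
`F1` is a Hopf subalgebra; it is the Hopf algebra of the quotient `F3 / F1`.
-/

open TensorProduct Coalgebra Bialgebra WithConv Module

noncomputable section

namespace Fermat.Agent.S56lib.Hopf

section retraction

variable {W M : Type*} [CommRing W] [IsDomain W] [IsPrincipalIdealRing W] [AddCommGroup M]
  [Module W M] [Module.Finite W M]

/-- A saturated submodule of a finite module over a PID is a direct summand. -/
theorem exists_retraction_of_saturated (N : Submodule W M)
    (hsat : ∀ (w : W) (m : M), w ≠ 0 → w • m ∈ N → m ∈ N) :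
    ∃ r : M →ₗ[W] N, ∀ n : N, r n = n := by
  have htf : Module.IsTorsionFree W (M ⧸ N) := by
    apply Module.IsTorsionFree.of_smul_eq_zero
    intro w x hx
    obtain ⟨m, rfl⟩ := N.mkQ_surjective x
    by_cases hw : w = 0
    · exact Or.inl hw
    · right
      rw [← map_smul, Submodule.mkQ_apply, Submodule.Quotient.mk_eq_zero] at hx
      rw [Submodule.mkQ_apply, Submodule.Quotient.mk_eq_zero]
      exact hsat w m hw hx
  have hfree : Module.Free W (M ⧸ N) := Module.free_of_finite_type_torsion_free'
  obtain ⟨s, hs⟩ := Module.projective_lifting_property N.mkQ LinearMap.id N.mkQ_surjective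
  have hmem : ∀ m : M, (LinearMap.id - s ∘ₗ N.mkQ : M →ₗ[W] M) m ∈ N := by
    intro m
    rw [← Submodule.Quotient.mk_eq_zero, ← Submodule.mkQ_apply, LinearMap.sub_apply, map_sub]
    have := LinearMap.congr_fun hs (N.mkQ m)
    simp only [LinearMap.coe_comp, Function.comp_apply, LinearMap.id_coe, id_eq] at this
    rw [LinearMap.id_apply, LinearMap.comp_apply, this, sub_self]
  refine ⟨LinearMap.codRestrict N (LinearMap.id - s ∘ₗ N.mkQ) hmem, fun n => ?_⟩
  apply Subtype.ext
  rw [LinearMap.codRestrict_apply]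
  have h0 : N.mkQ (n : M) = 0 := by
    rw [Submodule.mkQ_apply, Submodule.Quotient.mk_eq_zero]
    exact n.2
  simp [h0]

end retraction

section mulEv

variable {W Ω : Type*} [CommRing W] [CommRing Ω] [Algebra W Ω]
  {H : Type*} [CommRing H] [Algebra W H]

/-- `a ⊗ b ↦ x a * y b`. -/
def mulEv (x y : H →ₐ[W] Ω) : H ⊗[W] H →ₐ[W] Ω :=
  (Algebra.TensorProduct.lmul' W).comp (Algebra.TensorProduct.map x y)

@[simp] theorem mulEv_tmul (x y : H →ₐ[W] Ω) (a b : H) : mulEv x y (a ⊗ₜ[W] b) = x a * y b := by
  simp [mulEv]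

variable {A : Type*} [Fintype A] [DecidableEq A] (q : Basis A W H)

theorem mulEv_eq_sum_right (x y : H →ₐ[W] Ω) (z : H ⊗[W] H) :
    mulEv x y z = ∑ a, x (TensorProduct.equivFinsuppOfBasisRight q z a) * y (q a) := by
  classical
  induction z using TensorProduct.induction_on with
  | zero => simp
  | tmul m n =>
    rw [mulEv_tmul]
    have h1 : ∀ a, x (TensorProduct.equivFinsuppOfBasisRight q (m ⊗ₜ[W] n) a) * y (q a) =
        x m * (algebraMap W Ω (q.repr n a) * y (q a)) := by
      intro a
      rw [TensorProduct.equivFinsuppOfBasisRight_apply_tmul_apply, map_smul, Algebra.smul_def]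
      ring
    rw [Finset.sum_congr rfl (fun a _ => h1 a), ← Finset.mul_sum]
    congr 1
    conv_lhs => rw [← q.sum_repr n]
    rw [map_sum]
    apply Finset.sum_congr rfl
    intro a _
    rw [map_smul, Algebra.smul_def]
  | add z z' hz hz' =>
    rw [map_add, hz, hz', ← Finset.sum_add_distrib]
    apply Finset.sum_congr rfl
    intro a _
    rw [map_add, Finsupp.add_apply, map_add, add_mul]

theorem mulEv_eq_sum_left (x y : H →ₐ[W] Ω) (z : H ⊗[W] H) :
    mulEv x y z = ∑ a, x (q a) * y (TensorProduct.equivFinsuppOfBasisLeft q z a) := by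
  classical
  induction z using TensorProduct.induction_on with
  | zero => simp
  | tmul m n =>
    rw [mulEv_tmul]
    have h1 : ∀ a, x (q a) * y (TensorProduct.equivFinsuppOfBasisLeft q (m ⊗ₜ[W] n) a) =
        (algebraMap W Ω (q.repr m a) * x (q a)) * y n := by
      intro a
      rw [TensorProduct.equivFinsuppOfBasisLeft_apply_tmul_apply, map_smul, Algebra.smul_def]
      ring
    rw [Finset.sum_congr rfl (fun a _ => h1 a), ← Finset.sum_mul]
    congr 1
    conv_lhs => rw [← q.sum_repr m]
    rw [map_sum]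
    apply Finset.sum_congr rfl
    intro a _
    rw [map_smul, Algebra.smul_def]
  | add z z' hz hz' =>
    rw [map_add, hz, hz', ← Finset.sum_add_distrib]
    apply Finset.sum_congr rfl
    intro a _
    rw [map_add, Finsupp.add_apply, map_add, mul_add]

theorem eq_sum_tmul_basis_right (z : H ⊗[W] H) :
    z = ∑ a, (TensorProduct.equivFinsuppOfBasisRight q z a) ⊗ₜ[W] q a := by
  classical
  conv_lhs => rw [← (TensorProduct.equivFinsuppOfBasisRight q).symm_apply_apply z]
  rw [TensorProduct.equivFinsuppOfBasisRight_symm_apply, Finsupp.sum_fintype]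
  · simp

theorem eq_sum_tmul_basis_left (z : H ⊗[W] H) :
    z = ∑ a, q a ⊗ₜ[W] (TensorProduct.equivFinsuppOfBasisLeft q z a) := by
  classical
  conv_lhs => rw [← (TensorProduct.equivFinsuppOfBasisLeft q).symm_apply_apply z]
  rw [TensorProduct.equivFinsuppOfBasisLeft_symm_apply, Finsupp.sum_fintype]
  · simp

end mulEv

section inj

theorem algebraMap_injective_of_fraction (W K Ω : Type*) [CommRing W] [Field K] [Field Ω]
    [Algebra W K] [Algebra K Ω] [Algebra W Ω] [IsScalarTower W K Ω] [IsFractionRing W K] :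
    Function.Injective (algebraMap W Ω) := by
  rw [IsScalarTower.algebraMap_eq W K Ω]
  exact (algebraMap K Ω).injective.comp (IsFractionRing.injective W K)

end inj

section invar

set_option linter.unusedSectionVars false

variable {W K Ω : Type*} [CommRing W] [IsDomain W] [IsPrincipalIdealRing W] [Field K] [Field Ω]
  [Algebra W K] [Algebra K Ω] [Algebra W Ω] [IsScalarTower W K Ω] [IsFractionRing W K]
  [IsGalois K Ω]
  {H : Type*} [CommRing H] [HopfAlgebra W H] [Module.Finite W H] [Module.Free W H]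
  [Coalgebra.IsCocomm W H]

/-- The subalgebra of functions invariant under translation by `F1`, tested on `F3`. -/
def invSub (F1 F3 : Submonoid (WithConv (H →ₐ[W] Ω))) : Subalgebra W H where
  carrier := {h | ∀ x ∈ F3, ∀ u ∈ F1, (x * u).ofConv h = x.ofConv h}
  mul_mem' := fun {a b} ha hb x hx u hu => by rw [map_mul, map_mul, ha x hx u hu, hb x hx u hu]
  add_mem' := fun {a b} ha hb x hx u hu => by rw [map_add, map_add, ha x hx u hu, hb x hx u hu]
  algebraMap_mem' := fun w x _ u _ => by rw [AlgHom.commutes, AlgHom.commutes]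

theorem mem_invSub {F1 F3 : Submonoid (WithConv (H →ₐ[W] Ω))} {h : H} :
    h ∈ invSub F1 F3 ↔ ∀ x ∈ F3, ∀ u ∈ F1, (x * u).ofConv h = x.ofConv h := Iff.rfl

theorem convMul_ofConv_apply (x y : WithConv (H →ₐ[W] Ω)) (h : H) :
    (x * y).ofConv h = mulEv x.ofConv y.ofConv (comul (R := W) h) := rfl

variable (K) in
/-- Hypotheses on a pair of Galois-stable submonoids `F1 ≤ F3` of points, with `F3` dense and
killed by `p`. -/
structure InvData (p : ℕ) (F1 F3 : Submonoid (WithConv (H →ₐ[W] Ω))) : Prop where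
  le : F1 ≤ F3
  stable1 : ∀ σ : Ω ≃ₐ[K] Ω, ∀ x ∈ F1, galConv σ x ∈ F1
  stable3 : ∀ σ : Ω ≃ₐ[K] Ω, ∀ x ∈ F3, galConv σ x ∈ F3
  dense : ∀ h : H, (∀ x ∈ F3, x.ofConv h = 0) → h = 0
  kill : ∀ x ∈ F3, x ^ p = 1
  pos : 0 < p

omit [IsDomain W] [IsPrincipalIdealRing W] [Module.Finite W H] [Module.Free W H]
  [Coalgebra.IsCocomm W H] in
/-- The inverse of a point killed by `p` is its `(p-1)`-st power. -/
theorem ofConv_antipode_eq {p : ℕ} (hp : 0 < p) (y : WithConv (H →ₐ[W] Ω)) (hy : y ^ p = 1)
    (h : H) : y.ofConv (HopfAlgebra.antipode W h) = (y ^ (p - 1)).ofConv h := by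
  have h1 := comp_antipode_convMul' (R := W) y.ofConv
  have h2 : toConv (y.ofConv.comp (HopfAlgebra.antipodeAlgHom W H)) = y ^ (p - 1) := by
    have e : y ^ p = y * y ^ (p - 1) := by
      rw [← pow_succ', Nat.sub_add_cancel hp]
    calc toConv (y.ofConv.comp (HopfAlgebra.antipodeAlgHom W H))
        = toConv (y.ofConv.comp (HopfAlgebra.antipodeAlgHom W H)) * y ^ p := by
          rw [hy, mul_one]
      _ = (toConv (y.ofConv.comp (HopfAlgebra.antipodeAlgHom W H)) * toConv y.ofConv) *
            y ^ (p - 1) := by rw [e, mul_assoc]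
      _ = y ^ (p - 1) := by rw [h1, one_mul]
  rw [← h2]
  rfl

variable {p : ℕ} {F1 F3 : Submonoid (WithConv (H →ₐ[W] Ω))}

omit [IsPrincipalIdealRing W] [Module.Finite W H] [Module.Free W H] in
theorem antipode_mem_invSub (hD : InvData K p F1 F3) (h : H) (hh : h ∈ invSub F1 F3) :
    HopfAlgebra.antipode W h ∈ invSub F1 F3 := by
  intro x hx u hu
  have hxu : x * u ∈ F3 := F3.mul_mem hx (hD.le hu)
  rw [ofConv_antipode_eq hD.pos (x * u) (hD.kill _ hxu), ofConv_antipode_eq hD.pos x (hD.kill _ hx),
    mul_pow]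
  exact hh _ (F3.pow_mem hx _) _ (F1.pow_mem hu _)

theorem comul_mem_invSub (hD : InvData K p F1 F3) (h : H) (hh : h ∈ invSub F1 F3) :
    comul (R := W) h ∈
      (Algebra.TensorProduct.map (invSub F1 F3).val (invSub F1 F3).val).range := by
  classical
  set B := invSub F1 F3 with hB
  let q := Module.Free.chooseBasis W H
  let S : Set (H →ₐ[W] Ω) := {x | toConv x ∈ F3}
  have hS : ∀ σ : Ω ≃ₐ[K] Ω, ∀ x ∈ S, galPt σ x ∈ S := fun σ x hx => hD.stable3 σ (toConv x) hx
  have hd : ∀ h : H, (∀ x ∈ S, x h = 0) → h = 0 :=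
    fun h hh => hD.dense h (fun x hx => hh x.ofConv hx)
  set z := comul (R := W) h with hz
  -- right coefficients are invariant
  have hℓ : ∀ a, TensorProduct.equivFinsuppOfBasisRight q z a ∈ B := by
    intro a x hx u hu
    have hc := sep_of_dense (K := K) q S hS hd
      (fun a => (x * u).ofConv (TensorProduct.equivFinsuppOfBasisRight q z a) -
        x.ofConv (TensorProduct.equivFinsuppOfBasisRight q z a)) ?_
    · exact sub_eq_zero.mp (congrFun hc a)
    · intro y hy
      unfold evC
      simp only [sub_mul, Finset.sum_sub_distrib]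
      rw [← mulEv_eq_sum_right q (x * u).ofConv y z, ← mulEv_eq_sum_right q x.ofConv y z]
      change ((x * u) * toConv y).ofConv h - (x * toConv y).ofConv h = 0
      rw [mul_right_comm, hh (x * toConv y) (F3.mul_mem hx hy) u hu, sub_self]
  -- left coefficients are invariant
  have hr : ∀ a, TensorProduct.equivFinsuppOfBasisLeft q z a ∈ B := by
    intro a y hy u hu
    have hc := sep_of_dense (K := K) q S hS hd
      (fun a => (y * u).ofConv (TensorProduct.equivFinsuppOfBasisLeft q z a) -
        y.ofConv (TensorProduct.equivFinsuppOfBasisLeft q z a)) ?_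
    · exact sub_eq_zero.mp (congrFun hc a)
    · intro x hx
      unfold evC
      simp only [sub_mul, Finset.sum_sub_distrib]
      have e1 := mulEv_eq_sum_left q x (y * u).ofConv z
      have e2 := mulEv_eq_sum_left q x y.ofConv z
      simp only [mul_comm (x (q _))] at e1 e2
      rw [← e1, ← e2]
      change (toConv x * (y * u)).ofConv h - (toConv x * y).ofConv h = 0
      rw [← mul_assoc, hh (toConv x * y) (F3.mul_mem hx hy) u hu, sub_self]
  -- the retraction
  have hinj := algebraMap_injective_of_fraction W K Ω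
  have hsat : ∀ (w : W) (m : H), w ≠ 0 → w • m ∈ Subalgebra.toSubmodule B →
      m ∈ Subalgebra.toSubmodule B := by
    intro w m hw hm x hx u hu
    have := hm x hx u hu
    rw [map_smul, map_smul, Algebra.smul_def, Algebra.smul_def] at this
    exact mul_left_cancel₀ (fun h0 => hw (hinj (h0.trans (map_zero _).symm))) this
  obtain ⟨ρ, hρ⟩ := exists_retraction_of_saturated (Subalgebra.toSubmodule B) hsat
  let e : H →ₗ[W] H := (Subalgebra.toSubmodule B).subtype ∘ₗ ρ
  have he : ∀ b ∈ B, e b = b := by
    intro b hb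
    have := hρ ⟨b, hb⟩
    change ((ρ b : Subalgebra.toSubmodule B) : H) = b
    rw [this]
  have heB : ∀ m : H, e m ∈ B := fun m => (ρ m).2
  refine ⟨∑ a, (⟨_, hℓ a⟩ : ↥B) ⊗ₜ[W] (⟨e (q a), heB (q a)⟩ : ↥B), ?_⟩
  change (Algebra.TensorProduct.map B.val B.val) _ = z
  rw [map_sum]
  simp only [Algebra.TensorProduct.map_tmul, Subalgebra.coe_val]
  have h1 : ∑ a, (TensorProduct.equivFinsuppOfBasisRight q z a) ⊗ₜ[W] e (q a) =
      LinearMap.lTensor H e z := by
    conv_rhs => rw [eq_sum_tmul_basis_right q z]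
    rw [map_sum]
    simp only [LinearMap.lTensor_tmul]
  rw [h1]
  conv_lhs => rw [eq_sum_tmul_basis_left q z]
  rw [map_sum]
  simp only [LinearMap.lTensor_tmul]
  conv_rhs => rw [eq_sum_tmul_basis_left q z]
  apply Finset.sum_congr rfl
  intro a _
  rw [he _ (hr a)]

/-- The invariant subalgebra is a Hopf subalgebra. -/
theorem isHopfSubR_invSub (hD : InvData K p F1 F3) : IsHopfSubR (invSub F1 F3) where
  comul_mem := comul_mem_invSub hD
  antipode_mem := antipode_mem_invSub hD

instance finite_invSub : Module.Finite W ↥(invSub F1 F3) :=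
  Module.Finite.of_injective (invSub F1 F3).val.toLinearMap Subtype.val_injective

instance free_invSub : Module.Free W ↥(invSub F1 F3) := by
  have : Module.IsTorsionFree W ↥(invSub F1 F3) :=
    Function.Injective.moduleIsTorsionFree (invSub F1 F3).val Subtype.val_injective
      (fun r m => rfl)
  exact Module.free_of_finite_type_torsion_free'

/-- Points of `F3` which agree on the invariant subalgebra differ by an element of `F1`. -/
theorem exists_mul_of_agree (hD : InvData K p F1 F3) {x y : WithConv (H →ₐ[W] Ω)}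
    (hx : x ∈ F3) (hy : y ∈ F3) (hxy : ∀ b ∈ invSub F1 F3, x.ofConv b = y.ofConv b) :
    ∃ u ∈ F1, x = y * u := by
  classical
  let q := Module.Free.chooseBasis W H
  let S : Set (H →ₐ[W] Ω) := {x | toConv x ∈ F3}
  have hS : ∀ σ : Ω ≃ₐ[K] Ω, ∀ x ∈ S, galPt σ x ∈ S := fun σ x hx => hD.stable3 σ (toConv x) hx
  have hd : ∀ h : H, (∀ x ∈ S, x h = 0) → h = 0 :=
    fun h hh => hD.dense h (fun x hx => hh x.ofConv hx)
  let φ : (H →ₐ[W] Ω) → Ω := fun x' => if ∃ u ∈ F1, toConv x' = y * u then 1 else 0
  obtain ⟨c, hc⟩ := exists_evC_eq (K := K) q S hS hd φ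
  let N : Submodule Ω (Module.Free.ChooseBasisIndex W H → Ω) :=
    { carrier := {c | ∀ x' ∈ F3, ∀ u ∈ F1, evC q c (x' * u).ofConv = evC q c x'.ofConv}
      add_mem' := fun {c c'} h h' x' hx' u hu => by
        rw [evC_add, evC_add, h x' hx' u hu, h' x' hx' u hu]
      zero_mem' := fun x' _ u _ => by simp [evC]
      smul_mem' := fun r c h x' hx' u hu => by rw [evC_smul, evC_smul, h x' hx' u hu] }
  have hN : ∀ σ : Ω ≃ₐ[K] Ω, ∀ t ∈ N, coordAct σ t ∈ N := by
    intro σ t ht x' hx' u hu
    rw [evC_coordAct, evC_coordAct]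
    have e : galPt σ.symm (x' * u).ofConv =
        (galConv σ.symm x' * galConv σ.symm u).ofConv := by
      rw [← map_mul]
      rfl
    rw [e, ht _ (hD.stable3 _ _ hx') _ (hD.stable1 _ _ hu)]
    rfl
  have hφ : ∀ x' ∈ F3, ∀ u ∈ F1, φ (x' * u).ofConv = φ x'.ofConv := by
    intro x' hx' u hu
    have hup : u ^ p = 1 := hD.kill u (hD.le hu)
    have hiff : (∃ u' ∈ F1, toConv (x' * u).ofConv = y * u') ↔
        (∃ u' ∈ F1, toConv x'.ofConv = y * u') := by
      constructor
      · rintro ⟨u', hu', h1⟩
        refine ⟨u' * u ^ (p - 1), F1.mul_mem hu' (F1.pow_mem hu _), ?_⟩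
        change x' = _
        have h1' : x' * u = y * u' := h1
        calc x' = x' * u ^ p := by rw [hup, mul_one]
          _ = (x' * u) * u ^ (p - 1) := by
            rw [mul_assoc, ← pow_succ', Nat.sub_add_cancel hD.pos]
          _ = y * (u' * u ^ (p - 1)) := by rw [h1', mul_assoc]
      · rintro ⟨u', hu', h1⟩
        refine ⟨u' * u, F1.mul_mem hu' hu, ?_⟩
        change x' * u = _
        have h1' : x' = y * u' := h1
        rw [h1', mul_assoc]
    change (if _ then (1 : Ω) else 0) = if _ then (1 : Ω) else 0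
    rw [if_congr hiff rfl rfl]
  have hcN : c ∈ N := by
    intro x' hx' u hu
    rw [hc _ (show toConv (x' * u).ofConv ∈ F3 from F3.mul_mem hx' (hD.le hu)), hc _ hx']
    exact hφ x' hx' u hu
  have hspan := mem_span_intVec_of_stable (W := W) N hN c hcN
  have hkey : evC q c x.ofConv = evC q c y.ofConv := by
    refine Submodule.span_induction
      (p := fun t _ => evC q t x.ofConv = evC q t y.ofConv) ?_ ?_ ?_ ?_ hspan
    · rintro s ⟨hsN, w, rfl⟩
      rw [evC_int, evC_int]
      apply hxy
      intro x' hx' u hu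
      have := hsN x' hx' u hu
      rwa [evC_int, evC_int] at this
    · simp [evC]
    · intro s t _ _ hs ht
      rw [evC_add, evC_add, hs, ht]
    · intro r s _ hs
      rw [evC_smul, evC_smul, hs]
  rw [hc _ hx, hc _ hy] at hkey
  have hφy : φ y.ofConv = 1 := if_pos ⟨1, F1.one_mem, by rw [mul_one]⟩
  rw [hφy] at hkey
  by_contra hcon
  have hφx : φ x.ofConv = 0 := if_neg hcon
  rw [hφx] at hkey
  exact zero_ne_one hkey

/-- Elements of `F1` restrict to the trivial point of the invariant subalgebra. -/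
theorem ofConv_eq_counit_of_mem (u : WithConv (H →ₐ[W] Ω)) (hu : u ∈ F1)
    (b : H) (hb : b ∈ invSub F1 F3) : u.ofConv b = algebraMap W Ω (counit (R := W) b) := by
  have h1 := hb 1 F3.one_mem u hu
  rw [one_mul] at h1
  rw [h1]
  rfl

/-- The invariant Hopf subalgebra is killed by `p`. -/
theorem isKilledBy_invSub (hD : InvData K p F1 F3) :
    letI := (isHopfSubR_invSub hD).hopfAlgebra
    IsKilledBy W ↥(invSub F1 F3) p := by
  letI := (isHopfSubR_invSub hD).hopfAlgebra
  unfold IsKilledBy
  apply WithConv.ofConv_injective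
  ext b
  rw [← sub_eq_zero]
  apply hD.dense
  intro x hx
  rw [map_sub, sub_eq_zero]
  have h1 := apply_convId (R := W) (x.ofConv.comp (invSub F1 F3).val) p b
  have h2 : toConv (x.ofConv.comp (invSub F1 F3).val) = (isHopfSubR_invSub hD).resHom x := rfl
  rw [h2, ← map_pow, hD.kill x hx, map_one] at h1
  refine h1.trans ?_
  rw [AlgHom.convOne_apply, AlgHom.convOne_apply]
  exact (AlgHom.commutes _ _).symm

end invar

end Fermat.Agent.S56lib.Hopf

end
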