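import Mathlib
import Fermat.Agent.S56lib.Hopf.Final
import Fermat.Agent.S56lib.Hopf.Invar
import Fermat.Agent.S56lib.Lift.Jac

/-!
# Points reducing to the identity

For a finite commutative Hopf algebra `A` over `W ⊆ Ω` (`Ω` an ultrametric normed field, `W` in the
unit ball), two points `x y : A → Ω` are congruent (`RedEq`) if `‖x a - y a‖ < 1` for all `a`.
This is a congruence on the monoid of points; inertia moves every point inside its class.
If `A` is killed by `p ≠ 2` and `W` is absolutely unramified, a point congruent to `1` whose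
values of norm `< 1` have norm `≤ ‖p‖` is trivial.
-/

open TensorProduct Coalgebra Bialgebra WithConv Module IsLocalRing

noncomputable section

namespace Fermat.Agent.S56lib.Hopf

section redEq

variable {W Ω : Type*} [CommRing W] [NormedField Ω] [IsUltrametricDist Ω] [Algebra W Ω]
  {A : Type*} [CommRing A] [Bialgebra W A] [Module.Finite W A]

/-- Congruence of points modulo the maximal ideal of the unit ball of `Ω`. -/
def RedEq (x y : WithConv (A →ₐ[W] Ω)) : Prop := ∀ a : A, ‖x.ofConv a - y.ofConv a‖ < 1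

omit [IsUltrametricDist Ω] [Module.Finite W A] in
theorem RedEq.refl (x : WithConv (A →ₐ[W] Ω)) : RedEq x x := fun a => by simp

omit [IsUltrametricDist Ω] [Module.Finite W A] in
theorem RedEq.symm {x y : WithConv (A →ₐ[W] Ω)} (h : RedEq x y) : RedEq y x := fun a => by
  rw [← norm_neg, neg_sub]
  exact h a

omit [Module.Finite W A] in
theorem RedEq.trans {x y z : WithConv (A →ₐ[W] Ω)} (h : RedEq x y) (h' : RedEq y z) :
    RedEq x z := fun a => by
  have e : x.ofConv a - z.ofConv a = (x.ofConv a - y.ofConv a) + (y.ofConv a - z.ofConv a) := by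
    ring
  rw [e]
  exact lt_of_le_of_lt (IsUltrametricDist.norm_add_le_max _ _) (max_lt (h a) (h' a))

theorem norm_point_le_one (hW : ∀ w : W, ‖algebraMap W Ω w‖ ≤ 1) (x : A →ₐ[W] Ω) (a : A) :
    ‖x a‖ ≤ 1 :=
  Lift.norm_le_one_of_isIntegral hW _ ((IsIntegral.of_finite W a).map x)

theorem RedEq.mul (hW : ∀ w : W, ‖algebraMap W Ω w‖ ≤ 1) {x x' y y' : WithConv (A →ₐ[W] Ω)}
    (h : RedEq x x') (h' : RedEq y y') : RedEq (x * y) (x' * y') := by
  intro a
  have key : ∀ t : A ⊗[W] A, ‖mulEv x.ofConv y.ofConv t - mulEv x'.ofConv y'.ofConv t‖ < 1 := by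
    intro t
    induction t using TensorProduct.induction_on with
    | zero => simp
    | tmul a b =>
      rw [mulEv_tmul, mulEv_tmul]
      have e : x.ofConv a * y.ofConv b - x'.ofConv a * y'.ofConv b =
          (x.ofConv a - x'.ofConv a) * y.ofConv b + x'.ofConv a * (y.ofConv b - y'.ofConv b) := by
        ring
      rw [e]
      refine lt_of_le_of_lt (IsUltrametricDist.norm_add_le_max _ _) (max_lt ?_ ?_)
      · rw [norm_mul]
        calc ‖x.ofConv a - x'.ofConv a‖ * ‖y.ofConv b‖ ≤ ‖x.ofConv a - x'.ofConv a‖ * 1 :=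
              mul_le_mul_of_nonneg_left (norm_point_le_one hW _ _) (norm_nonneg _)
          _ < 1 := by rw [mul_one]; exact h a
      · rw [norm_mul]
        calc ‖x'.ofConv a‖ * ‖y.ofConv b - y'.ofConv b‖ ≤ 1 * ‖y.ofConv b - y'.ofConv b‖ :=
              mul_le_mul_of_nonneg_right (norm_point_le_one hW _ _) (norm_nonneg _)
          _ < 1 := by rw [one_mul]; exact h' b
    | add s t hs ht =>
      have e : mulEv x.ofConv y.ofConv (s + t) - mulEv x'.ofConv y'.ofConv (s + t) =
          (mulEv x.ofConv y.ofConv s - mulEv x'.ofConv y'.ofConv s) +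
          (mulEv x.ofConv y.ofConv t - mulEv x'.ofConv y'.ofConv t) := by
        rw [map_add, map_add]
        ring
      rw [e]
      exact lt_of_le_of_lt (IsUltrametricDist.norm_add_le_max _ _) (max_lt hs ht)
  exact key (comul (R := W) a)

/-- The points reducing to the identity. -/
def redOne (hW : ∀ w : W, ‖algebraMap W Ω w‖ ≤ 1) : Submonoid (WithConv (A →ₐ[W] Ω)) where
  carrier := {x | RedEq x 1}
  one_mem' := RedEq.refl 1
  mul_mem' := fun {x y} hx hy => by
    have := RedEq.mul hW hx hy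
    rwa [one_mul] at this

theorem mem_redOne (hW : ∀ w : W, ‖algebraMap W Ω w‖ ≤ 1) (x : WithConv (A →ₐ[W] Ω)) :
    x ∈ redOne hW ↔ RedEq x 1 := Iff.rfl

end redEq

section inertia

variable {W K Ω : Type*} [CommRing W] [Field K] [NormedField Ω] [IsUltrametricDist Ω]
  [Algebra W K] [Algebra K Ω] [Algebra W Ω] [IsScalarTower W K Ω]
  {A : Type*} [CommRing A] [Bialgebra W A] [Module.Finite W A]

/-- Inertia moves every point inside its congruence class. -/
theorem redEq_galConv (hW : ∀ w : W, ‖algebraMap W Ω w‖ ≤ 1) (σ : Ω ≃ₐ[K] Ω)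
    (hσ : ∀ c : Ω, ‖c‖ ≤ 1 → ‖σ c - c‖ < 1) (x : WithConv (A →ₐ[W] Ω)) :
    RedEq (galConv σ x) x := fun a => by
  rw [galConv_apply]
  exact hσ _ (norm_point_le_one hW _ _)

end inertia

section zpow

/-- If `0 < π < 1`, a real number `< 1` of the form `π ^ n` (`n : ℤ`) is `≤ π`. -/
theorem le_of_eq_zpow_of_lt_one {π r : ℝ} (h0 : 0 < π) (h1 : π < 1) {n : ℤ} (hr : r = π ^ n)
    (hlt : r < 1) : r ≤ π := by
  rw [hr] at hlt ⊢
  have hn1 : 1 ≤ n := by
    by_contra hcon
    have hn0 : n ≤ 0 := by omega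
    have : (1 : ℝ) ≤ π ^ n := one_le_zpow_of_nonpos₀ h0 h1.le hn0
    linarith
  calc π ^ n ≤ π ^ (1 : ℤ) := zpow_le_zpow_right_of_le_one₀ h0 h1.le hn1
    _ = π := zpow_one _

end zpow

section conn

universe u v

variable (p : ℕ) [hp : Fact p.Prime] {W : Type u} [CommRing W] [IsLocalRing W]
  {Ω : Type*} [NormedField Ω] [IsUltrametricDist Ω] [Algebra W Ω]
  {A : Type v} [CommRing A] [HopfAlgebra W A] [Module.Free W A] [Module.Finite W A]

/-- **No unramified points in the identity component** (`p ≠ 2`, absolutely unramified base): a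
point of a finite free commutative Hopf algebra killed by `p` which reduces to the identity and
whose values of norm `< 1` have norm `≤ ‖p‖` is the identity. -/
theorem eq_one_of_redEq_one (hp2 : p ≠ 2) (hmax : maximalIdeal W = Ideal.span {(p : W)})
    [IsAdicComplete (Ideal.span {(p : W)}) W] [PerfectRing (ResidueField W) p]
    (hW : ∀ w : W, ‖algebraMap W Ω w‖ ≤ 1) (hp0 : 0 < ‖((p : ℕ) : Ω)‖)
    (hp1 : ‖((p : ℕ) : Ω)‖ < 1) (hkill : IsKilledBy W A p)
    (v : WithConv (A →ₐ[W] Ω)) (hv : RedEq v 1)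
    (hfix : ∀ a : A, ‖v.ofConv a‖ < 1 → ‖v.ofConv a‖ ≤ ‖((p : ℕ) : Ω)‖) :
    v = 1 := by
  classical
  let g : A →ₐ[W] ResidueField W := (Algebra.ofId W (ResidueField W)).comp (counitAlgHom W A)
  obtain ⟨f, hf, hgf, m, e, X, he, hXg, hXp, hbij, hΩ⟩ := exists_presentation p hmax hkill g
  set π := ‖((p : ℕ) : Ω)‖ with hπ
  -- elements killed by `g` have counit of norm `≤ π`
  have hcounit : ∀ a : A, g a = 0 → ‖algebraMap W Ω (counit (R := W) a)‖ ≤ π := by
    intro a ha
    have h1 : counit (R := W) a ∈ maximalIdeal W := by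
      rw [← IsLocalRing.residue_eq_zero_iff]
      exact ha
    rw [hmax, Ideal.mem_span_singleton] at h1
    obtain ⟨w, hw⟩ := h1
    rw [hw, map_mul, map_natCast, norm_mul]
    calc π * ‖algebraMap W Ω w‖ ≤ π * 1 := mul_le_mul_of_nonneg_left (hW w) (norm_nonneg _)
      _ = π := mul_one _
  have hone : ∀ a : A, (1 : WithConv (A →ₐ[W] Ω)).ofConv a = algebraMap W Ω (counit (R := W) a) :=
    fun a => rfl
  -- `v` and `1` kill `f`
  have hεf : (1 : WithConv (A →ₐ[W] Ω)).ofConv f = 0 := by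
    have hid : IsIdempotentElem ((1 : WithConv (A →ₐ[W] Ω)).ofConv f) := hf.map _
    rcases IsIdempotentElem.iff_eq_zero_or_one.mp hid with h0 | h1
    · exact h0
    · exfalso
      have := hcounit f hgf
      rw [← hone, h1, norm_one] at this
      linarith
  have hvf : v.ofConv f = 0 := by
    have hid : IsIdempotentElem (v.ofConv f) := hf.map _
    rcases IsIdempotentElem.iff_eq_zero_or_one.mp hid with h0 | h1
    · exact h0
    · exfalso
      have := hv f
      rw [h1, hεf, sub_zero, norm_one] at this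
      exact lt_irrefl _ this
  have hvI : ∀ a ∈ Ideal.span {f}, v.ofConv a = 0 := by
    intro a ha
    obtain ⟨c, rfl⟩ := Ideal.mem_span_singleton'.mp ha
    rw [map_mul, hvf, mul_zero]
  have hεI : ∀ a ∈ Ideal.span {f}, (1 : WithConv (A →ₐ[W] Ω)).ofConv a = 0 := by
    intro a ha
    obtain ⟨c, rfl⟩ := Ideal.mem_span_singleton'.mp ha
    rw [map_mul, hεf, mul_zero]
  let vbar : A ⧸ Ideal.span {f} →ₐ[W] Ω := Ideal.Quotient.liftₐ (Ideal.span {f}) v.ofConv hvI
  let εbar : A ⧸ Ideal.span {f} →ₐ[W] Ω :=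
    Ideal.Quotient.liftₐ (Ideal.span {f}) (1 : WithConv (A →ₐ[W] Ω)).ofConv hεI
  have hvbar : ∀ a : A, vbar (Ideal.Quotient.mk _ a) = v.ofConv a := fun a => rfl
  have hεbar : ∀ a : A, εbar (Ideal.Quotient.mk _ a) =
      (1 : WithConv (A →ₐ[W] Ω)).ofConv a := fun a => rfl
  -- the system
  obtain ⟨h, hh⟩ := Lift.exists_h e X hXp hbij
  let S : Lift.FlatSys W m := ⟨e, he, h⟩
  have hsolv := Lift.isSol_of_algHom S X hp1 hW hh vbar
  have hsolε := Lift.isSol_of_algHom S X hp1 hW hh εbar
  have hdet := Lift.norm_detPoly_zero_of_kaehler S X hp.out hp0 hp1 hW hh hbij hΩ vbar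
  -- norms of the coordinates
  have hz : ∀ i, ‖εbar (X i)‖ ≤ π := by
    intro i
    obtain ⟨a, ha, hga⟩ := hXg i
    rw [← ha, hεbar, hone]
    exact hcounit a hga
  have hz' : ∀ i, ‖vbar (X i)‖ ≤ π := by
    intro i
    obtain ⟨a, ha, hga⟩ := hXg i
    have hlt := hsolv.1 i
    rw [← ha, hvbar] at hlt ⊢
    exact hfix a hlt
  have hzz' : ∀ i, ‖vbar (X i) - εbar (X i)‖ ≤ π := by
    intro i
    rw [sub_eq_add_neg]
    refine (IsUltrametricDist.norm_add_le_max _ _).trans (max_le (hz' i) ?_)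
    rw [norm_neg]
    exact hz i
  have hρp : π ^ (p - 1) < π := by
    have h3 : 3 ≤ p := by
      have := hp.out.two_le
      omega
    calc π ^ (p - 1) ≤ π ^ 2 := pow_le_pow_of_le_one hp0.le hp1.le (by omega)
      _ = π * π := sq π
      _ < π * 1 := mul_lt_mul_of_pos_left hp1 hp0
      _ = π := mul_one π
  have huniq := S.sol_unique p (algebraMap W Ω) hW hp.out hp0 hp1 hdet hp1 hz hp0.le hρp hzz'
    hsolε.2 hsolv.2
  -- conclusion
  have hbareq : vbar = εbar := by
    apply AlgHom.ext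
    intro a'
    obtain ⟨P, hP⟩ := hbij.2 a'
    rw [redEval_apply] at hP
    rw [← hP, ← AlgHom.comp_apply, ← AlgHom.comp_apply, MvPolynomial.comp_aeval,
      MvPolynomial.comp_aeval]
    congr 2
  apply WithConv.ofConv_injective
  apply AlgHom.ext
  intro a
  rw [← hvbar, ← hεbar, hbareq]

end conn

end Fermat.Agent.S56lib.Hopf

end
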