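import Mathlib

/-!
# Splitting an extension of an `ω`-eigenquotient by a fixed subgroup

Pure algebra in a commutative monoid `M` killed by a prime `p`, with operators `act σ` (`σ ∈ I`):
if `U ≤ X` are submonoids, every `σ ∈ I` acts on `X` modulo `U` by the `n σ`-th power, moves
elements of `X` inside their class modulo a submonoid `M0` with `M0 ∩ U = 1`, and some `σ₀ ∈ I` has
`n σ₀ ≢ 1 mod p`, then every class of `X` modulo `U` contains an eigenvector.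
-/

namespace Fermat.Agent.S56lib.Hopf

theorem pow_eq_pow_of_modEq_of_kill {M : Type*} [Monoid M] {p : ℕ} {x : M} (hx : x ^ p = 1)
    {a b : ℕ} (hab : a ≡ b [MOD p]) : x ^ a = x ^ b := by
  rw [pow_eq_pow_mod a hx, pow_eq_pow_mod b hx, hab]

theorem exists_mul_modEq_succ {p : ℕ} (hp : p.Prime) {k : ℕ} (hk : ¬ k ≡ 1 [MOD p]) :
    ∃ m : ℕ, m * k ≡ m + 1 [MOD p] := by
  have := Fact.mk hp
  have h1 : ((k : ZMod p) - 1) ≠ 0 := by
    intro h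
    apply hk
    rw [sub_eq_zero] at h
    have : ((k : ℕ) : ZMod p) = ((1 : ℕ) : ZMod p) := by simpa using h
    exact (ZMod.natCast_eq_natCast_iff _ _ _).mp this
  refine ⟨(((k : ZMod p) - 1)⁻¹).val, ?_⟩
  rw [← ZMod.natCast_eq_natCast_iff]
  push_cast
  rw [ZMod.natCast_zmod_val]
  have h2 : ((k : ZMod p) - 1)⁻¹ * ((k : ZMod p) - 1) = 1 := inv_mul_cancel₀ h1
  linear_combination h2

theorem exists_eigen_of_conn {M : Type*} [CommMonoid M] {p : ℕ} (hp : p.Prime)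
    (hkill : ∀ x : M, x ^ p = 1) {Γ : Type*} (I : Set Γ) (act : Γ → M →* M) (n : Γ → ℕ)
    (M0 U X : Submonoid M) (hUX : U ≤ X)
    (ha : ∀ σ ∈ I, ∀ x ∈ X, ∃ v ∈ M0, act σ x = v * x)
    (ha' : ∀ v ∈ M0, v ∈ U → v = 1)
    (hii : ∀ σ ∈ I, ∀ x ∈ X, ∃ u ∈ U, act σ x = u * x ^ n σ)
    (σ₀ : Γ) (hσ₀ : σ₀ ∈ I) (hn₀ : ¬ n σ₀ ≡ 1 [MOD p]) :
    ∀ x ∈ X, ∃ g ∈ U, ∀ σ ∈ I, act σ (x * g) = (x * g) ^ n σ := by
  intro x hx
  have hp1 : 1 ≤ p := hp.one_le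
  have hcancel : ∀ a b c : M, a * c = b * c → a = b := by
    intro a b c h
    have e : ∀ t : M, t = (t * c) * c ^ (p - 1) := by
      intro t
      rw [mul_assoc, ← pow_succ', Nat.sub_add_cancel hp1, hkill, mul_one]
    rw [e a, e b, h]
  obtain ⟨v₀, hv₀, h1⟩ := ha σ₀ hσ₀ x hx
  obtain ⟨u₀, hu₀, h2⟩ := hii σ₀ hσ₀ x hx
  obtain ⟨m, hm⟩ := exists_mul_modEq_succ hp hn₀
  have h3 : v₀ * x = u₀ * x ^ n σ₀ := h1.symm.trans h2
  have h4 : v₀ ^ m = x * u₀ ^ m := by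
    apply hcancel _ _ (x ^ m)
    calc v₀ ^ m * x ^ m = (v₀ * x) ^ m := (mul_pow _ _ _).symm
      _ = (u₀ * x ^ n σ₀) ^ m := by rw [h3]
      _ = u₀ ^ m * x ^ (n σ₀ * m) := by rw [mul_pow, ← pow_mul]
      _ = u₀ ^ m * x ^ (m + 1) := by
        rw [pow_eq_pow_of_modEq_of_kill (hkill x) (by rwa [mul_comm] : n σ₀ * m ≡ m + 1 [MOD p])]
      _ = x * u₀ ^ m * x ^ m := by rw [pow_succ]; ac_rfl
  refine ⟨u₀ ^ m, U.pow_mem hu₀ m, ?_⟩
  rw [← h4]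
  set v := v₀ ^ m with hv
  have hvM0 : v ∈ M0 := M0.pow_mem hv₀ m
  have hvX : v ∈ X := by
    rw [h4]
    exact X.mul_mem hx (hUX (U.pow_mem hu₀ m))
  intro σ hσ
  obtain ⟨u, hu, h5⟩ := hii σ hσ v hvX
  obtain ⟨v', hv', h6⟩ := ha σ hσ v hvX
  have h7 : u = v' * v * (v ^ n σ) ^ (p - 1) := by
    calc u = u * (v ^ n σ) ^ p := by rw [hkill, mul_one]
      _ = (u * v ^ n σ) * (v ^ n σ) ^ (p - 1) := by
        rw [mul_assoc, ← pow_succ', Nat.sub_add_cancel hp1]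
      _ = v' * v * (v ^ n σ) ^ (p - 1) := by rw [← h5, h6]
  have h8 : u ∈ M0 := by
    rw [h7]
    exact M0.mul_mem (M0.mul_mem hv' hvM0) (M0.pow_mem (M0.pow_mem hvM0 _) _)
  rw [h5, ha' u h8 hu, one_mul]

end Fermat.Agent.S56lib.Hopf
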