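import Mathlib
import Fermat.Agent.S56lib.Hopf.Conn
import Fermat.Agent.S56lib.Hopf.SplitAlg

/-!
# The connected–étale splitting, dense case

`H` finite free commutative cocommutative Hopf algebra over an absolutely unramified complete
discrete valuation ring `W` with perfect residue field of characteristic `p ≠ 2`; `F1 ≤ F2 ≤ F3`
Galois-stable submonoids of the points `H → Ω`, `F3` dense and killed by `p`.  If inertia acts
trivially on `F2 / F1` and through the `n σ`-th power on `F3 / F2`, with `n σ₀ ≢ 1 mod p` for some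
`σ₀` in inertia, then `F3 / F1` is the direct sum of `F2 / F1` and an eigenspace.
-/

open TensorProduct Coalgebra Bialgebra WithConv Module IsLocalRing

noncomputable section

set_option linter.style.haveILetI false

namespace Fermat.Agent.S56lib.Hopf

section dense

universe u v

variable (p : ℕ) [hp : Fact p.Prime] {W : Type u} [CommRing W] [IsDomain W]
  [IsDiscreteValuationRing W]
  {K : Type*} [Field K] [Algebra W K] [IsFractionRing W K]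
  {Ω : Type*} [NormedField Ω] [IsUltrametricDist Ω] [Algebra K Ω] [Algebra W Ω]
  [IsScalarTower W K Ω] [IsGalois K Ω]
  {H : Type v} [CommRing H] [HopfAlgebra W H] [Module.Finite W H] [Module.Free W H]
  [Coalgebra.IsCocomm W H]

variable (K Ω) in
/-- The inertia subset of the Galois group. -/
def inertiaSet : Set (Ω ≃ₐ[K] Ω) := {σ | ∀ c : Ω, ‖c‖ ≤ 1 → ‖σ c - c‖ < 1}

omit [IsDomain W] [IsDiscreteValuationRing W] [IsFractionRing W K] [IsUltrametricDist Ω]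
  [IsGalois K Ω] [Module.Finite W H] [Module.Free W H] [Coalgebra.IsCocomm W H] hp in
/-- Points of a Hopf algebra killed by `p` are killed by `p`. -/
theorem pow_eq_one_of_isKilledBy {A : Type*} [CommRing A] [HopfAlgebra W A]
    (hk : IsKilledBy W A p) (x : WithConv (A →ₐ[W] Ω)) : x ^ p = 1 := by
  have h1 := comp_convId (R := W) x.ofConv p
  rw [hk] at h1
  rw [← h1]
  apply WithConv.ofConv_injective
  ext a
  change x.ofConv (algebraMap W A _) = algebraMap W Ω _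
  rw [AlgHom.commutes]

theorem ce_split_dense_of_subset (I : Set (Ω ≃ₐ[K] Ω)) (hI : I ⊆ inertiaSet K Ω)
    (hp2 : p ≠ 2) (hmax : maximalIdeal W = Ideal.span {(p : W)})
    [IsAdicComplete (Ideal.span {(p : W)}) W] [PerfectRing (ResidueField W) p]
    (hW : ∀ w : W, ‖algebraMap W Ω w‖ ≤ 1) (hp1 : ‖((p : ℕ) : Ω)‖ < 1)
    (hunr : ∀ c : Ω, (∀ σ ∈ I, σ c = c) → ‖c‖ < 1 → ‖c‖ ≤ ‖((p : ℕ) : Ω)‖)
    (n : (Ω ≃ₐ[K] Ω) → ℕ) (hω : ∃ σ₀ ∈ I, ¬ n σ₀ ≡ 1 [MOD p])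
    (F1 F2 F3 : Submonoid (WithConv (H →ₐ[W] Ω))) (h12 : F1 ≤ F2) (h23 : F2 ≤ F3)
    (hst1 : ∀ σ : Ω ≃ₐ[K] Ω, ∀ x ∈ F1, galConv σ x ∈ F1)
    (hst3 : ∀ σ : Ω ≃ₐ[K] Ω, ∀ x ∈ F3, galConv σ x ∈ F3)
    (hdense : ∀ h : H, (∀ x ∈ F3, x.ofConv h = 0) → h = 0)
    (hkill : ∀ x ∈ F3, x ^ p = 1)
    (hi : ∀ f ∈ F2, ∀ σ ∈ I, ∃ u ∈ F1, galConv σ f = u * f)
    (hii : ∀ f ∈ F3, ∀ σ ∈ I, ∃ u ∈ F2, galConv σ f = u * f ^ n σ) :
    ∀ f ∈ F3, ∃ g ∈ F2, ∀ σ ∈ I, ∃ u ∈ F1,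
      galConv σ (f * g) = u * (f * g) ^ n σ := by
  classical
  have hD : InvData K p F1 F3 := ⟨h12.trans h23, hst1, hst3, hdense, hkill, hp.out.pos⟩
  have hB := isHopfSubR_invSub hD
  letI := hB.hopfAlgebra
  haveI : Coalgebra.IsCocomm W ↥(invSub F1 F3) := hB.isCocomm
  have hkB : IsKilledBy W ↥(invSub F1 F3) p := isKilledBy_invSub hD
  let ρ : WithConv (H →ₐ[W] Ω) →* WithConv (↥(invSub F1 F3) →ₐ[W] Ω) := hB.resHom
  have hρ_apply : ∀ (x : WithConv (H →ₐ[W] Ω)) (b : ↥(invSub F1 F3)),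
      (ρ x).ofConv b = x.ofConv (b : H) := fun x b => rfl
  have hρ1 : ∀ u ∈ F1, ρ u = 1 := by
    intro u hu
    apply WithConv.ofConv_injective
    ext b
    rw [hρ_apply]
    exact ofConv_eq_counit_of_mem u hu b b.2
  have hρker : ∀ x ∈ F3, ∀ y ∈ F3, ρ x = ρ y → ∃ u ∈ F1, x = y * u := by
    intro x hx y hy hxy
    apply exists_mul_of_agree hD hx hy
    intro b hb
    have := congrArg (fun t => t.ofConv ⟨b, hb⟩) hxy
    exact this
  have hρgal : ∀ (σ : Ω ≃ₐ[K] Ω) (x : WithConv (H →ₐ[W] Ω)),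
      ρ (galConv σ x) = galConv σ (ρ x) := fun σ x => rfl
  have hinj := algebraMap_injective_of_fraction W K Ω
  have hp0 : 0 < ‖((p : ℕ) : Ω)‖ := by
    rw [norm_pos_iff]
    intro h0
    have h1 : algebraMap W Ω ((p : ℕ) : W) = 0 := by rw [map_natCast]; exact h0
    have h2 : ((p : ℕ) : W) = 0 := hinj (h1.trans (map_zero _).symm)
    have h3 : maximalIdeal W = ⊥ := by
      rw [hmax, h2, Ideal.span_singleton_eq_bot]
    exact IsDiscreteValuationRing.not_a_field W h3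
  obtain ⟨σ₀, hσ₀, hn₀⟩ := hω
  have hkillM : ∀ x : WithConv (↥(invSub F1 F3) →ₐ[W] Ω), x ^ p = 1 :=
    pow_eq_one_of_isKilledBy p hkB
  have hmain := exists_eigen_of_conn hp.out hkillM (I)
    (fun σ => (galConv σ : WithConv (↥(invSub F1 F3) →ₐ[W] Ω) →* _)) n
    (redOne hW) (F2.map ρ) (F3.map ρ) ((Submonoid.gc_map_comap ρ).monotone_l h23) ?_ ?_ ?_ σ₀ hσ₀ hn₀
  · intro f hf
    obtain ⟨g', hg', hg⟩ := hmain (ρ f) (Submonoid.mem_map_of_mem ρ hf)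
    obtain ⟨g, hgF2, rfl⟩ := Submonoid.mem_map.mp hg'
    refine ⟨g, hgF2, fun σ hσ => ?_⟩
    have h1 := hg σ hσ
    change galConv σ (ρ f * ρ g) = (ρ f * ρ g) ^ n σ at h1
    rw [← map_mul, ← hρgal, ← map_pow] at h1
    have hfg : f * g ∈ F3 := F3.mul_mem hf (h23 hgF2)
    obtain ⟨u, hu, h2⟩ := hρker _ (hst3 σ _ hfg) _ (F3.pow_mem hfg _) h1
    exact ⟨u, hu, by rw [h2, mul_comm]⟩
  · -- (a)
    intro σ hσ x' hx'
    refine ⟨galConv σ x' * x' ^ (p - 1), ?_, ?_⟩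
    · rw [mem_redOne]
      have h1 : RedEq (galConv σ x' * x' ^ (p - 1)) (x' * x' ^ (p - 1)) :=
        RedEq.mul hW (redEq_galConv hW σ (hI hσ) x') (RedEq.refl _)
      rwa [← pow_succ', Nat.sub_add_cancel hp.out.one_le, hkillM] at h1
    · rw [mul_assoc, ← pow_succ, Nat.sub_add_cancel hp.out.one_le, hkillM, mul_one]
  · -- (a')
    intro v hv0 hvU
    obtain ⟨u, huF2, rfl⟩ := Submonoid.mem_map.mp hvU
    have hfixv : ∀ σ ∈ I, galConv σ (ρ u) = ρ u := by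
      intro σ hσ
      obtain ⟨u₁, hu₁, h1⟩ := hi u huF2 σ hσ
      rw [← hρgal, h1, map_mul, hρ1 u₁ hu₁, one_mul]
    apply eq_one_of_redEq_one p hp2 hmax hW hp0 hp1 hkB (ρ u) hv0
    intro b
    apply hunr
    intro σ hσ
    have := congrArg (fun t => t.ofConv b) (hfixv σ hσ)
    exact this
  · -- (ii)
    intro σ hσ x' hx'
    obtain ⟨x, hxF3, rfl⟩ := Submonoid.mem_map.mp hx'
    obtain ⟨u, hu, h1⟩ := hii x hxF3 σ hσ
    refine ⟨ρ u, Submonoid.mem_map_of_mem ρ hu, ?_⟩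
    change galConv σ (ρ x) = _
    rw [← hρgal, h1, map_mul, map_pow]

theorem ce_split_dense (hp2 : p ≠ 2) (hmax : maximalIdeal W = Ideal.span {(p : W)})
    [IsAdicComplete (Ideal.span {(p : W)}) W] [PerfectRing (ResidueField W) p]
    (hW : ∀ w : W, ‖algebraMap W Ω w‖ ≤ 1) (hp1 : ‖((p : ℕ) : Ω)‖ < 1)
    (hunr : ∀ c : Ω, (∀ σ ∈ inertiaSet K Ω, σ c = c) → ‖c‖ < 1 → ‖c‖ ≤ ‖((p : ℕ) : Ω)‖)
    (n : (Ω ≃ₐ[K] Ω) → ℕ) (hω : ∃ σ₀ ∈ inertiaSet K Ω, ¬ n σ₀ ≡ 1 [MOD p])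
    (F1 F2 F3 : Submonoid (WithConv (H →ₐ[W] Ω))) (h12 : F1 ≤ F2) (h23 : F2 ≤ F3)
    (hst1 : ∀ σ : Ω ≃ₐ[K] Ω, ∀ x ∈ F1, galConv σ x ∈ F1)
    (hst3 : ∀ σ : Ω ≃ₐ[K] Ω, ∀ x ∈ F3, galConv σ x ∈ F3)
    (hdense : ∀ h : H, (∀ x ∈ F3, x.ofConv h = 0) → h = 0)
    (hkill : ∀ x ∈ F3, x ^ p = 1)
    (hi : ∀ f ∈ F2, ∀ σ ∈ inertiaSet K Ω, ∃ u ∈ F1, galConv σ f = u * f)
    (hii : ∀ f ∈ F3, ∀ σ ∈ inertiaSet K Ω, ∃ u ∈ F2, galConv σ f = u * f ^ n σ) :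
    ∀ f ∈ F3, ∃ g ∈ F2, ∀ σ ∈ inertiaSet K Ω, ∃ u ∈ F1,
      galConv σ (f * g) = u * (f * g) ^ n σ :=
  ce_split_dense_of_subset p (inertiaSet K Ω) subset_rfl hp2 hmax hW hp1 hunr n hω F1 F2 F3 h12 h23
    hst1 hst3 hdense hkill hi hii

end dense

end Fermat.Agent.S56lib.Hopf

end
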