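import Mathlib
import Fermat.Agent.S56lib.Hopf.Invar

/-!
# The schematic closure of a Galois-stable group of points

`H` finite free commutative Hopf algebra over a principal ideal domain `W`, `K = Frac W`, `Ω / K`
Galois.  For a Galois-stable submonoid `F` of the points `H → Ω`, killed by `p`, the ideal
`vanIdeal F` of functions vanishing on `F` is a Hopf ideal, and `H ⧸ vanIdeal F` is finite free.
-/

open TensorProduct Coalgebra Bialgebra WithConv Module

noncomputable section

set_option linter.unusedSectionVars false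
set_option linter.style.haveILetI false

namespace Fermat.Agent.S56lib.Hopf

section closure

variable {W K Ω : Type*} [CommRing W] [IsDomain W] [IsPrincipalIdealRing W] [Field K] [Field Ω]
  [Algebra W K] [Algebra K Ω] [Algebra W Ω] [IsScalarTower W K Ω] [IsFractionRing W K]
  [IsGalois K Ω]
  {H : Type*} [CommRing H] [HopfAlgebra W H] [Module.Finite W H] [Module.Free W H]

/-- The ideal of functions vanishing on a set of points. -/
def vanIdeal (F : Submonoid (WithConv (H →ₐ[W] Ω))) : Ideal H where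
  carrier := {h | ∀ x ∈ F, x.ofConv h = 0}
  add_mem' := fun {a b} ha hb x hx => by rw [map_add, ha x hx, hb x hx, add_zero]
  zero_mem' := fun x _ => map_zero _
  smul_mem' := fun c h hh x hx => by rw [smul_eq_mul, map_mul, hh x hx, mul_zero]

theorem mem_vanIdeal {F : Submonoid (WithConv (H →ₐ[W] Ω))} {h : H} :
    h ∈ vanIdeal F ↔ ∀ x ∈ F, x.ofConv h = 0 := Iff.rfl

theorem isTorsionFree_quot_vanIdeal (hinj : Function.Injective (algebraMap W Ω))
    (F : Submonoid (WithConv (H →ₐ[W] Ω))) :
    Module.IsTorsionFree W (H ⧸ vanIdeal F) := by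
  apply Module.IsTorsionFree.of_smul_eq_zero
  intro w y hy
  obtain ⟨h, rfl⟩ := Ideal.Quotient.mk_surjective y
  by_cases hw : w = 0
  · exact Or.inl hw
  · right
    have h1 : (Ideal.Quotient.mk (vanIdeal F)) (w • h) = 0 := by
      rw [← hy]
      rfl
    rw [Ideal.Quotient.eq_zero_iff_mem] at h1 ⊢
    intro x hx
    have h2 := h1 x hx
    rw [map_smul, Algebra.smul_def] at h2
    rcases mul_eq_zero.mp h2 with h3 | h3
    · exact absurd (hinj (h3.trans (map_zero _).symm)) hw
    · exact h3

theorem free_quot_vanIdeal (hinj : Function.Injective (algebraMap W Ω))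
    (F : Submonoid (WithConv (H →ₐ[W] Ω))) :
    Module.Free W (H ⧸ vanIdeal F) := by
  haveI := isTorsionFree_quot_vanIdeal hinj F
  exact Module.free_of_finite_type_torsion_free'

/-- The point of the quotient induced by a point of `F`. -/
def quotPt (F : Submonoid (WithConv (H →ₐ[W] Ω))) (x : WithConv (H →ₐ[W] Ω)) (hx : x ∈ F) :
    (H ⧸ vanIdeal F) →ₐ[W] Ω :=
  Ideal.Quotient.liftₐ (vanIdeal F) x.ofConv (fun _ ha => ha x hx)

@[simp] theorem quotPt_mk (F : Submonoid (WithConv (H →ₐ[W] Ω))) (x : WithConv (H →ₐ[W] Ω))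
    (hx : x ∈ F) (h : H) : quotPt F x hx (Ideal.Quotient.mk _ h) = x.ofConv h := rfl

theorem mulEv_map_mk (F : Submonoid (WithConv (H →ₐ[W] Ω)))
    (y y' : (H ⧸ vanIdeal F) →ₐ[W] Ω) (t : H ⊗[W] H) :
    mulEv y y' (Algebra.TensorProduct.map (Ideal.Quotient.mkₐ W (vanIdeal F))
      (Ideal.Quotient.mkₐ W (vanIdeal F)) t) =
    mulEv (y.comp (Ideal.Quotient.mkₐ W (vanIdeal F))) (y'.comp (Ideal.Quotient.mkₐ W (vanIdeal F)))
      t := by
  induction t using TensorProduct.induction_on with
  | zero => simp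
  | tmul a b =>
    rw [Algebra.TensorProduct.map_tmul, mulEv_tmul, mulEv_tmul]
    rfl
  | add s t hs ht => rw [map_add, map_add, map_add, hs, ht]

theorem map_mk_comul_eq_zero (F : Submonoid (WithConv (H →ₐ[W] Ω)))
    (hst : ∀ σ : Ω ≃ₐ[K] Ω, ∀ x ∈ F, galConv σ x ∈ F) (h : H) (hh : h ∈ vanIdeal F) :
    Algebra.TensorProduct.map (Ideal.Quotient.mkₐ W (vanIdeal F))
      (Ideal.Quotient.mkₐ W (vanIdeal F)) (comul (R := W) h) = 0 := by
    classical
    haveI := free_quot_vanIdeal (algebraMap_injective_of_fraction W K Ω) F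
    let q := Module.Free.chooseBasis W (H ⧸ vanIdeal F)
    let S : Set ((H ⧸ vanIdeal F) →ₐ[W] Ω) :=
      {y | toConv (y.comp (Ideal.Quotient.mkₐ W (vanIdeal F))) ∈ F}
    have hS : ∀ σ : Ω ≃ₐ[K] Ω, ∀ y ∈ S, galPt σ y ∈ S := fun σ y hy => hst σ _ hy
    have hmemS : ∀ x (hx : x ∈ F), quotPt F x hx ∈ S := by
      intro x hx
      change toConv _ ∈ F
      have : (quotPt F x hx).comp (Ideal.Quotient.mkₐ W (vanIdeal F)) = x.ofConv := by
        ext a
        rfl
      rw [this]
      exact hx
    have hd : ∀ y : H ⧸ vanIdeal F, (∀ x ∈ S, x y = 0) → y = 0 := by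
      intro y hy
      obtain ⟨a, rfl⟩ := Ideal.Quotient.mk_surjective y
      rw [Ideal.Quotient.eq_zero_iff_mem]
      intro x hx
      exact hy _ (hmemS x hx)
    set z : (H ⧸ vanIdeal F) ⊗[W] (H ⧸ vanIdeal F) :=
      Algebra.TensorProduct.map (Ideal.Quotient.mkₐ W (vanIdeal F))
        (Ideal.Quotient.mkₐ W (vanIdeal F)) (comul (R := W) h) with hz
    have hz0 : ∀ y ∈ S, ∀ y' ∈ S, mulEv y y' z = 0 := by
      intro y hy y' hy'
      rw [hz, mulEv_map_mk]
      exact hh _ (F.mul_mem hy hy')
    have hcoef : ∀ a, TensorProduct.equivFinsuppOfBasisRight q z a = 0 := by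
      intro a
      apply hd
      intro y hy
      have hc := sep_of_dense (K := K) q S hS hd
        (fun a => y (TensorProduct.equivFinsuppOfBasisRight q z a)) ?_
      · exact congrFun hc a
      · intro y' hy'
        unfold evC
        rw [← mulEv_eq_sum_right q y y' z]
        exact hz0 y hy y' hy'
    rw [eq_sum_tmul_basis_right q z]
    apply Finset.sum_eq_zero
    intro a _
    rw [hcoef a, TensorProduct.zero_tmul]

/-- The vanishing ideal of a Galois-stable submonoid of points killed by `p` is a Hopf ideal. -/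
theorem isHopfIdeal_vanIdeal {p : ℕ} (hp : 0 < p) (F : Submonoid (WithConv (H →ₐ[W] Ω)))
    (hst : ∀ σ : Ω ≃ₐ[K] Ω, ∀ x ∈ F, galConv σ x ∈ F) (hkill : ∀ x ∈ F, x ^ p = 1) :
    (vanIdeal F).IsHopfIdeal W where
  counit_eq_zero := by
    intro h hh
    have hinj := algebraMap_injective_of_fraction W K Ω
    have h1 := hh 1 F.one_mem
    exact hinj (h1.trans (map_zero _).symm)
  map_mkQ_comul_eq_zero := fun h hh => map_mk_comul_eq_zero F hst h hh
  antipode_mem := by
    intro h hh x hx
    rw [ofConv_antipode_eq hp x (hkill x hx)]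
    exact hh _ (F.pow_mem hx _)

end closure

end Fermat.Agent.S56lib.Hopf

end
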