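import Mathlib
import Fermat.Agent.S56lib.Hopf.CEDense
import Fermat.Agent.S56lib.Hopf.Closure

/-!
# The connected–étale splitting (CE-split)

`W` an absolutely unramified complete discrete valuation ring with perfect residue field of
characteristic `p ≠ 2`, `K = Frac W`, `Ω / K` a Galois extension of ultrametric normed fields with
`W` in the unit ball, `H` a finite free commutative cocommutative Hopf algebra over `W`.  Let
`F1 ≤ F2 ≤ F3` be submonoids of the group of points `H → Ω`, with `F1`, `F3` Galois-stable and `F3`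
killed by `p`.  If inertia acts trivially on `F2 / F1` and through the `n σ`-th power on `F3 / F2`,
with `n σ₀ ≢ 1 mod p` for some `σ₀` in inertia, then every class of `F3` modulo `F2` contains an
element on which inertia acts through the `n σ`-th power modulo `F1`.
-/

open TensorProduct Coalgebra Bialgebra WithConv Module IsLocalRing

noncomputable section

set_option linter.unusedSectionVars false
set_option linter.style.haveILetI false

namespace Fermat.Agent.S56lib.Hopf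

section pull

variable {R A B C : Type*} [CommSemiring R] [CommSemiring A] [Algebra R A] [CommSemiring B]
  [Semiring C] [Bialgebra R B] [Bialgebra R C]

/-- Pull-back of points along a bialgebra homomorphism, as a monoid homomorphism. -/
def pullHom (φ : B →ₐc[R] C) : WithConv (C →ₐ[R] A) →* WithConv (B →ₐ[R] A) where
  toFun x := toConv (x.ofConv.comp (φ : B →ₐ[R] C))
  map_one' := by
    apply ofConv_injective
    ext b
    change algebraMap R A (counit (R := R) (φ b)) = algebraMap R A (counit (R := R) b)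
    rw [CoalgHomClass.counit_comp_apply]
  map_mul' x y := by
    apply ofConv_injective
    exact AlgHom.convMul_comp_bialgHom_distrib x y φ

theorem pullHom_apply (φ : B →ₐc[R] C) (x : WithConv (C →ₐ[R] A)) (b : B) :
    (pullHom φ x).ofConv b = x.ofConv (φ b) := rfl

end pull

section quot

variable {W : Type*} [CommRing W] {H : Type*} [CommRing H] [HopfAlgebra W H]

/-- A quotient of a cocommutative Hopf algebra by a Hopf ideal is cocommutative. -/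
theorem isCocomm_quot (I : Ideal H) [I.IsHopfIdeal W] [Coalgebra.IsCocomm W H] :
    Coalgebra.IsCocomm W (H ⧸ I) := by
  refine ⟨?_⟩
  apply LinearMap.ext
  intro y
  obtain ⟨h, rfl⟩ := Ideal.Quotient.mk_surjective y
  change TensorProduct.comm W (H ⧸ I) (H ⧸ I) (comul (R := W) (Ideal.Quotient.mk I h)) =
    comul (R := W) (Ideal.Quotient.mk I h)
  rw [Bialgebra.Quotient.comul_mk]
  have key : ∀ t : H ⊗[W] H, TensorProduct.comm W (H ⧸ I) (H ⧸ I)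
      (TensorProduct.map (Ideal.Quotient.mkₐ W I).toLinearMap (Ideal.Quotient.mkₐ W I).toLinearMap t)
      = TensorProduct.map (Ideal.Quotient.mkₐ W I).toLinearMap (Ideal.Quotient.mkₐ W I).toLinearMap
        (TensorProduct.comm W H H t) := by
    intro t
    induction t using TensorProduct.induction_on with
    | zero => simp
    | tmul a b => simp
    | add s t hs ht => simp only [map_add, hs, ht]
  rw [key, Coalgebra.comm_comul]

end quot

section main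

universe u v

variable (p : ℕ) [hp : Fact p.Prime] {W : Type u} [CommRing W] [IsDomain W]
  [IsDiscreteValuationRing W]
  {K : Type*} [Field K] [Algebra W K] [IsFractionRing W K]
  {Ω : Type*} [NormedField Ω] [IsUltrametricDist Ω] [Algebra K Ω] [Algebra W Ω]
  [IsScalarTower W K Ω] [IsGalois K Ω]
  {H : Type v} [CommRing H] [HopfAlgebra W H] [Module.Finite W H] [Module.Free W H]
  [Coalgebra.IsCocomm W H]

/-- **(CE-split)** for an arbitrary subset `I` of the inertia set. -/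
theorem ce_split_of_subset (I : Set (Ω ≃ₐ[K] Ω)) (hI : I ⊆ inertiaSet K Ω)
    (hp2 : p ≠ 2) (hmax : maximalIdeal W = Ideal.span {(p : W)})
    [IsAdicComplete (Ideal.span {(p : W)}) W] [PerfectRing (ResidueField W) p]
    (hW : ∀ w : W, ‖algebraMap W Ω w‖ ≤ 1) (hp1 : ‖((p : ℕ) : Ω)‖ < 1)
    (hunr : ∀ c : Ω, (∀ σ ∈ I, σ c = c) → ‖c‖ < 1 → ‖c‖ ≤ ‖((p : ℕ) : Ω)‖)
    (n : (Ω ≃ₐ[K] Ω) → ℕ) (hω : ∃ σ₀ ∈ I, ¬ n σ₀ ≡ 1 [MOD p])
    (F1 F2 F3 : Submonoid (WithConv (H →ₐ[W] Ω))) (h12 : F1 ≤ F2) (h23 : F2 ≤ F3)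
    (hst1 : ∀ σ : Ω ≃ₐ[K] Ω, ∀ x ∈ F1, galConv σ x ∈ F1)
    (hst3 : ∀ σ : Ω ≃ₐ[K] Ω, ∀ x ∈ F3, galConv σ x ∈ F3)
    (hkill : ∀ x ∈ F3, x ^ p = 1)
    (hi : ∀ f ∈ F2, ∀ σ ∈ I, ∃ u ∈ F1, galConv σ f = u * f)
    (hii : ∀ f ∈ F3, ∀ σ ∈ I, ∃ u ∈ F2, galConv σ f = u * f ^ n σ) :
    ∀ f ∈ F3, ∃ g ∈ F2, ∀ σ ∈ I, ∃ u ∈ F1,
      galConv σ (f * g) = u * (f * g) ^ n σ := by
  classical
  haveI := isHopfIdeal_vanIdeal (K := K) hp.out.pos F3 hst3 hkill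
  haveI : Module.Free W (H ⧸ vanIdeal F3) :=
    free_quot_vanIdeal (algebraMap_injective_of_fraction W K Ω) F3
  haveI : Coalgebra.IsCocomm W (H ⧸ vanIdeal F3) := isCocomm_quot (vanIdeal F3)
  let ι : WithConv ((H ⧸ vanIdeal F3) →ₐ[W] Ω) →* WithConv (H →ₐ[W] Ω) :=
    pullHom (Bialgebra.Quotient.mkBialgHom (vanIdeal F3))
  have hι_apply : ∀ (x : WithConv ((H ⧸ vanIdeal F3) →ₐ[W] Ω)) (h : H),
      (ι x).ofConv h = x.ofConv (Ideal.Quotient.mk _ h) := fun x h => rfl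
  have hιinj : Function.Injective ι := by
    intro x y hxy
    apply ofConv_injective
    apply Ideal.Quotient.algHom_ext
    apply AlgHom.ext
    intro h
    have := congrArg (fun t => t.ofConv h) hxy
    exact this
  have hιgal : ∀ (σ : Ω ≃ₐ[K] Ω) (x : WithConv ((H ⧸ vanIdeal F3) →ₐ[W] Ω)),
      ι (galConv σ x) = galConv σ (ι x) := fun σ x => rfl
  -- lifting points of `F3`
  have hlift : ∀ x ∈ F3, ∃ x' : WithConv ((H ⧸ vanIdeal F3) →ₐ[W] Ω), ι x' = x := by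
    intro x hx
    refine ⟨toConv (quotPt F3 x hx), ?_⟩
    apply ofConv_injective
    ext h
    rfl
  have hmain := ce_split_dense_of_subset p I hI hp2 hmax hW hp1 hunr n hω
    (F1.comap ι) (F2.comap ι) (F3.comap ι) ((Submonoid.gc_map_comap ι).monotone_u h12) ((Submonoid.gc_map_comap ι).monotone_u h23)
    ?_ ?_ ?_ ?_ ?_ ?_
  · intro f hf
    obtain ⟨f', rfl⟩ := hlift f hf
    obtain ⟨g', hg', hg⟩ := hmain f' hf
    refine ⟨ι g', hg', fun σ hσ => ?_⟩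
    obtain ⟨u', hu', h1⟩ := hg σ hσ
    refine ⟨ι u', hu', ?_⟩
    rw [← map_mul, ← hιgal, h1, map_mul, map_pow]
  · intro σ x hx
    change ι (galConv σ x) ∈ F1
    rw [hιgal]
    exact hst1 σ _ hx
  · intro σ x hx
    change ι (galConv σ x) ∈ F3
    rw [hιgal]
    exact hst3 σ _ hx
  · intro y hy
    obtain ⟨h, rfl⟩ := Ideal.Quotient.mk_surjective y
    rw [Ideal.Quotient.eq_zero_iff_mem]
    intro x hx
    obtain ⟨x', rfl⟩ := hlift x hx
    rw [hι_apply]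
    exact hy x' hx
  · intro x hx
    apply hιinj
    rw [map_pow, map_one]
    exact hkill _ hx
  · intro f hf σ hσ
    obtain ⟨u, hu, h1⟩ := hi (ι f) hf σ hσ
    obtain ⟨u', rfl⟩ := hlift u (h23 (h12 hu))
    refine ⟨u', hu, ?_⟩
    apply hιinj
    rw [hιgal, h1, map_mul]
  · intro f hf σ hσ
    obtain ⟨u, hu, h1⟩ := hii (ι f) hf σ hσ
    obtain ⟨u', rfl⟩ := hlift u (h23 hu)
    refine ⟨u', hu, ?_⟩
    apply hιinj
    rw [hιgal, h1, map_mul, map_pow]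

/-- **(CE-split)**. -/
theorem ce_split (hp2 : p ≠ 2) (hmax : maximalIdeal W = Ideal.span {(p : W)})
    [IsAdicComplete (Ideal.span {(p : W)}) W] [PerfectRing (ResidueField W) p]
    (hW : ∀ w : W, ‖algebraMap W Ω w‖ ≤ 1) (hp1 : ‖((p : ℕ) : Ω)‖ < 1)
    (hunr : ∀ c : Ω, (∀ σ ∈ inertiaSet K Ω, σ c = c) → ‖c‖ < 1 → ‖c‖ ≤ ‖((p : ℕ) : Ω)‖)
    (n : (Ω ≃ₐ[K] Ω) → ℕ) (hω : ∃ σ₀ ∈ inertiaSet K Ω, ¬ n σ₀ ≡ 1 [MOD p])
    (F1 F2 F3 : Submonoid (WithConv (H →ₐ[W] Ω))) (h12 : F1 ≤ F2) (h23 : F2 ≤ F3)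
    (hst1 : ∀ σ : Ω ≃ₐ[K] Ω, ∀ x ∈ F1, galConv σ x ∈ F1)
    (hst3 : ∀ σ : Ω ≃ₐ[K] Ω, ∀ x ∈ F3, galConv σ x ∈ F3)
    (hkill : ∀ x ∈ F3, x ^ p = 1)
    (hi : ∀ f ∈ F2, ∀ σ ∈ inertiaSet K Ω, ∃ u ∈ F1, galConv σ f = u * f)
    (hii : ∀ f ∈ F3, ∀ σ ∈ inertiaSet K Ω, ∃ u ∈ F2, galConv σ f = u * f ^ n σ) :
    ∀ f ∈ F3, ∃ g ∈ F2, ∀ σ ∈ inertiaSet K Ω, ∃ u ∈ F1,
      galConv σ (f * g) = u * (f * g) ^ n σ :=
  ce_split_of_subset p (inertiaSet K Ω) subset_rfl hp2 hmax hW hp1 hunr n hω F1 F2 F3 h12 h23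
    hst1 hst3 hkill hi hii

/-- **(CE-split)**, with the unramifiedness hypothesis in the form "the value group of `Ω ^ I` is
`‖p‖ ^ ℤ`". -/
theorem ce_split' (hp2 : p ≠ 2) (hmax : maximalIdeal W = Ideal.span {(p : W)})
    [IsAdicComplete (Ideal.span {(p : W)}) W] [PerfectRing (ResidueField W) p]
    (hW : ∀ w : W, ‖algebraMap W Ω w‖ ≤ 1) (hp0 : 0 < ‖((p : ℕ) : Ω)‖)
    (hp1 : ‖((p : ℕ) : Ω)‖ < 1)
    (hunr : ∀ c : Ω, (∀ σ ∈ inertiaSet K Ω, σ c = c) →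
      c = 0 ∨ ∃ n : ℤ, ‖c‖ = ‖((p : ℕ) : Ω)‖ ^ n)
    (n : (Ω ≃ₐ[K] Ω) → ℕ) (hω : ∃ σ₀ ∈ inertiaSet K Ω, ¬ n σ₀ ≡ 1 [MOD p])
    (F1 F2 F3 : Submonoid (WithConv (H →ₐ[W] Ω))) (h12 : F1 ≤ F2) (h23 : F2 ≤ F3)
    (hst1 : ∀ σ : Ω ≃ₐ[K] Ω, ∀ x ∈ F1, galConv σ x ∈ F1)
    (hst3 : ∀ σ : Ω ≃ₐ[K] Ω, ∀ x ∈ F3, galConv σ x ∈ F3)
    (hkill : ∀ x ∈ F3, x ^ p = 1)
    (hi : ∀ f ∈ F2, ∀ σ ∈ inertiaSet K Ω, ∃ u ∈ F1, galConv σ f = u * f)
    (hii : ∀ f ∈ F3, ∀ σ ∈ inertiaSet K Ω, ∃ u ∈ F2, galConv σ f = u * f ^ n σ) :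
    ∀ f ∈ F3, ∃ g ∈ F2, ∀ σ ∈ inertiaSet K Ω, ∃ u ∈ F1,
      galConv σ (f * g) = u * (f * g) ^ n σ := by
  refine ce_split p hp2 hmax hW hp1 ?_ n hω F1 F2 F3 h12 h23 hst1 hst3 hkill hi hii
  intro c hc hlt
  rcases hunr c hc with h0 | ⟨k, hk⟩
  · rw [h0, norm_zero]
    exact hp0.le
  · exact le_of_eq_zpow_of_lt_one hp0 hp1 hk hlt

end main

end Fermat.Agent.S56lib.Hopf

end
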