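import Mathlib
import Fermat.Agent.S56lib.Hopf.Final
import Fermat.Agent.S56lib.Hopf.Cartier

/-!
# The presentation theorem for a base change `W ⊗[R] H`

`H` is a finite flat commutative Hopf algebra over a subring `R` of an algebraically closed field
`K` of characteristic zero whose `K`-points are all killed by `p`; `W` is an `R`-algebra which is a
`p`-adically complete local ring with maximal ideal `(p)` and perfect residue field.  Then every
local factor of `W ⊗[R] H` at a rational point has the presentation of `exists_presentation`.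
-/

open TensorProduct Coalgebra Bialgebra Module MvPolynomial IsLocalRing WithConv

namespace Fermat.Agent.S56lib.Hopf

section kaehlerBC

variable {R W H : Type*} [CommRing R] [CommRing W] [Algebra R W] [CommRing H] [Algebra R H]

attribute [local instance] Algebra.TensorProduct.rightAlgebra in
/-- If `n` kills `Ω[H⁄R]` then `n` kills `Ω[(W ⊗[R] H)⁄W]`. -/
theorem nsmul_kaehler_baseChange (n : ℕ) (h : ∀ w : Ω[H⁄R], n • w = 0)
    (w : Ω[(W ⊗[R] H)⁄W]) : n • w = 0 := by
  obtain ⟨v, rfl⟩ := (KaehlerDifferential.tensorKaehlerEquiv R W H (W ⊗[R] H)).surjective w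
  rw [← map_nsmul]
  have : n • v = 0 := by
    induction v using TensorProduct.induction_on with
    | zero => simp
    | tmul a b => rw [← TensorProduct.tmul_smul, h b, TensorProduct.tmul_zero]
    | add x y hx hy => rw [smul_add, hx, hy, add_zero]
  rw [this, map_zero]

end kaehlerBC

section final

universe u v

variable (p : ℕ) [hp : Fact p.Prime] {W : Type u} [CommRing W] [IsLocalRing W]

/-- The conclusion of the presentation theorem, for a `W`-algebra `A` and a point `g`:
an idempotent `f` with `g f = 0` such that `A ⧸ (f)` has a `W`-basis of reduced monomials in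
`X i`, `i : Fin m`, with `X i ^ p ^ e i ∈ p (A ⧸ (f))` and `p • Ω = 0`. -/
def HasPresentationAt {A : Type v} [CommRing A] [Algebra W A] (g : A →ₐ[W] ResidueField W) :
    Prop :=
  ∃ f : A, IsIdempotentElem f ∧ g f = 0 ∧
    ∃ (m : ℕ) (e : Fin m → ℕ) (X : Fin m → A ⧸ Ideal.span {f}),
      (∀ i, 1 ≤ e i) ∧ (∀ i, ∃ a : A, Ideal.Quotient.mk _ a = X i ∧ g a = 0) ∧
      (∀ i, X i ^ p ^ e i ∈ Ideal.span {((p : ℕ) : A ⧸ Ideal.span {f})}) ∧
      Function.Bijective (redEval (R := W) X (fun i => p ^ e i)) ∧
      (∀ w : Ω[(A ⧸ Ideal.span {f})⁄W], p • w = 0)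

/-- Variant of `exists_presentation` with hypothesis `p • Ω[A⁄W] = 0` instead of `IsKilledBy`. -/
theorem hasPresentationAt_of_kaehler {A : Type v} [CommRing A] [HopfAlgebra W A]
    [Module.Free W A] [Module.Finite W A] (hmax : maximalIdeal W = Ideal.span {(p : W)})
    [IsAdicComplete (Ideal.span {(p : W)}) W] [PerfectRing (ResidueField W) p]
    (hΩ : ∀ w : Ω[A⁄W], p • w = 0) (g : A →ₐ[W] ResidueField W) :
    HasPresentationAt p g := by
  obtain ⟨f, hf, hgf, σ, _, e, X, he, hXg, hXp, hbij⟩ := exists_monoBasis_factor p hmax g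
  refine ⟨f, hf, hgf, Fintype.card σ, e ∘ (Fintype.equivFin σ).symm,
    X ∘ (Fintype.equivFin σ).symm, fun i => he _, fun i => hXg _, fun i => hXp _, ?_, ?_⟩
  · exact redEval_bijective_reindex (Fintype.equivFin σ) X (fun i => p ^ e i) hbij
  · exact nsmul_kaehler_eq_zero_of_surjective p Ideal.Quotient.mk_surjective hΩ

/-- **Presentation theorem, base-change form.** -/
theorem hasPresentationAt_baseChange {R K : Type*} [CommRing R] [Field K] [CharZero K]
    [IsAlgClosed K] [Algebra R K] (hinj : Function.Injective (algebraMap R K))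
    {H : Type v} [CommRing H] [HopfAlgebra R H] [Module.Finite R H] [Module.Flat R H]
    (hpts : ∀ x : H →ₐ[R] K, (toConv x) ^ p = 1)
    [Algebra R W] (hmax : maximalIdeal W = Ideal.span {(p : W)})
    [IsAdicComplete (Ideal.span {(p : W)}) W] [PerfectRing (ResidueField W) p]
    (g : W ⊗[R] H →ₐ[W] ResidueField W) : HasPresentationAt p g := by
  have hfree : Module.Free W (W ⊗[R] H) := Module.free_of_flat_of_isLocalRing
  have hkill : IsKilledBy R H p := isKilledBy_of_points hinj p hpts
  have hΩ : ∀ w : Ω[(W ⊗[R] H)⁄W], p • w = 0 :=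
    nsmul_kaehler_baseChange p (nsmul_kaehler_eq_zero hkill)
  exact hasPresentationAt_of_kaehler p hmax hΩ g

end final

end Fermat.Agent.S56lib.Hopf
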