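import Mathlib
import Fermat.Agent.S56lib.Lift.PadicInst
import Fermat.Agent.S56lib.Hopf.CESplit
import Fermat.Agent.S55lib.Iface.RamBridge
import Fermat.Agent.S56lib.Tame.CycloInertia

/-!
# (CE-split) over `ℤ_[p]`

The instance `W = ℤ_[p]`, `K = ℚ_[p]`, `Ω = PadicAlgCl p` of `ce_split`.  The two arithmetic inputs
on inertia are discharged: `hunr_padic` (the fixed field of inertia is `ℚ_p^{nr}`, with value group
`p ^ ℤ`) and `homega_padic` (inertia moves `ζ_p`, `p` odd).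
-/

open WithConv IsLocalRing

noncomputable section

namespace Fermat.Agent.S56lib.Hopf

variable (p : ℕ) [hp : Fact p.Prime]

theorem norm_algebraMap_padicInt_algCl_le (w : ℤ_[p]) :
    ‖algebraMap ℤ_[p] (PadicAlgCl p) w‖ ≤ 1 := by
  rw [IsScalarTower.algebraMap_apply ℤ_[p] ℚ_[p] (PadicAlgCl p), PadicAlgCl.norm_extends]
  exact PadicInt.norm_le_one w

theorem norm_natCast_padicAlgCl : ‖((p : ℕ) : PadicAlgCl p)‖ = (p : ℝ)⁻¹ := by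
  rw [← map_natCast (algebraMap ℚ_[p] (PadicAlgCl p)), PadicAlgCl.norm_extends, Padic.norm_p]

theorem norm_natCast_padicAlgCl_pos : 0 < ‖((p : ℕ) : PadicAlgCl p)‖ := by
  rw [norm_natCast_padicAlgCl]
  exact inv_pos.2 (Nat.cast_pos.2 hp.out.pos)

theorem norm_natCast_padicAlgCl_lt_one : ‖((p : ℕ) : PadicAlgCl p)‖ < 1 := by
  rw [norm_natCast_padicAlgCl]
  exact inv_lt_one_of_one_lt₀ (by exact_mod_cast hp.out.one_lt)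

/-- **(CE-split) over `ℤ_[p]`**, `p ≠ 2`: `B` a finite free commutative cocommutative Hopf algebra
over `ℤ_[p]`, `F1 ≤ F2 ≤ F3` submonoids of its `PadicAlgCl p`-points, `F1` and `F3` stable under
`Gal(PadicAlgCl p / ℚ_[p])`, `F3` killed by `p`; inertia acts trivially on `F2 / F1` and through
`x ↦ x ^ n σ` on `F3 / F2`, with `n σ₀ ≢ 1 mod p` for some `σ₀` in inertia.  Then every class of
`F3 / F2` contains an element on which inertia acts through `x ↦ x ^ n σ` modulo `F1`. -/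
theorem ce_split_padic (hp2 : p ≠ 2)
    (hunr : ∀ c : PadicAlgCl p, (∀ σ ∈ inertiaSet ℚ_[p] (PadicAlgCl p), σ c = c) → ‖c‖ < 1 →
      ‖c‖ ≤ ‖((p : ℕ) : PadicAlgCl p)‖)
    (n : (PadicAlgCl p ≃ₐ[ℚ_[p]] PadicAlgCl p) → ℕ)
    (hω : ∃ σ₀ ∈ inertiaSet ℚ_[p] (PadicAlgCl p), ¬ n σ₀ ≡ 1 [MOD p])
    {B : Type*} [CommRing B] [HopfAlgebra ℤ_[p] B] [Module.Finite ℤ_[p] B] [Module.Free ℤ_[p] B]
    [Coalgebra.IsCocomm ℤ_[p] B]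
    (F1 F2 F3 : Submonoid (WithConv (B →ₐ[ℤ_[p]] PadicAlgCl p))) (h12 : F1 ≤ F2) (h23 : F2 ≤ F3)
    (hst1 : ∀ σ : PadicAlgCl p ≃ₐ[ℚ_[p]] PadicAlgCl p, ∀ x ∈ F1, galConv σ x ∈ F1)
    (hst3 : ∀ σ : PadicAlgCl p ≃ₐ[ℚ_[p]] PadicAlgCl p, ∀ x ∈ F3, galConv σ x ∈ F3)
    (hkill : ∀ x ∈ F3, x ^ p = 1)
    (hi : ∀ f ∈ F2, ∀ σ ∈ inertiaSet ℚ_[p] (PadicAlgCl p), ∃ u ∈ F1, galConv σ f = u * f)
    (hii : ∀ f ∈ F3, ∀ σ ∈ inertiaSet ℚ_[p] (PadicAlgCl p), ∃ u ∈ F2,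
      galConv σ f = u * f ^ n σ) :
    ∀ f ∈ F3, ∃ g ∈ F2, ∀ σ ∈ inertiaSet ℚ_[p] (PadicAlgCl p), ∃ u ∈ F1,
      galConv σ (f * g) = u * (f * g) ^ n σ :=
  ce_split p hp2 PadicInt.maximalIdeal_eq_span_p (norm_algebraMap_padicInt_algCl_le p)
    (norm_natCast_padicAlgCl_lt_one p) hunr n hω F1 F2 F3 h12 h23 hst1 hst3 hkill hi hii

section arithmetic

open Fermat.Agent.S55lib

theorem mem_inertiaSet_of_fixesTame {d : PadicAlgCl p ≃ₐ[ℚ_[p]] PadicAlgCl p}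
    (hd : FixesTame p d) : d ∈ inertiaSet ℚ_[p] (PadicAlgCl p) :=
  fun c hc => norm_sub_lt_one_of_fixesTame p hd c hc

/-- An element of `PadicAlgCl p` fixed by inertia lies in `ℚ_p^{nr}`, so if its norm is `< 1` it is
`≤ ‖p‖`. -/
theorem hunr_padic (c : PadicAlgCl p)
    (hc : ∀ σ ∈ inertiaSet ℚ_[p] (PadicAlgCl p), σ c = c) (hlt : ‖c‖ < 1) :
    ‖c‖ ≤ ‖((p : ℕ) : PadicAlgCl p)‖ := by
  have hmem : c ∈ nrField p := by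
    rw [← InfiniteGalois.fixedField_fixingSubgroup (nrField p),
      IntermediateField.mem_fixedField_iff]
    intro d hd
    exact hc d (mem_inertiaSet_of_fixesTame p (fixesTame_of_mem_fixingSubgroup p hd))
  by_cases h0 : c = 0
  · rw [h0, norm_zero]
    exact (norm_natCast_padicAlgCl_pos p).le
  obtain ⟨m, hm⟩ := (unramAt_nrField p).exists_inv_zpow hmem h0
  have h1 := norm_natCast_padicAlgCl_pos p
  have h2 := norm_natCast_padicAlgCl_lt_one p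
  rw [norm_natCast_padicAlgCl] at h1 h2 ⊢
  exact le_of_eq_zpow_of_lt_one h1 h2 hm hlt

/-- Inertia at an odd prime `p` acts non-trivially on `μ_p`. -/
theorem homega_padic (hp2 : p ≠ 2) (n : (PadicAlgCl p ≃ₐ[ℚ_[p]] PadicAlgCl p) → ℕ)
    (hn : ∀ (σ : PadicAlgCl p ≃ₐ[ℚ_[p]] PadicAlgCl p) (ζ : PadicAlgCl p), ζ ^ p = 1 →
      σ ζ = ζ ^ n σ) :
    ∃ σ₀ ∈ inertiaSet ℚ_[p] (PadicAlgCl p), ¬ n σ₀ ≡ 1 [MOD p] := by
  have : NeZero p := ⟨hp.out.ne_zero⟩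
  obtain ⟨ζ, hζ⟩ := HasEnoughRootsOfUnity.exists_primitiveRoot (PadicAlgCl p) p
  obtain ⟨d, hd, hdζ⟩ := Tame.exists_local_moves p hp2 hζ
  refine ⟨d, mem_inertiaSet_of_fixesTame p hd, fun hmod => hdζ ?_⟩
  rw [hn d ζ hζ.pow_eq_one, pow_eq_pow_of_modEq_of_kill hζ.pow_eq_one hmod, pow_one]

/-- **(CE-split) over `ℤ_[p]`, final form**: no arithmetic hypothesis left; `n σ` is any exponent
through which `σ` acts on `μ_p`. -/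
theorem ce_split_padic_final (hp2 : p ≠ 2)
    (n : (PadicAlgCl p ≃ₐ[ℚ_[p]] PadicAlgCl p) → ℕ)
    (hn : ∀ (σ : PadicAlgCl p ≃ₐ[ℚ_[p]] PadicAlgCl p) (ζ : PadicAlgCl p), ζ ^ p = 1 →
      σ ζ = ζ ^ n σ)
    {B : Type*} [CommRing B] [HopfAlgebra ℤ_[p] B] [Module.Finite ℤ_[p] B] [Module.Free ℤ_[p] B]
    [Coalgebra.IsCocomm ℤ_[p] B]
    (F1 F2 F3 : Submonoid (WithConv (B →ₐ[ℤ_[p]] PadicAlgCl p))) (h12 : F1 ≤ F2) (h23 : F2 ≤ F3)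
    (hst1 : ∀ σ : PadicAlgCl p ≃ₐ[ℚ_[p]] PadicAlgCl p, ∀ x ∈ F1, galConv σ x ∈ F1)
    (hst3 : ∀ σ : PadicAlgCl p ≃ₐ[ℚ_[p]] PadicAlgCl p, ∀ x ∈ F3, galConv σ x ∈ F3)
    (hkill : ∀ x ∈ F3, x ^ p = 1)
    (hi : ∀ f ∈ F2, ∀ σ ∈ inertiaSet ℚ_[p] (PadicAlgCl p), ∃ u ∈ F1, galConv σ f = u * f)
    (hii : ∀ f ∈ F3, ∀ σ ∈ inertiaSet ℚ_[p] (PadicAlgCl p), ∃ u ∈ F2,
      galConv σ f = u * f ^ n σ) :
    ∀ f ∈ F3, ∃ g ∈ F2, ∀ σ ∈ inertiaSet ℚ_[p] (PadicAlgCl p), ∃ u ∈ F1,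
      galConv σ (f * g) = u * (f * g) ^ n σ :=
  ce_split_padic p hp2 (hunr_padic p) n (homega_padic p hp2 n hn) F1 F2 F3 h12 h23 hst1 hst3
    hkill hi hii

/-- `hunr` for any set of automorphisms containing `Gal(Ω / ℚ_p^{nr})`. -/
theorem hunr_padic_of_subset (I : Set (PadicAlgCl p ≃ₐ[ℚ_[p]] PadicAlgCl p))
    (hI1 : ((nrField p).fixingSubgroup : Set (PadicAlgCl p ≃ₐ[ℚ_[p]] PadicAlgCl p)) ⊆ I)
    (c : PadicAlgCl p) (hc : ∀ σ ∈ I, σ c = c) (hlt : ‖c‖ < 1) :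
    ‖c‖ ≤ ‖((p : ℕ) : PadicAlgCl p)‖ := by
  have hmem : c ∈ nrField p := by
    rw [← InfiniteGalois.fixedField_fixingSubgroup (nrField p),
      IntermediateField.mem_fixedField_iff]
    intro d hd
    exact hc d (hI1 hd)
  by_cases h0 : c = 0
  · rw [h0, norm_zero]
    exact (norm_natCast_padicAlgCl_pos p).le
  obtain ⟨m, hm⟩ := (unramAt_nrField p).exists_inv_zpow hmem h0
  have h1 := norm_natCast_padicAlgCl_pos p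
  have h2 := norm_natCast_padicAlgCl_lt_one p
  rw [norm_natCast_padicAlgCl] at h1 h2 ⊢
  exact le_of_eq_zpow_of_lt_one h1 h2 hm hlt

/-- `hω` for any set of automorphisms containing `Gal(Ω / ℚ_p^{nr})`. -/
theorem homega_padic_of_subset (hp2 : p ≠ 2)
    (I : Set (PadicAlgCl p ≃ₐ[ℚ_[p]] PadicAlgCl p))
    (hI1 : ((nrField p).fixingSubgroup : Set (PadicAlgCl p ≃ₐ[ℚ_[p]] PadicAlgCl p)) ⊆ I)
    (n : (PadicAlgCl p ≃ₐ[ℚ_[p]] PadicAlgCl p) → ℕ)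
    (hn : ∀ (σ : PadicAlgCl p ≃ₐ[ℚ_[p]] PadicAlgCl p) (ζ : PadicAlgCl p), ζ ^ p = 1 →
      σ ζ = ζ ^ n σ) :
    ∃ σ₀ ∈ I, ¬ n σ₀ ≡ 1 [MOD p] := by
  have : NeZero p := ⟨hp.out.ne_zero⟩
  obtain ⟨ζ, hζ⟩ := HasEnoughRootsOfUnity.exists_primitiveRoot (PadicAlgCl p) p
  by_contra hcon
  apply Tame.primitiveRoot_not_mem_nrField p hp2 hζ
  rw [← InfiniteGalois.fixedField_fixingSubgroup (nrField p),
    IntermediateField.mem_fixedField_iff]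
  intro d hd
  have hmod : n d ≡ 1 [MOD p] := by
    by_contra h
    exact hcon ⟨d, hI1 hd, h⟩
  rw [hn d ζ hζ.pow_eq_one, pow_eq_pow_of_modEq_of_kill hζ.pow_eq_one hmod, pow_one]

/-- **(CE-split) over `ℤ_[p]`** for any set `I` of automorphisms with
`Gal(Ω / ℚ_p^{nr}) ⊆ I ⊆ inertiaSet`. -/
theorem ce_split_padic_final_of_subset (hp2 : p ≠ 2)
    (I : Set (PadicAlgCl p ≃ₐ[ℚ_[p]] PadicAlgCl p))
    (hI1 : ((nrField p).fixingSubgroup : Set (PadicAlgCl p ≃ₐ[ℚ_[p]] PadicAlgCl p)) ⊆ I)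
    (hI2 : I ⊆ inertiaSet ℚ_[p] (PadicAlgCl p))
    (n : (PadicAlgCl p ≃ₐ[ℚ_[p]] PadicAlgCl p) → ℕ)
    (hn : ∀ (σ : PadicAlgCl p ≃ₐ[ℚ_[p]] PadicAlgCl p) (ζ : PadicAlgCl p), ζ ^ p = 1 →
      σ ζ = ζ ^ n σ)
    {B : Type*} [CommRing B] [HopfAlgebra ℤ_[p] B] [Module.Finite ℤ_[p] B] [Module.Free ℤ_[p] B]
    [Coalgebra.IsCocomm ℤ_[p] B]
    (F1 F2 F3 : Submonoid (WithConv (B →ₐ[ℤ_[p]] PadicAlgCl p))) (h12 : F1 ≤ F2) (h23 : F2 ≤ F3)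
    (hst1 : ∀ σ : PadicAlgCl p ≃ₐ[ℚ_[p]] PadicAlgCl p, ∀ x ∈ F1, galConv σ x ∈ F1)
    (hst3 : ∀ σ : PadicAlgCl p ≃ₐ[ℚ_[p]] PadicAlgCl p, ∀ x ∈ F3, galConv σ x ∈ F3)
    (hkill : ∀ x ∈ F3, x ^ p = 1)
    (hi : ∀ f ∈ F2, ∀ σ ∈ I, ∃ u ∈ F1, galConv σ f = u * f)
    (hii : ∀ f ∈ F3, ∀ σ ∈ I, ∃ u ∈ F2, galConv σ f = u * f ^ n σ) :
    ∀ f ∈ F3, ∃ g ∈ F2, ∀ σ ∈ I, ∃ u ∈ F1, galConv σ (f * g) = u * (f * g) ^ n σ :=
  ce_split_of_subset p I hI2 hp2 PadicInt.maximalIdeal_eq_span_p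
    (norm_algebraMap_padicInt_algCl_le p) (norm_natCast_padicAlgCl_lt_one p)
    (hunr_padic_of_subset p I hI1) n (homega_padic_of_subset p hp2 I hI1 n hn)
    F1 F2 F3 h12 h23 hst1 hst3 hkill hi hii

/-- The set of automorphisms fixing the tame roots of unity lies between `Gal(Ω / ℚ_p^{nr})` and
the inertia set. -/
theorem fixingSubgroup_nrField_subset_fixesTame :
    ((nrField p).fixingSubgroup : Set (PadicAlgCl p ≃ₐ[ℚ_[p]] PadicAlgCl p)) ⊆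
      {d | FixesTame p d} :=
  fun _ hd => fixesTame_of_mem_fixingSubgroup p hd

end arithmetic

end Fermat.Agent.S56lib.Hopf

end
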