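/-
S56lib / Hopf / CERep (helper9).
**(CE-rep)**: the connected–étale splitting `ce_split_padic_final`, transported
* first to an abstract additive group `V` with an action of `Gal(ℚ̄_p / ℚ_p)` which is, additively
  and equivariantly, the group of `PadicAlgCl p`-points of a finite free cocommutative Hopf algebra
  over `ℤ_[p]` (`ce_split_transport`),
* then to a Galois representation `ρ` over a finite local ring killed by `p` which is flat at `p`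
  in the sense of the Prelude (`ce_split_rep_of_subset`, `ce_split_rep_gen`; the spelling with `Tame.inertiaSet`, `Tame.cycloN`
  is `ce_split_rep` in `Hopf/CERepTame.lean`), through helper6's
  bridge (Br) `Lift.exists_padicInt_model`.
-/
import Fermat.Agent.S56lib.Hopf.CEPadic
import Fermat.Agent.S56lib.Lift.FlatBr

set_option autoImplicit false
set_option linter.unusedSectionVars false
set_option linter.style.haveILetI false

noncomputable section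

namespace Fermat.Agent.S56lib.Hopf

open WithConv GaloisRep Fermat.Agent.S55lib

variable (p : ℕ) [hp : Fact p.Prime]

section transport

variable {B : Type*} [CommRing B] [HopfAlgebra ℤ_[p] B] [Module.Finite ℤ_[p] B]
  [Module.Free ℤ_[p] B] [Coalgebra.IsCocomm ℤ_[p] B]
  {V : Type*} [AddCommGroup V]

/-- **(CE-split), transported** along an additive equivariant bijection of the points onto an
abstract group `V` with an action of the local Galois group. -/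
theorem ce_split_transport (hp2 : p ≠ 2)
    (I : Set (PadicAlgCl p ≃ₐ[ℚ_[p]] PadicAlgCl p))
    (hI1 : ((nrField p).fixingSubgroup : Set (PadicAlgCl p ≃ₐ[ℚ_[p]] PadicAlgCl p)) ⊆ I)
    (hI2 : I ⊆ inertiaSet ℚ_[p] (PadicAlgCl p))
    (n : (PadicAlgCl p ≃ₐ[ℚ_[p]] PadicAlgCl p) → ℕ)
    (hn : ∀ (σ : PadicAlgCl p ≃ₐ[ℚ_[p]] PadicAlgCl p) (ζ : PadicAlgCl p), ζ ^ p = 1 →
      σ ζ = ζ ^ n σ)
    (act : (PadicAlgCl p ≃ₐ[ℚ_[p]] PadicAlgCl p) → V → V)
    (φ : WithConv (B →ₐ[ℤ_[p]] PadicAlgCl p) ≃ V)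
    (hφmul : ∀ f g, φ (f * g) = φ f + φ g)
    (hφgal : ∀ σ f, φ (galConv σ f) = act σ (φ f))
    (hkillV : ∀ v : V, p • v = 0)
    (F1 F2 F3 : AddSubgroup V) (h12 : F1 ≤ F2) (h23 : F2 ≤ F3)
    (hst1 : ∀ σ : PadicAlgCl p ≃ₐ[ℚ_[p]] PadicAlgCl p, ∀ x ∈ F1, act σ x ∈ F1)
    (hst3 : ∀ σ : PadicAlgCl p ≃ₐ[ℚ_[p]] PadicAlgCl p, ∀ x ∈ F3, act σ x ∈ F3)
    (hi : ∀ f ∈ F2, ∀ σ ∈ I, act σ f - f ∈ F1)
    (hii : ∀ f ∈ F3, ∀ σ ∈ I, act σ f - n σ • f ∈ F2) :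
    ∀ f ∈ F3, ∃ g ∈ F2, ∀ σ ∈ I, act σ (f + g) - n σ • (f + g) ∈ F1 := by
  have hφ1 : φ 1 = 0 := by
    have := hφmul 1 1
    rw [one_mul] at this
    exact left_eq_add.1 this
  have hφpow : ∀ (f : WithConv (B →ₐ[ℤ_[p]] PadicAlgCl p)) (k : ℕ), φ (f ^ k) = k • φ f := by
    intro f k
    induction k with
    | zero => rw [pow_zero, zero_smul, hφ1]
    | succ k ih => rw [pow_succ, hφmul, ih, succ_nsmul]
  -- the pulled back submonoids
  let pull : AddSubgroup V → Submonoid (WithConv (B →ₐ[ℤ_[p]] PadicAlgCl p)) := fun F =>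
    { carrier := {f | φ f ∈ F}
      one_mem' := by
        change φ 1 ∈ F
        rw [hφ1]
        exact F.zero_mem
      mul_mem' := by
        intro a b ha hb
        change φ (a * b) ∈ F
        rw [hφmul]
        exact F.add_mem ha hb }
  have hpull : ∀ (F : AddSubgroup V) (f : WithConv (B →ₐ[ℤ_[p]] PadicAlgCl p)),
      f ∈ pull F ↔ φ f ∈ F := fun _ _ => Iff.rfl
  have key := ce_split_padic_final_of_subset p hp2 I hI1 hI2 n hn (pull F1) (pull F2) (pull F3)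
    (fun f hf => h12 hf) (fun f hf => h23 hf)
    (fun σ x hx => by
      rw [hpull] at hx ⊢
      rw [hφgal]
      exact hst1 σ _ hx)
    (fun σ x hx => by
      rw [hpull] at hx ⊢
      rw [hφgal]
      exact hst3 σ _ hx)
    (fun x _ => by
      apply φ.injective
      rw [hφpow, hkillV, hφ1])
    (fun f hf σ hσ => by
      rw [hpull] at hf
      refine ⟨φ.symm (act σ (φ f) - φ f), ?_, ?_⟩
      · rw [hpull, Equiv.apply_symm_apply]
        exact hi _ hf σ hσ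
      · apply φ.injective
        rw [hφgal, hφmul, Equiv.apply_symm_apply, sub_add_cancel])
    (fun f hf σ hσ => by
      rw [hpull] at hf
      refine ⟨φ.symm (act σ (φ f) - n σ • φ f), ?_, ?_⟩
      · rw [hpull, Equiv.apply_symm_apply]
        exact hii _ hf σ hσ
      · apply φ.injective
        rw [hφgal, hφmul, hφpow, Equiv.apply_symm_apply, sub_add_cancel])
  intro f hf
  obtain ⟨g', hg', hg⟩ := key (φ.symm f) (by rw [hpull, Equiv.apply_symm_apply]; exact hf)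
  refine ⟨φ g', hg', fun σ hσ => ?_⟩
  obtain ⟨u, hu, huf⟩ := hg σ hσ
  have h1 : act σ (φ (φ.symm f * g')) = φ u + n σ • φ (φ.symm f * g') := by
    rw [← hφgal, huf, hφmul, hφpow]
  rw [hφmul, Equiv.apply_symm_apply] at h1
  rw [h1, add_sub_cancel_right]
  exact hu

end transport

section rep

variable {A : Type} [CommRing A] [IsLocalRing A] (ρ : GaloisRepAdic A)

/-- the level `⊥` quotient of `V` is `V` itself -/
def levelBotEquiv : ρ.V ≃ₗ[A] (ρ.V ⧸ ((⊥ : Ideal A) • (⊤ : Submodule A ρ.V))) :=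
  (Submodule.quotEquivOfEqBot _ (Submodule.bot_smul _)).symm

theorem levelBotEquiv_apply (v : ρ.V) :
    levelBotEquiv ρ v = Submodule.Quotient.mk v := rfl

theorem levelAction_bot (σ : AlgebraicClosure ℚ ≃ₐ[ℚ] AlgebraicClosure ℚ) (v : ρ.V) :
    ρ.levelAction ⊥ σ (levelBotEquiv ρ v) = levelBotEquiv ρ (ρ.ρ σ v) := rfl

theorem levelBotEquiv_symm_levelAction (σ : AlgebraicClosure ℚ ≃ₐ[ℚ] AlgebraicClosure ℚ)
    (x : ρ.V ⧸ ((⊥ : Ideal A) • (⊤ : Submodule A ρ.V))) :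
    (levelBotEquiv ρ).symm (ρ.levelAction ⊥ σ x) = ρ.ρ σ ((levelBotEquiv ρ).symm x) := by
  obtain ⟨v, rfl⟩ := (levelBotEquiv ρ).surjective x
  rw [levelAction_bot, LinearEquiv.symm_apply_apply, LinearEquiv.symm_apply_apply]

variable [Finite A]

/-- **(CE-rep)**, general form: any exponent function `n` computing the action on `μ_p`, any set
`I` of automorphisms between `Gal(Ω / ℚ_p^{nr})` and the inertia set. -/
theorem ce_split_rep_of_subset (hp2 : p ≠ 2)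
    (I : Set (PadicAlgCl p ≃ₐ[ℚ_[p]] PadicAlgCl p))
    (hI1 : ((nrField p).fixingSubgroup : Set (PadicAlgCl p ≃ₐ[ℚ_[p]] PadicAlgCl p)) ⊆ I)
    (hI2 : I ⊆ inertiaSet ℚ_[p] (PadicAlgCl p))
    (n : (PadicAlgCl p ≃ₐ[ℚ_[p]] PadicAlgCl p) → ℕ)
    (hn : ∀ (σ : PadicAlgCl p ≃ₐ[ℚ_[p]] PadicAlgCl p) (ζ : PadicAlgCl p), ζ ^ p = 1 →
      σ ζ = ζ ^ n σ)
    (hfl : ρ.IsFlatAt p) (hkill : (p : A) = 0)
    (F1 F2 F3 : AddSubgroup ρ.V) (h12 : F1 ≤ F2) (h23 : F2 ≤ F3)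
    (hst1 : ∀ σ : PadicAlgCl p ≃ₐ[ℚ_[p]] PadicAlgCl p, ∀ x ∈ F1,
      ρ.ρ (localGaloisToGlobal p σ) x ∈ F1)
    (hst3 : ∀ σ : PadicAlgCl p ≃ₐ[ℚ_[p]] PadicAlgCl p, ∀ x ∈ F3,
      ρ.ρ (localGaloisToGlobal p σ) x ∈ F3)
    (hi : ∀ f ∈ F2, ∀ σ ∈ I, ρ.ρ (localGaloisToGlobal p σ) f - f ∈ F1)
    (hii : ∀ f ∈ F3, ∀ σ ∈ I, ρ.ρ (localGaloisToGlobal p σ) f - n σ • f ∈ F2) :
    ∀ f ∈ F3, ∃ g ∈ F2, ∀ σ ∈ I,
      ρ.ρ (localGaloisToGlobal p σ) (f + g) - n σ • (f + g) ∈ F1 := by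
  obtain ⟨H, _, _, hfin, hflat, hcocomm, e, hadd, hequiv⟩ := hfl.2 ⊥
    (Finite.of_surjective (Ideal.Quotient.mk (⊥ : Ideal A)) Ideal.Quotient.mk_surjective)
  haveI := hfin
  haveI := hflat
  haveI := hcocomm
  have hkillX : ∀ x : ρ.V ⧸ ((⊥ : Ideal A) • (⊤ : Submodule A ρ.V)), p • x = 0 := by
    intro x
    rw [← Nat.cast_smul_eq_nsmul A, hkill, zero_smul]
  obtain ⟨B, _, _, hBfin, hBfree, hBcocomm, -, e', he'add, he'gal⟩ :=
    Lift.exists_padicInt_model p e hadd (fun σ => ρ.levelAction ⊥ σ) hequiv hkillX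
  haveI := hBfin
  haveI := hBfree
  haveI := hBcocomm
  refine ce_split_transport p hp2 I hI1 hI2 n hn
    (fun σ v => ρ.ρ (localGaloisToGlobal p σ) v)
    (e'.trans (levelBotEquiv ρ).symm.toEquiv) ?_ ?_ ?_ F1 F2 F3 h12 h23 hst1 hst3 hi hii
  · intro f g
    change (levelBotEquiv ρ).symm (e' (f * g)) =
      (levelBotEquiv ρ).symm (e' f) + (levelBotEquiv ρ).symm (e' g)
    rw [he'add, map_add]
  · intro σ f
    change (levelBotEquiv ρ).symm (e' (galConv σ f)) =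
      ρ.ρ (localGaloisToGlobal p σ) ((levelBotEquiv ρ).symm (e' f))
    rw [he'gal σ f (galConv σ f) (fun b => rfl), levelBotEquiv_symm_levelAction]
  · intro v
    rw [← Nat.cast_smul_eq_nsmul A, hkill, zero_smul]

/-- **(CE-rep)** for the full inertia set. -/
theorem ce_split_rep_gen (hp2 : p ≠ 2)
    (n : (PadicAlgCl p ≃ₐ[ℚ_[p]] PadicAlgCl p) → ℕ)
    (hn : ∀ (σ : PadicAlgCl p ≃ₐ[ℚ_[p]] PadicAlgCl p) (ζ : PadicAlgCl p), ζ ^ p = 1 →
      σ ζ = ζ ^ n σ)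
    (hfl : ρ.IsFlatAt p) (hkill : (p : A) = 0)
    (F1 F2 F3 : AddSubgroup ρ.V) (h12 : F1 ≤ F2) (h23 : F2 ≤ F3)
    (hst1 : ∀ σ : PadicAlgCl p ≃ₐ[ℚ_[p]] PadicAlgCl p, ∀ x ∈ F1,
      ρ.ρ (localGaloisToGlobal p σ) x ∈ F1)
    (hst3 : ∀ σ : PadicAlgCl p ≃ₐ[ℚ_[p]] PadicAlgCl p, ∀ x ∈ F3,
      ρ.ρ (localGaloisToGlobal p σ) x ∈ F3)
    (hi : ∀ f ∈ F2, ∀ σ ∈ inertiaSet ℚ_[p] (PadicAlgCl p),
      ρ.ρ (localGaloisToGlobal p σ) f - f ∈ F1)
    (hii : ∀ f ∈ F3, ∀ σ ∈ inertiaSet ℚ_[p] (PadicAlgCl p),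
      ρ.ρ (localGaloisToGlobal p σ) f - n σ • f ∈ F2) :
    ∀ f ∈ F3, ∃ g ∈ F2, ∀ σ ∈ inertiaSet ℚ_[p] (PadicAlgCl p),
      ρ.ρ (localGaloisToGlobal p σ) (f + g) - n σ • (f + g) ∈ F1 :=
  ce_split_rep_of_subset p ρ hp2 _
    (fun _ hd => mem_inertiaSet_of_fixesTame p (fixesTame_of_mem_fixingSubgroup p hd))
    subset_rfl n hn hfl hkill F1 F2 F3 h12 h23 hst1 hst3 hi hii

end rep

end Fermat.Agent.S56lib.Hopf

end
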