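/-
S56lib / Hopf / CERepTame (helper9).
**(CE-rep)** in helper3's spelling (#2060): the inertia set `Tame.inertiaSet p` and the exponent
`Tame.cycloN p` of the mod `p` cyclotomic character of helper4's `Tame/CEArith.lean`.
-/
import Fermat.Agent.S56lib.Hopf.CERep
import Fermat.Agent.S56lib.Tame.CEArith

set_option autoImplicit false
set_option linter.unusedSectionVars false

noncomputable section

namespace Fermat.Agent.S56lib.Hopf

open Fermat.Agent.S55lib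

variable (p : ℕ) [hp : Fact p.Prime]

/-- **(CE-rep)**: for a representation `ρ` over a finite local ring killed by `p`, flat at `p`,
and a filtration `F1 ≤ F2 ≤ F3` of `ρ.V` by subgroups, `F1`, `F3` stable under the local Galois
group, inertia acting trivially on `F2 / F1` and through the mod `p` cyclotomic character on
`F3 / F2`: the extension `0 → F2/F1 → F3/F1 → F3/F2 → 0` splits over inertia. -/
theorem ce_split_rep (hp2 : p ≠ 2) {A : Type} [CommRing A] [IsLocalRing A] [Finite A]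
    (ρ : GaloisRepAdic A) (hfl : ρ.IsFlatAt p) (hkill : (p : A) = 0)
    (F1 F2 F3 : AddSubgroup ρ.V) (h12 : F1 ≤ F2) (h23 : F2 ≤ F3)
    (hst1 : ∀ σ : PadicAlgCl p ≃ₐ[ℚ_[p]] PadicAlgCl p, ∀ x ∈ F1,
      ρ.ρ (localGaloisToGlobal p σ) x ∈ F1)
    (hst3 : ∀ σ : PadicAlgCl p ≃ₐ[ℚ_[p]] PadicAlgCl p, ∀ x ∈ F3,
      ρ.ρ (localGaloisToGlobal p σ) x ∈ F3)
    (hi : ∀ f ∈ F2, ∀ σ ∈ Tame.inertiaSet p, ρ.ρ (localGaloisToGlobal p σ) f - f ∈ F1)
    (hii : ∀ f ∈ F3, ∀ σ ∈ Tame.inertiaSet p,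
      ρ.ρ (localGaloisToGlobal p σ) f - (Tame.cycloN p σ) • f ∈ F2) :
    ∀ f ∈ F3, ∃ g ∈ F2, ∀ σ ∈ Tame.inertiaSet p,
      ρ.ρ (localGaloisToGlobal p σ) (f + g) - (Tame.cycloN p σ) • (f + g) ∈ F1 :=
  ce_split_rep_gen p ρ hp2 (Tame.cycloN p) (Tame.apply_eq_pow_cycloN p) hfl hkill F1 F2 F3
    h12 h23 hst1 hst3 hi hii

end Fermat.Agent.S56lib.Hopf

end
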