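/-
S56lib / Hopf / Exc (helper9).
**(Exc)** (helper3 #2076): inertia versus the tame generator.
* `resMap_of_mem_inertiaSet` : an element of the inertia set `Tame.inertiaSet p` induces the
  identity on the residue field of every finite normal `K ⊆ ℚ̄_p`;
* `char_on_inertia` : if every `g ∈ Γ` trivial on the residue field of `K` is `τ ^ j` modulo
  `Γ_K` [(TS-tame)(a)], `ζ_p ∈ K`, `τ ζ = ζ ^ n`, then a character `χ` of `Γ` trivial on `Γ_K`
  with `χ τ = 1` is trivial on inertia, and one with `χ τ = n` is the mod `p` cyclotomic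
  character `Tame.cycloN p` on inertia.
-/
import Fermat.Agent.S56lib.Kum.Dual
import Fermat.Agent.S56lib.Tame.CEArith

set_option autoImplicit false
set_option linter.unusedSectionVars false
set_option linter.style.haveILetI false

open scoped NormedField Valued NNReal

noncomputable section

namespace Fermat.Agent.S56lib.Flat

open Fermat.Agent.S56lib.Kum Fermat.Agent.S55lib Fermat.Agent.S55lib.LocalUnr

variable {p : ℕ} [hp : Fact p.Prime]

variable (K : IntermediateField ℚ_[p] (PadicAlgCl p)) [FiniteDimensional ℚ_[p] K]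
  [Normal ℚ_[p] K]

/-- **(Exc)(i)**: inertia acts trivially on the residue field of `K` -/
theorem resMap_of_mem_inertiaSet {σ : PadicAlgCl p ≃ₐ[ℚ_[p]] PadicAlgCl p}
    (hσ : σ ∈ Tame.inertiaSet p) (x : 𝓀[K]) :
    resMap (resAut K σ) (norm_resAut K σ) x = x := by
  obtain ⟨a, rfl⟩ := IsLocalRing.residue_surjective x
  rw [resMap_residue]
  have h1 : intMap (resAut K σ) (norm_resAut K σ) a - a ∈ 𝓂[K] := by
    rw [mem_maximalIdeal_iff]
    have ha : ‖((a : K) : PadicAlgCl p)‖ ≤ 1 := Valued.integer.mem_iff.1 a.2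
    have h2 := hσ ((a : K) : PadicAlgCl p) ha
    have h3 : ((((intMap (resAut K σ) (norm_resAut K σ) a - a : 𝒪[K]) : K)) : PadicAlgCl p) =
        σ ((a : K) : PadicAlgCl p) - ((a : K) : PadicAlgCl p) := by
      push_cast
      rw [coe_intMap, coe_resAut]
    change ‖((((intMap (resAut K σ) (norm_resAut K σ) a - a : 𝒪[K]) : K)) : PadicAlgCl p)‖ < 1
    rw [h3]
    exact h2
  exact (Ideal.Quotient.eq.2 h1)

variable {K}

/-- **(Exc)(ii)** -/
theorem char_on_inertia {τ : PadicAlgCl p ≃ₐ[ℚ_[p]] PadicAlgCl p}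
    (hTS : ∀ g : PadicAlgCl p ≃ₐ[ℚ_[p]] PadicAlgCl p,
      (∀ x, resMap (resAut K g) (norm_resAut K g) x = x) →
        ∃ j : ℕ, g * (τ ^ j)⁻¹ ∈ K.fixingSubgroup)
    {ζ : PadicAlgCl p} (hζ : IsPrimitiveRoot ζ p) (hζK : ζ ∈ K) {n : ℕ} (hn : τ ζ = ζ ^ n)
    {k : Type*} [Field k] [CharP k p]
    (χ : (PadicAlgCl p ≃ₐ[ℚ_[p]] PadicAlgCl p) →* kˣ)
    (hχ : ∀ g ∈ K.fixingSubgroup, χ g = 1) :
    (χ τ = 1 → ∀ σ ∈ Tame.inertiaSet p, χ σ = 1) ∧
    (((χ τ : kˣ) : k) = (n : k) → ∀ σ ∈ Tame.inertiaSet p,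
      ((χ σ : kˣ) : k) = ((Tame.cycloN p σ : ℕ) : k)) := by
  -- the decomposition `σ = h * τ ^ j`
  have key : ∀ σ ∈ Tame.inertiaSet p, ∃ j : ℕ, χ σ = χ τ ^ j ∧
      (n ^ j : ℕ) ≡ Tame.cycloN p σ [MOD p] := by
    intro σ hσ
    obtain ⟨j, hj⟩ := hTS σ (resMap_of_mem_inertiaSet K hσ)
    refine ⟨j, ?_, ?_⟩
    · have h1 := hχ _ hj
      rw [map_mul, map_inv, map_pow, mul_inv_eq_one] at h1
      exact h1
    · have h2 : (σ * (τ ^ j)⁻¹) ζ = ζ :=
        (IntermediateField.mem_fixingSubgroup_iff K _).1 hj ζ hζK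
      have h3 : ∀ i : ℕ, (τ ^ i) ζ = ζ ^ (n ^ i) := by
        intro i
        induction i with
        | zero => simp
        | succ i ih =>
          rw [pow_succ, AlgEquiv.mul_apply, hn, map_pow, ih, ← pow_mul, pow_succ]
      have h4 : σ ζ = ζ ^ (n ^ j) := by
        have h5 : σ ζ = (σ * (τ ^ j)⁻¹) ((τ ^ j) ζ) := by
          rw [AlgEquiv.mul_apply]
          congr 1
          change ζ = (τ ^ j).symm ((τ ^ j) ζ)
          rw [AlgEquiv.symm_apply_apply]
        rw [h5, h3, map_pow, h2]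
      have h6 : σ ζ = ζ ^ Tame.cycloN p σ := Tame.apply_eq_pow_cycloN p σ ζ hζ.pow_eq_one
      rw [h4] at h6
      rw [pow_eq_pow_mod (n ^ j) hζ.pow_eq_one,
        pow_eq_pow_mod (Tame.cycloN p σ) hζ.pow_eq_one] at h6
      exact hζ.pow_inj (Nat.mod_lt _ hp.out.pos) (Nat.mod_lt _ hp.out.pos) h6
  refine ⟨fun h1 σ hσ => ?_, fun h1 σ hσ => ?_⟩
  · obtain ⟨j, hj, -⟩ := key σ hσ
    rw [hj, h1, one_pow]
  · obtain ⟨j, hj, hmod⟩ := key σ hσ
    rw [hj, Units.val_pow_eq_pow_val, h1, ← (CharP.natCast_eq_natCast k p).2 hmod]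
    push_cast
    rfl

end Fermat.Agent.S56lib.Flat

end
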