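/-
S56lib / Hopf / RCase (helper9).
**(R-case)** (helper3 #2086): `Flat.exists_good_of_reducible` — the good subgroup `𝒢` of cochains
and the count `#(Zad r Γ_L ⊓ 𝒢) ≤ #k ^ 4` when `ρ̄|_{G_p}` has a stable line.
Glue of helper7's (Tri)/(FF), helper6's (TD), helper3's `TameSetup` counts, helper5's `Flat/Dev`,
helper4's (CE-mat) and (Exc).
-/
import Fermat.Agent.S56lib.Hopf.Exc
import Fermat.Agent.S56lib.Lift.TD
import Fermat.Agent.S56lib.PT9a.Tri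
import Fermat.Agent.S56lib.Dict.CEMatFlat

set_option autoImplicit false
set_option linter.unusedSectionVars false
set_option linter.style.haveILetI false

open scoped NormedField Valued NNReal

noncomputable section

namespace Fermat.Agent.S56lib.Flat

open Fermat.Agent.S56lib.Kum Fermat.Agent.S55lib Fermat.Agent.S55lib.LocalUnr
  Fermat.Agent.S56lib.Dict Fermat.Agent.S56lib.PT9a Matrix

namespace RCase

/-! ### Algebra of conjugated cochains -/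

section Alg

variable {G : Type*} [Group G] {k : Type*} [Field k]

/-- the lower left entry of the conjugated cochain, as an additive map -/
def llHom (P : Matrix (Fin 2) (Fin 2) k) :
    (G → Matrix (Fin 2) (Fin 2) k) →+ (G → k) where
  toFun c := fun g => (P * c g * P⁻¹) 1 0
  map_zero' := by
    funext g
    simp
  map_add' c c' := by
    funext g
    simp [Matrix.mul_add, Matrix.add_mul]

theorem llHom_apply (P : Matrix (Fin 2) (Fin 2) k) (c : G → Matrix (Fin 2) (Fin 2) k) (g : G) :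
    llHom P c g = (P * c g * P⁻¹) 1 0 := rfl

/-- the coboundary of a matrix -/
def cobMatHom (r : G →* Matrix (Fin 2) (Fin 2) k) :
    Matrix (Fin 2) (Fin 2) k →+ (G → Matrix (Fin 2) (Fin 2) k) where
  toFun m := fun g => r g * m * r g⁻¹ - m
  map_zero' := by
    funext g
    simp
  map_add' m m' := by
    funext g
    simp only [Pi.add_apply, Matrix.mul_add, Matrix.add_mul]
    abel

theorem cobMatHom_apply (r : G →* Matrix (Fin 2) (Fin 2) k) (m : Matrix (Fin 2) (Fin 2) k)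
    (g : G) : cobMatHom r m g = r g * m * r g⁻¹ - m := rfl

theorem card_range_cobMatHom_le [Finite k] (r : G →* Matrix (Fin 2) (Fin 2) k) :
    Nat.card (cobMatHom r).range ≤ Nat.card k ^ 4 := by
  have h1 : Nat.card (cobMatHom r).range ≤ Nat.card (Matrix (Fin 2) (Fin 2) k) :=
    Nat.card_le_card_of_surjective (fun m => (⟨cobMatHom r m, ⟨m, rfl⟩⟩ : (cobMatHom r).range))
      (by rintro ⟨_, m, rfl⟩; exact ⟨m, rfl⟩)
  have h2 : Nat.card (Matrix (Fin 2) (Fin 2) k) = Nat.card k ^ 4 := by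
    unfold Matrix
    rw [Nat.card_fun, Nat.card_fun, Nat.card_fin, ← pow_mul]
  exact h1.trans h2.le

instance finite_range_cobMatHom [Finite k] (r : G →* Matrix (Fin 2) (Fin 2) k) :
    Finite (cobMatHom r).range :=
  Finite.of_surjective (fun m => (⟨cobMatHom r m, ⟨m, rfl⟩⟩ : (cobMatHom r).range))
    (by rintro ⟨_, m, rfl⟩; exact ⟨m, rfl⟩)

/-- the lower left entry of a conjugated coboundary, for `P r P⁻¹` upper triangular -/
theorem llHom_cobMatHom (r r' : G →* Matrix (Fin 2) (Fin 2) k)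
    {P : Matrix (Fin 2) (Fin 2) k} (hQP : P⁻¹ * P = 1)
    (hr' : ∀ g, r' g = P * r g * P⁻¹) (htri : ∀ g, r' g 1 0 = 0) (χ₁ χ₂ : G →* kˣ)
    (h₁ : ∀ g, r' g 0 0 = χ₁ g) (h₂ : ∀ g, r' g 1 1 = χ₂ g) (m : Matrix (Fin 2) (Fin 2) k) :
    llHom P (cobMatHom r m) ∈ cobSub (χ₂ / χ₁) := by
  rw [mem_cobSub]
  refine ⟨(P * m * P⁻¹) 1 0, fun g => ?_⟩
  rw [llHom_apply, cobMatHom_apply]
  have h1 : P * (r g * m * r g⁻¹ - m) * P⁻¹ =
      r' g * (P * m * P⁻¹) * r' g⁻¹ - P * m * P⁻¹ := by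
    rw [hr' g, hr' g⁻¹, Matrix.mul_sub, Matrix.sub_mul]
    congr 1
    calc P * (r g * m * r g⁻¹) * P⁻¹
        = P * r g * (1 : Matrix (Fin 2) (Fin 2) k) * m * (1 : Matrix (Fin 2) (Fin 2) k) *
            r g⁻¹ * P⁻¹ := by
          simp only [Matrix.mul_one, Matrix.mul_assoc]
      _ = P * r g * P⁻¹ * (P * m * P⁻¹) * (P * r g⁻¹ * P⁻¹) := by
          rw [← hQP]
          simp only [Matrix.mul_assoc]
  rw [h1, Matrix.sub_apply, tri_conj_10 r' htri χ₁ χ₂ h₁ h₂ g]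
  ring

end Alg

/-! ### The good subgroup -/

section Main

variable {p : ℕ} [hp : Fact p.Prime]
variable {k : Type} [Field k] [Finite k] [CharP k p]

local notation "Γp" => (PadicAlgCl p ≃ₐ[ℚ_[p]] PadicAlgCl p)
local notation "Γℚ" => (AlgebraicClosure ℚ ≃ₐ[ℚ] AlgebraicClosure ℚ)
local notation "l2g" => localGaloisToGlobal p

/-- the conclusion of `exists_good`, for a given `𝒢` -/
def IsGoodSub (rb : Γℚ →* Matrix (Fin 2) (Fin 2) k)
    (L₀ : IntermediateField ℚ_[p] (PadicAlgCl p))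
    (𝒢 : AddSubgroup (Γp → Matrix (Fin 2) (Fin 2) k)) : Prop :=
  (∀ m : Matrix (Fin 2) (Fin 2) k, m.trace = 0 →
      (fun g : Γp => rb (l2g g) * m * rb (l2g g)⁻¹ - m) ∈ 𝒢) ∧
  (∀ (c : Γℚ → Matrix (Fin 2) (Fin 2) k) (hc : IsCocycle rb c) (hs : IsSmoothCochain rb c),
      (liftRep rb c hc hs).IsFlatAt p → (fun g : Γp => c (l2g g)) ∈ 𝒢) ∧
  ∀ (L : IntermediateField ℚ_[p] (PadicAlgCl p)) [FiniteDimensional ℚ_[p] L]
    [Normal ℚ_[p] L], L₀ ≤ L → IsBdd p L →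
      Nat.card ↥(Zad (rb.comp (localGaloisToGlobal p)) L.fixingSubgroup ⊓ 𝒢) ≤ Nat.card k ^ 4

theorem cob_eq_cobMatHom (rb : Γℚ →* Matrix (Fin 2) (Fin 2) k) (m : Matrix (Fin 2) (Fin 2) k) :
    (fun g : Γp => rb (l2g g) * m * rb (l2g g)⁻¹ - m) =
      cobMatHom (rb.comp (localGaloisToGlobal p)) m := by
  funext g
  rw [cobMatHom_apply, MonoidHom.comp_apply, MonoidHom.comp_apply,
    map_inv (localGaloisToGlobal p) g]

/-- **sub-case A**: `χ₂` trivial and `χ₁` cyclotomic on the tame generator -/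
theorem isGoodSub_caseA (hp2 : p ≠ 2) (rb : Γℚ →* Matrix (Fin 2) (Fin 2) k)
    (L₀ : IntermediateField ℚ_[p] (PadicAlgCl p)) [FiniteDimensional ℚ_[p] L₀]
    [Normal ℚ_[p] L₀] (hL₀ : IsBdd p L₀)
    (K : IntermediateField ℚ_[p] (PadicAlgCl p)) [FiniteDimensional ℚ_[p] K] [Normal ℚ_[p] K]
    (hKL₀ : K ≤ L₀) {ζ : PadicAlgCl p} {τ φ : Γp} {n N : ℕ}
    (hS : ∀ (L : IntermediateField ℚ_[p] (PadicAlgCl p)) [FiniteDimensional ℚ_[p] L]
      [Normal ℚ_[p] L], K ≤ L → IsBdd p L → TameSetup K L ζ τ φ n N)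
    (P : Matrix (Fin 2) (Fin 2) k) (hP : IsUnit P) (χ₁ χ₂ : Γp →* kˣ)
    (h10 : ∀ g : Γp, (P * rb (l2g g) * P⁻¹) 1 0 = 0)
    (h00 : ∀ g : Γp, (P * rb (l2g g) * P⁻¹) 0 0 = (χ₁ g : k))
    (h11 : ∀ g : Γp, (P * rb (l2g g) * P⁻¹) 1 1 = (χ₂ g : k))
    (hχ₁K : ∀ g ∈ K.fixingSubgroup, χ₁ g = 1) (hχ₂K : ∀ g ∈ K.fixingSubgroup, χ₂ g = 1)
    (hA1 : χ₂ τ = 1) (hA2 : ((χ₁ τ : kˣ) : k) = (n : k)) :
    IsGoodSub rb L₀ ((cobSub (χ₂ / χ₁)).comap (llHom P)) := by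
  have hdet : IsUnit P.det := (Matrix.isUnit_iff_isUnit_det P).1 hP
  have hPQ : P * P⁻¹ = 1 := Matrix.mul_nonsing_inv P hdet
  have hQP : P⁻¹ * P = 1 := Matrix.nonsing_inv_mul P hdet
  have S₀ := hS L₀ hKL₀ hL₀
  have hχ₂I := (char_on_inertia S₀.hgenτ S₀.hζ S₀.hζK S₀.hn χ₂ hχ₂K).1 hA1
  have hχ₁I := (char_on_inertia S₀.hgenτ S₀.hζ S₀.hζK S₀.hn χ₁ hχ₁K).2 hA2
  set r := rb.comp (localGaloisToGlobal p) with hr
  set r' := conjHom r P P⁻¹ hQP with hr'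
  refine ⟨fun m _ => ?_, fun c hc hs hfl => ?_, fun L _ _ hL₀L hLbdd => ?_⟩
  · rw [cob_eq_cobMatHom, AddSubgroup.mem_comap]
    exact llHom_cobMatHom r r' hQP (fun g => rfl) h10 χ₁ χ₂ h00 h11 m
  · obtain ⟨d, hd⟩ := ceMat_lowerLeft_of_isFlatAt p hc hs hp2 hfl P hP χ₁ χ₂ h10 h00 h11
      hχ₁I hχ₂I
    rw [AddSubgroup.mem_comap, mem_cobSub]
    refine ⟨d, fun g => ?_⟩
    rw [llHom_apply, hd g, MonoidHom.div_apply, Units.val_div_eq_div_val]
  · have S := hS L (hKL₀.trans hL₀L) hLbdd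
    haveI := finite_quotient_fixingSubgroup L
    let j : ↥(Zad r L.fixingSubgroup ⊓ (cobSub (χ₂ / χ₁)).comap (llHom P)) →
        ZadB r' L.fixingSubgroup (cobSub (χ₂ / χ₁)) := fun c =>
      ⟨fun g => P * c.1 g * P⁻¹, ⟨conj_mem_Zad hPQ hQP (fun g => rfl) c.2.1, c.2.2⟩⟩
    have hj : Function.Injective j := by
      intro c c' h
      apply Subtype.ext
      funext g
      have h1 : P * c.1 g * P⁻¹ = P * c'.1 g * P⁻¹ := congrFun (congrArg Subtype.val h) g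
      calc c.1 g = P⁻¹ * (P * c.1 g * P⁻¹) * P := by
            rw [Matrix.mul_assoc, Matrix.mul_assoc, hQP, Matrix.mul_one, ← Matrix.mul_assoc, hQP,
              Matrix.one_mul]
        _ = P⁻¹ * (P * c'.1 g * P⁻¹) * P := by rw [h1]
        _ = c'.1 g := by
            rw [Matrix.mul_assoc, Matrix.mul_assoc, hQP, Matrix.mul_one, ← Matrix.mul_assoc, hQP,
              Matrix.one_mul]
    exact (Nat.card_le_card_of_injective j hj).trans
      (S.card_ZadB_le_of_triangular hp2 r' h10 χ₁ χ₂ h00 h11 hχ₁K hχ₂K)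

/-- **non-exceptional case**: `𝒢 = ⊤` -/
theorem isGoodSub_top (hp2 : p ≠ 2) (rb : Γℚ →* Matrix (Fin 2) (Fin 2) k)
    (L₀ : IntermediateField ℚ_[p] (PadicAlgCl p)) [FiniteDimensional ℚ_[p] L₀]
    [Normal ℚ_[p] L₀]
    (K : IntermediateField ℚ_[p] (PadicAlgCl p)) [FiniteDimensional ℚ_[p] K] [Normal ℚ_[p] K]
    (hKL₀ : K ≤ L₀) {ζ : PadicAlgCl p} {τ φ : Γp} {n N : ℕ}
    (hS : ∀ (L : IntermediateField ℚ_[p] (PadicAlgCl p)) [FiniteDimensional ℚ_[p] L]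
      [Normal ℚ_[p] L], K ≤ L → IsBdd p L → TameSetup K L ζ τ φ n N)
    (P : Matrix (Fin 2) (Fin 2) k) (hP : IsUnit P) (χ₁ χ₂ : Γp →* kˣ)
    (h10 : ∀ g : Γp, (P * rb (l2g g) * P⁻¹) 1 0 = 0)
    (h00 : ∀ g : Γp, (P * rb (l2g g) * P⁻¹) 0 0 = (χ₁ g : k))
    (h11 : ∀ g : Γp, (P * rb (l2g g) * P⁻¹) 1 1 = (χ₂ g : k))
    (hχ₁K : ∀ g ∈ K.fixingSubgroup, χ₁ g = 1) (hχ₂K : ∀ g ∈ K.fixingSubgroup, χ₂ g = 1)
    (hne : ¬ (((((χ₁ / χ₂) τ : kˣ)) : k) = (n : k) ∧ ((((χ₂ / χ₁) τ : kˣ)) : k) = (n : k))) :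
    IsGoodSub rb L₀ ⊤ := by
  have hdet : IsUnit P.det := (Matrix.isUnit_iff_isUnit_det P).1 hP
  have hQP : P⁻¹ * P = 1 := Matrix.nonsing_inv_mul P hdet
  set r := rb.comp (localGaloisToGlobal p) with hr
  set r' := conjHom r P P⁻¹ hQP with hr'
  refine ⟨fun m _ => AddSubgroup.mem_top _, fun c hc hs hfl => AddSubgroup.mem_top _,
    fun L _ _ hL₀L hLbdd => ?_⟩
  have S := hS L (hKL₀.trans hL₀L) hLbdd
  rw [inf_top_eq, ← card_Zad_conj (r := r) (r' := r') hP (fun g => rfl)]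
  exact S.card_Zad_le_of_triangular hp2 r' h10 χ₁ χ₂ h00 h11 hχ₁K hχ₂K hne

/-- **no flat lift**: `𝒢 =` the coboundaries -/
theorem isGoodSub_cob (rb : Γℚ →* Matrix (Fin 2) (Fin 2) k)
    (L₀ : IntermediateField ℚ_[p] (PadicAlgCl p))
    (hno : ∀ (c : Γℚ → Matrix (Fin 2) (Fin 2) k) (hc : IsCocycle rb c)
      (hs : IsSmoothCochain rb c), ¬ (liftRep rb c hc hs).IsFlatAt p) :
    IsGoodSub rb L₀ (cobMatHom (rb.comp (localGaloisToGlobal p))).range := by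
  refine ⟨fun m _ => ?_, fun c hc hs hfl => absurd hfl (hno c hc hs),
    fun L _ _ _ _ => ?_⟩
  · rw [cob_eq_cobMatHom]
    exact ⟨m, rfl⟩
  · refine le_trans ?_ (card_range_cobMatHom_le (rb.comp (localGaloisToGlobal p)))
    exact Nat.card_le_card_of_injective
      (fun c => (⟨c.1, c.2.2⟩ : (cobMatHom (rb.comp (localGaloisToGlobal p))).range))
      (fun c c' h => Subtype.ext (congrArg
        (fun x : (cobMatHom (rb.comp (localGaloisToGlobal p))).range =>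
          (x : Γp → Matrix (Fin 2) (Fin 2) k)) h))

/-- **sub-case B** (`χ₁` trivial and `χ₂` cyclotomic on the tame generator), when a flat lift
exists: `ρ̄` is split, and after swapping the eigenlines we are in sub-case A. -/
theorem isGoodSub_caseB (hp2 : p ≠ 2) (rb : Γℚ →* Matrix (Fin 2) (Fin 2) k)
    (L₀ : IntermediateField ℚ_[p] (PadicAlgCl p)) [FiniteDimensional ℚ_[p] L₀]
    [Normal ℚ_[p] L₀] (hL₀ : IsBdd p L₀)
    (K : IntermediateField ℚ_[p] (PadicAlgCl p)) [FiniteDimensional ℚ_[p] K] [Normal ℚ_[p] K]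
    (hKL₀ : K ≤ L₀) {ζ : PadicAlgCl p} {τ φ : Γp} {n N : ℕ}
    (hS : ∀ (L : IntermediateField ℚ_[p] (PadicAlgCl p)) [FiniteDimensional ℚ_[p] L]
      [Normal ℚ_[p] L], K ≤ L → IsBdd p L → TameSetup K L ζ τ φ n N)
    (P : Matrix (Fin 2) (Fin 2) k) (hP : IsUnit P) (χ₁ χ₂ : Γp →* kˣ)
    (h10 : ∀ g : Γp, (P * rb (l2g g) * P⁻¹) 1 0 = 0)
    (h00 : ∀ g : Γp, (P * rb (l2g g) * P⁻¹) 0 0 = (χ₁ g : k))
    (h11 : ∀ g : Γp, (P * rb (l2g g) * P⁻¹) 1 1 = (χ₂ g : k))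
    (hχ₁K : ∀ g ∈ K.fixingSubgroup, χ₁ g = 1) (hχ₂K : ∀ g ∈ K.fixingSubgroup, χ₂ g = 1)
    (hB1 : χ₁ τ = 1) (hB2 : ((χ₂ τ : kˣ) : k) = (n : k))
    {c₀ : Γℚ → Matrix (Fin 2) (Fin 2) k} (hc₀ : IsCocycle rb c₀) (hs₀ : IsSmoothCochain rb c₀)
    (hfl₀ : (liftRep rb c₀ hc₀ hs₀).IsFlatAt p) :
    ∃ 𝒢 : AddSubgroup (Γp → Matrix (Fin 2) (Fin 2) k), IsGoodSub rb L₀ 𝒢 := by
  have S₀ := hS L₀ hKL₀ hL₀
  have hχ₁I := (char_on_inertia S₀.hgenτ S₀.hζ S₀.hζK S₀.hn χ₁ hχ₁K).1 hB1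
  have hχ₂I := (char_on_inertia S₀.hgenτ S₀.hζ S₀.hζK S₀.hn χ₂ hχ₂K).2 hB2
  obtain ⟨a, ha⟩ := ceMat_upperRight_of_isFlatAt p hc₀ hs₀ hp2 hfl₀ P hP χ₁ χ₂ h10 h00 h11
    hχ₁I hχ₂I
  set T : Matrix (Fin 2) (Fin 2) k := !![0, 1; 1, -a] with hT
  set Ti : Matrix (Fin 2) (Fin 2) k := !![a, 1; 1, 0] with hTi
  have hTTi : T * Ti = 1 := by
    rw [hT, hTi]
    ext i j
    fin_cases i <;> fin_cases j <;> simp [Matrix.mul_apply, Fin.sum_univ_two]
  have hTinv : T⁻¹ = Ti := Matrix.inv_eq_right_inv hTTi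
  have hTu : IsUnit T := IsUnit.of_mul_eq_one Ti hTTi
  have hP' : IsUnit (T * P) := hTu.mul hP
  have hconj : ∀ g : Γp, T * P * rb (l2g g) * (T * P)⁻¹ =
      T * (P * rb (l2g g) * P⁻¹) * Ti := by
    intro g
    rw [Matrix.mul_inv_rev, hTinv]
    simp only [Matrix.mul_assoc]
  have key : ∀ g : Γp, (T * (P * rb (l2g g) * P⁻¹) * Ti) 1 0 = 0 ∧
      (T * (P * rb (l2g g) * P⁻¹) * Ti) 0 0 = (χ₂ g : k) ∧
      (T * (P * rb (l2g g) * P⁻¹) * Ti) 1 1 = (χ₁ g : k) := by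
    intro g
    have e10 := h10 g
    have e00 := h00 g
    have e11 := h11 g
    have e01 := ha g
    set M := P * rb (l2g g) * P⁻¹ with hM
    refine ⟨?_, ?_, ?_⟩
    · simp only [hT, hTi, Matrix.mul_apply, Fin.sum_univ_two, Matrix.of_apply,
        Matrix.cons_val', Matrix.cons_val_zero, Matrix.cons_val_one, Matrix.empty_val',
        Matrix.cons_val_fin_one]
      rw [e10, e00, e11, e01]
      ring
    · simp only [hT, hTi, Matrix.mul_apply, Fin.sum_univ_two, Matrix.of_apply,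
        Matrix.cons_val', Matrix.cons_val_zero, Matrix.cons_val_one, Matrix.empty_val',
        Matrix.cons_val_fin_one]
      rw [e10, e11]
      ring
    · simp only [hT, hTi, Matrix.mul_apply, Fin.sum_univ_two, Matrix.of_apply,
        Matrix.cons_val', Matrix.cons_val_zero, Matrix.cons_val_one, Matrix.empty_val',
        Matrix.cons_val_fin_one]
      rw [e10, e00]
      ring
  exact ⟨_, isGoodSub_caseA hp2 rb L₀ hL₀ K hKL₀ hS (T * P) hP' χ₂ χ₁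
    (fun g => by rw [hconj g]; exact (key g).1)
    (fun g => by rw [hconj g]; exact (key g).2.1)
    (fun g => by rw [hconj g]; exact (key g).2.2) hχ₂K hχ₁K hB1 hB2⟩

/-- the cyclotomic exponent of a tame generator is not `1` -/
theorem natCast_ne_one_of_tameSetup {K L : IntermediateField ℚ_[p] (PadicAlgCl p)}
    [FiniteDimensional ℚ_[p] K] [Normal ℚ_[p] K] [FiniteDimensional ℚ_[p] L]
    {ζ : PadicAlgCl p} {τ φ : Γp} {n N : ℕ} (S : TameSetup K L ζ τ φ n N) (hp2 : p ≠ 2) :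
    ((n : ℕ) : k) ≠ 1 := by
  intro h
  have hpK := norm_natCast_lt_one_padic K
  haveI := charP_residue K hp.out hpK
  have h1 : n ≡ 1 [MOD p] := by
    apply (CharP.natCast_eq_natCast k p).1
    rw [h, Nat.cast_one]
  have h2 : ((n : ℕ) : 𝓀[K]) ^ 1 = 1 := by
    have := (CharP.natCast_eq_natCast 𝓀[K] p).2 h1
    rw [pow_one, this, Nat.cast_one]
  have h3 := (natCast_pow_eq_one_iff hp.out hpK natCast_ne_zero_sub
    (isPrimitiveRoot_sub S.hζ S.hζK) (norm_resAut K τ) S.hτ.res (resAut_zeta S.hζK S.hn)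
    S.hτ.ord 1).1 h2
  have h4 := Nat.le_of_dvd (by norm_num) h3
  have := hp.out.two_le
  omega

/-- `n` is the value of the mod `p` cyclotomic character at `τ` -/
theorem natCast_eq_cycloN {ζ : PadicAlgCl p} (hζ : IsPrimitiveRoot ζ p) {τ : Γp} {n : ℕ}
    (hn : τ ζ = ζ ^ n) : ((n : ℕ) : k) = ((Tame.cycloN p τ : ℕ) : k) := by
  apply (CharP.natCast_eq_natCast k p).2
  have h6 : τ ζ = ζ ^ Tame.cycloN p τ := Tame.apply_eq_pow_cycloN p τ ζ hζ.pow_eq_one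
  rw [hn] at h6
  rw [pow_eq_pow_mod n hζ.pow_eq_one,
    pow_eq_pow_mod (Tame.cycloN p τ) hζ.pow_eq_one] at h6
  exact hζ.pow_inj (Nat.mod_lt _ hp.out.pos) (Nat.mod_lt _ hp.out.pos) h6

/-- the order of `kˣ × kˣ` is prime to `p` -/
theorem not_dvd_card_units_prod : ¬ p ∣ Nat.card (kˣ × kˣ) := by
  haveI : Fintype k := Fintype.ofFinite k
  obtain ⟨f, -, hf⟩ := FiniteField.card k p
  have hq : p ∣ Nat.card k := by
    rw [Nat.card_eq_fintype_card, hf]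
    exact dvd_pow_self p (PNat.ne_zero f)
  have hq1 : 1 ≤ Nat.card k := Nat.card_pos
  have h1 : ¬ p ∣ Nat.card k - 1 := by
    intro h
    have h2 : p ∣ Nat.card k - (Nat.card k - 1) := Nat.dvd_sub hq h
    have h3 : Nat.card k - (Nat.card k - 1) = 1 := by omega
    rw [h3] at h2
    exact hp.out.one_lt.ne' (Nat.dvd_one.1 h2)
  rw [Nat.card_prod, Nat.card_units]
  intro h
  rcases (Nat.Prime.dvd_mul hp.out).1 h with h' | h' <;> exact h1 h'

/-- **(R-case)**, with the conclusion packaged as `IsGoodSub` -/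
theorem exists_isGoodSub_of_reducible (hp2 : p ≠ 2) (rb : Γℚ →* Matrix (Fin 2) (Fin 2) k)
    (hdet : ∀ g : Γp, (rb (l2g g)).det = ((Tame.cycloN p g : ℕ) : k))
    (L₀ : IntermediateField ℚ_[p] (PadicAlgCl p)) [FiniteDimensional ℚ_[p] L₀]
    [Normal ℚ_[p] L₀] (hL₀ : IsBdd p L₀)
    (hr : ∀ g ∈ L₀.fixingSubgroup, rb (l2g g) = 1)
    (v : Fin 2 → k) (hv : v ≠ 0) (hst : ∀ g : Γp, ∃ c : k, rb (l2g g) *ᵥ v = c • v) :
    ∃ 𝒢 : AddSubgroup (Γp → Matrix (Fin 2) (Fin 2) k), IsGoodSub rb L₀ 𝒢 := by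
  classical
  -- triangular form
  obtain ⟨P, χ₁, χ₂, hP, h10, h00, h11, hdetχ⟩ :=
    exists_triangular (rb.comp (localGaloisToGlobal p)) v hv hst
  have hPdet : IsUnit P.det := (Matrix.isUnit_iff_isUnit_det P).1 hP
  have hPQ : P * P⁻¹ = 1 := Matrix.mul_nonsing_inv P hPdet
  -- the tame field `K`
  have hχL₀ : ∀ g ∈ L₀.fixingSubgroup, χ₁ g = 1 ∧ χ₂ g = 1 := by
    intro g hg
    have h1 : P * rb (l2g g) * P⁻¹ = 1 := by rw [hr g hg, Matrix.mul_one, hPQ]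
    have e0 := h00 g
    have e1 := h11 g
    rw [MonoidHom.comp_apply, h1] at e0 e1
    refine ⟨Units.ext ?_, Units.ext ?_⟩
    · rw [← e0]; simp
    · rw [← e1]; simp
  have hL : L₀.fixingSubgroup ≤ (χ₁.prod χ₂).ker := by
    intro g hg
    rw [MonoidHom.mem_ker, MonoidHom.prod_apply, (hχL₀ g hg).1, (hχL₀ g hg).2]
    rfl
  obtain ⟨K, hKL₀, hKn, hKfix, hKrank⟩ := exists_fixedField_of_ker (χ₁.prod χ₂) L₀ hL
  haveI := hKn
  haveI : FiniteDimensional ℚ_[p] K :=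
    Module.Finite.of_injective (IntermediateField.inclusion hKL₀).toLinearMap
      (IntermediateField.inclusion_injective hKL₀)
  have hdeg : ¬ p ∣ Module.finrank ℚ_[p] K := by
    rw [hKrank]
    intro h
    exact not_dvd_card_units_prod (k := k)
      (h.trans (Subgroup.card_subgroup_dvd_card (χ₁.prod χ₂).range))
  have hχK : ∀ g ∈ K.fixingSubgroup, χ₁ g = 1 ∧ χ₂ g = 1 := by
    intro g hg
    rw [hKfix, MonoidHom.mem_ker, MonoidHom.prod_apply, Prod.mk_eq_one] at hg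
    exact hg
  have hζ := Tame.zetaP_spec p
  have hζK : Tame.zetaP p ∈ K := by
    apply Kum.mem_of_fixed
    intro g hg
    have h1 : ((Tame.cycloN p g : ℕ) : k) = 1 := by
      rw [← hdet g]
      have := hdetχ g
      rw [MonoidHom.comp_apply] at this
      rw [this, (hχK g hg).1, (hχK g hg).2, Units.val_one, one_mul]
    have h2 : Tame.cycloN p g ≡ 1 [MOD p] := by
      apply (CharP.natCast_eq_natCast k p).1
      rw [h1, Nat.cast_one]
    rw [Tame.apply_eq_pow_cycloN p g _ hζ.pow_eq_one,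
      pow_eq_pow_of_modEq h2 hζ.pow_eq_one, pow_one]
  -- the tame data
  obtain ⟨τ, φ, n, N, hS⟩ := exists_tameData hp2 K hdeg hζ hζK
  have S₀ := hS L₀ hKL₀ hL₀
  have hχ₁K : ∀ g ∈ K.fixingSubgroup, χ₁ g = 1 := fun g hg => (hχK g hg).1
  have hχ₂K : ∀ g ∈ K.fixingSubgroup, χ₂ g = 1 := fun g hg => (hχK g hg).2
  by_cases hE : ((((χ₁ / χ₂) τ : kˣ)) : k) = (n : k) ∧ ((((χ₂ / χ₁) τ : kˣ)) : k) = (n : k)
  swap
  · exact ⟨⊤, isGoodSub_top hp2 rb L₀ K hKL₀ hS P hP χ₁ χ₂ h10 h00 h11 hχ₁K hχ₂K hE⟩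
  -- the exceptional case
  obtain ⟨hE1, hE2⟩ := hE
  rw [MonoidHom.div_apply, Units.val_div_eq_div_val] at hE1 hE2
  have ha0 : ((χ₁ τ : kˣ) : k) ≠ 0 := Units.ne_zero _
  have hb0 : ((χ₂ τ : kˣ) : k) ≠ 0 := Units.ne_zero _
  have hab : ((χ₁ τ : kˣ) : k) * ((χ₂ τ : kˣ) : k) = (n : k) := by
    have := hdetχ τ
    rw [MonoidHom.comp_apply, hdet τ, ← natCast_eq_cycloN hζ S₀.hn] at this
    exact this.symm
  have hn1 : ((n : ℕ) : k) ≠ 1 := natCast_ne_one_of_tameSetup S₀ hp2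
  set a := ((χ₁ τ : kˣ) : k) with ha
  set b := ((χ₂ τ : kˣ) : k) with hb
  set nn := ((n : ℕ) : k) with hnn
  have hnsq : nn * nn = 1 := by
    calc nn * nn = (a / b) * (b / a) := by rw [hE1, hE2]
      _ = 1 := by field_simp
  have hnneg : nn = -1 := by
    have h1 : (nn - 1) * (nn + 1) = 0 := by ring_nf; rw [pow_two, hnsq]; ring
    rcases mul_eq_zero.1 h1 with h | h
    · exact absurd (sub_eq_zero.1 h) hn1
    · exact eq_neg_of_add_eq_zero_left h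
  have hanb : a = nn * b := by
    rw [← hE1]
    field_simp
  have hbsq : b * b = 1 := by
    have h1 : nn * b * b = nn := by rw [← hanb]; exact hab
    rw [hnneg] at h1
    linear_combination (-1 : k) * h1
  have hb1 : b = 1 ∨ b = -1 := by
    have h1 : (b - 1) * (b + 1) = 0 := by ring_nf; rw [pow_two, hbsq]; ring
    rcases mul_eq_zero.1 h1 with h | h
    · exact Or.inl (sub_eq_zero.1 h)
    · exact Or.inr (eq_neg_of_add_eq_zero_left h)
  rcases hb1 with hb1 | hb1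
  · -- sub-case A
    have hA1 : χ₂ τ = 1 := Units.ext (by rw [Units.val_one]; exact hb1)
    have hA2 : a = nn := by rw [hanb, hb1, mul_one]
    exact ⟨_, isGoodSub_caseA hp2 rb L₀ hL₀ K hKL₀ hS P hP χ₁ χ₂ h10 h00 h11 hχ₁K hχ₂K hA1 hA2⟩
  · -- sub-case B
    have hB1 : χ₁ τ = 1 := Units.ext (by
      rw [Units.val_one]
      show a = 1
      rw [hanb, hb1, hnneg]
      ring)
    have hB2 : b = nn := by rw [hb1, hnneg]
    by_cases hfl : ∃ (c : Γℚ → Matrix (Fin 2) (Fin 2) k) (hc : IsCocycle rb c)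
        (hs : IsSmoothCochain rb c), (liftRep rb c hc hs).IsFlatAt p
    · obtain ⟨c₀, hc₀, hs₀, hfl₀⟩ := hfl
      exact isGoodSub_caseB hp2 rb L₀ hL₀ K hKL₀ hS P hP χ₁ χ₂ h10 h00 h11 hχ₁K hχ₂K hB1 hB2
        hc₀ hs₀ hfl₀
    · exact ⟨_, isGoodSub_cob rb L₀ (fun c hc hs h => hfl ⟨c, hc, hs, h⟩)⟩

end Main

end RCase

section Final

variable {p : ℕ} [hp : Fact p.Prime]
variable {k : Type} [Field k] [Finite k] [CharP k p]

local notation "Γp" => (PadicAlgCl p ≃ₐ[ℚ_[p]] PadicAlgCl p)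
local notation "Γℚ" => (AlgebraicClosure ℚ ≃ₐ[ℚ] AlgebraicClosure ℚ)
local notation "l2g" => localGaloisToGlobal p

/-- **(R-case)** (helper3 #2086), spelled out -/
theorem exists_good_of_reducible (hp2 : p ≠ 2) (rb : Γℚ →* Matrix (Fin 2) (Fin 2) k)
    (hdet : ∀ g : Γp, (rb (l2g g)).det = ((Tame.cycloN p g : ℕ) : k))
    (L₀ : IntermediateField ℚ_[p] (PadicAlgCl p)) [FiniteDimensional ℚ_[p] L₀]
    [Normal ℚ_[p] L₀] (hL₀ : IsBdd p L₀)
    (_hμ : ∀ ζ : PadicAlgCl p, ζ ^ p = 1 → ζ ∈ L₀)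
    (hr : ∀ g ∈ L₀.fixingSubgroup, rb (l2g g) = 1)
    (v : Fin 2 → k) (hv : v ≠ 0) (hst : ∀ g : Γp, ∃ c : k, rb (l2g g) *ᵥ v = c • v) :
    ∃ 𝒢 : AddSubgroup (Γp → Matrix (Fin 2) (Fin 2) k),
      (∀ m : Matrix (Fin 2) (Fin 2) k, m.trace = 0 →
        (fun g : Γp => rb (l2g g) * m * rb (l2g g)⁻¹ - m) ∈ 𝒢) ∧
      (∀ (c : Γℚ → Matrix (Fin 2) (Fin 2) k) (hc : IsCocycle rb c) (hs : IsSmoothCochain rb c),
        (liftRep rb c hc hs).IsFlatAt p → (fun g : Γp => c (l2g g)) ∈ 𝒢) ∧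
      ∀ (L : IntermediateField ℚ_[p] (PadicAlgCl p)) [FiniteDimensional ℚ_[p] L]
        [Normal ℚ_[p] L], L₀ ≤ L → IsBdd p L →
        Nat.card ↥(Zad (rb.comp (localGaloisToGlobal p)) L.fixingSubgroup ⊓ 𝒢) ≤
          Nat.card k ^ 4 :=
  RCase.exists_isGoodSub_of_reducible hp2 rb hdet L₀ hL₀ hr v hv hst

end Final

end Fermat.Agent.S56lib.Flat

end
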